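import Mathlib

/-!
# CAR (Charts): the function-field data of the chart theorem

The hypotheses `hx`, `K`, `hxK`, `hK`, `FiniteDimensional K F`, `hK0` of
`Charts.exists_eq_const_mul_pow_of_charts`, abstractly (Mathlib only):

* `exists_algebraMap_eq_of_isAlgebraic` : a Laurent series algebraic over the coefficient field
  `K` is a constant (`K` is algebraically closed in `K⸨X⸩`);
* `mem_range_of_isAlgebraic` : the same inside any intermediate field `F` of `K⸨X⸩ / K`
  (the literal shape of `hK0`);
* `transcendental_of_order_ne_zero` : an element of `F` whose `X`-order is nonzero is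
  transcendental over `K`;
* `isAlgebraic_adjoin_simple_of_isAlgebraic` : exchange — if `x` is transcendental over `K` and
  algebraic over `K(j)`, then `j` is algebraic over `K(x)`;
* `finiteDimensional_adjoin_simple_of_isAlgebraic` : if `F` is finite over `K(j)` and `j` is
  algebraic over `K(x)`, then `F` is finite over `K(x)`;
* `finiteDimensional_adjoin_simple_of_transcendental` : if `F` is finite over `K(j)` and `x ∈ F`
  is transcendental over `K`, then `F` is finite over `K(x)`.
-/

set_option autoImplicit false

namespace Fermat.Agent.CAR.Glob.ChartField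

open PowerSeries IntermediateField

section Laurent

variable {K : Type*} [Field K]

/-- A Laurent series algebraic over the coefficient field is a power series. -/
theorem exists_powerSeries_of_isAlgebraic {y : LaurentSeries K} (hy : IsAlgebraic K y) :
    ∃ f : K⟦X⟧, algebraMap K⟦X⟧ (LaurentSeries K) f = y := by
  obtain ⟨p, hp, hpy⟩ := hy.isIntegral
  have h2 : IsIntegral K⟦X⟧ y := by
    refine ⟨p.map (algebraMap K K⟦X⟧), hp.map _, ?_⟩
    rw [Polynomial.eval₂_map]
    exact hpy
  exact IsIntegrallyClosed.isIntegral_iff.mp h2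

/-- **`K` is algebraically closed in `K⸨X⸩`.** -/
theorem exists_algebraMap_eq_of_isAlgebraic {y : LaurentSeries K} (hy : IsAlgebraic K y) :
    ∃ c : K, algebraMap K (LaurentSeries K) c = y := by
  have hinj : Function.Injective (algebraMap K⟦X⟧ (LaurentSeries K)) :=
    IsFractionRing.injective K⟦X⟧ (LaurentSeries K)
  -- a nonzero algebraic element is (the image of) a unit of `K⟦X⟧`
  have key : ∀ z : LaurentSeries K, IsAlgebraic K z → z ≠ 0 → ∀ f : K⟦X⟧,
      algebraMap K⟦X⟧ (LaurentSeries K) f = z → constantCoeff f ≠ 0 := by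
    intro z hz hz0 f hf
    obtain ⟨g, hg⟩ := exists_powerSeries_of_isAlgebraic hz.inv
    have hfg : f * g = 1 := by
      apply hinj
      rw [map_mul, hf, hg, map_one, mul_inv_cancel₀ hz0]
    intro h0
    have h1 := congrArg constantCoeff hfg
    rw [map_mul, h0, zero_mul, map_one] at h1
    exact zero_ne_one h1
  obtain ⟨f, hf⟩ := exists_powerSeries_of_isAlgebraic hy
  refine ⟨constantCoeff f, ?_⟩
  by_contra hne
  have hz : IsAlgebraic K (y - algebraMap K (LaurentSeries K) (constantCoeff f)) :=
    hy.sub (isAlgebraic_algebraMap _)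
  have hz0 : y - algebraMap K (LaurentSeries K) (constantCoeff f) ≠ 0 :=
    sub_ne_zero.mpr (fun h => hne h.symm)
  have hf' : algebraMap K⟦X⟧ (LaurentSeries K) (f - C (constantCoeff f)) =
      y - algebraMap K (LaurentSeries K) (constantCoeff f) := by
    rw [map_sub, hf]
    rfl
  exact key _ hz hz0 _ hf' (by simp)

variable (F : IntermediateField K (LaurentSeries K))

/-- `K` is algebraically closed in every intermediate field of `K⸨X⸩ / K` (the shape `hK0` of
`Charts.exists_eq_const_mul_pow_of_charts`). -/
theorem mem_range_of_isAlgebraic (y : F) (hy : IsAlgebraic K y) :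
    y ∈ (algebraMap K F).range := by
  have hy' : IsAlgebraic K (algebraMap F (LaurentSeries K) y) :=
    (isAlgebraic_algebraMap_iff (algebraMap F (LaurentSeries K)).injective).mpr hy
  obtain ⟨c, hc⟩ := exists_algebraMap_eq_of_isAlgebraic hy'
  exact ⟨c, Subtype.ext hc⟩

/-- An element of nonzero `X`-order is transcendental over `K`. -/
theorem transcendental_of_order_ne_zero (x : F) (hx : (x : LaurentSeries K).order ≠ 0) :
    Transcendental K x := by
  intro halg
  obtain ⟨c, hc⟩ := mem_range_of_isAlgebraic F x halg
  apply hx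
  have h1 : (x : LaurentSeries K) = HahnSeries.C c := by
    rw [← hc, ← HahnSeries.ofPowerSeries_C]
    rfl
  rw [h1]
  exact HahnSeries.order_C

end Laurent

section Exchange

variable {K F : Type*} [Field K] [Field F] [Algebra K F]

open scoped IntermediateField.algebraAdjoinAdjoin

/-- **Exchange.**  If `x` is transcendental over `K` and algebraic over `K(j)`, then `j` is
algebraic over `K(x)`. -/
theorem isAlgebraic_adjoin_simple_of_isAlgebraic {x j : F} (hx : Transcendental K x)
    (hxj : IsAlgebraic K⟮j⟯ x) : IsAlgebraic K⟮x⟯ j := by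
  by_contra hj
  have hj' : Transcendental (Algebra.adjoin K {x}) j := fun h =>
    hj ((IsFractionRing.isAlgebraic_iff (Algebra.adjoin K {x}) K⟮x⟯ F).mp h)
  have hxj' : IsAlgebraic (Algebra.adjoin K {j}) x :=
    (IsFractionRing.isAlgebraic_iff (Algebra.adjoin K {j}) K⟮j⟯ F).mpr hxj
  let v : Bool → F := fun b => if b then x else j
  have himg1 : v '' {false}ᶜ = {x} := by
    ext y
    simp [v]
  have himg2 : v '' {true}ᶜ = {j} := by
    ext y
    simp [v]
  have hAI : AlgebraicIndependent K v := by
    rw [AlgebraicIndependent.iff_transcendental_adjoin_image false]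
    refine ⟨?_, ?_⟩
    · have : Subsingleton {b : Bool // b ≠ false} :=
        ⟨fun a b => Subtype.ext (by
          have ha := a.2
          have hb := b.2
          simp only [ne_eq, Bool.not_eq_false] at ha hb
          rw [ha, hb])⟩
      rw [algebraicIndependent_singleton_iff (⟨true, by simp⟩ : {b : Bool // b ≠ false})]
      exact hx
    · rw [himg1]
      exact hj'
  rw [AlgebraicIndependent.iff_transcendental_adjoin_image true] at hAI
  have h2 := hAI.2
  rw [himg2] at h2
  exact h2 hxj'

/-- If `F` is finite over `K(j)` and `j` is algebraic over `K(x)`, then `F` is finite over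
`K(x)`. -/
theorem finiteDimensional_adjoin_simple_of_isAlgebraic {x j : F} [FiniteDimensional K⟮j⟯ F]
    (hj : IsAlgebraic K⟮x⟯ j) : FiniteDimensional K⟮x⟯ F := by
  let E : IntermediateField K⟮x⟯ F := K⟮x⟯⟮j⟯
  have : FiniteDimensional K⟮x⟯ E := IntermediateField.adjoin.finiteDimensional hj.isIntegral
  have hle : ∀ y : K⟮j⟯, (y : F) ∈ E := by
    have h : K⟮j⟯ ≤ E.restrictScalars K := by
      rw [adjoin_simple_le_iff]
      exact mem_adjoin_simple_self K⟮x⟯ j
    exact fun y => h y.2
  let _ : Algebra K⟮j⟯ E := ((algebraMap K⟮j⟯ F).codRestrict E hle).toAlgebra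
  have : IsScalarTower K⟮j⟯ E F := IsScalarTower.of_algebraMap_eq (fun _ => rfl)
  have : Module.Finite E F := Module.Finite.of_restrictScalars_finite K⟮j⟯ E F
  exact Module.Finite.trans E F

/-- If `F` is finite over `K(j)` and `x ∈ F` is transcendental over `K`, then `F` is finite over
`K(x)`. -/
theorem finiteDimensional_adjoin_simple_of_transcendental {x : F} (j : F)
    [FiniteDimensional K⟮j⟯ F] (hx : Transcendental K x) : FiniteDimensional K⟮x⟯ F := by
  have : Algebra.IsAlgebraic K⟮j⟯ F := Algebra.IsAlgebraic.of_finite _ _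
  exact finiteDimensional_adjoin_simple_of_isAlgebraic
    (isAlgebraic_adjoin_simple_of_isAlgebraic (j := j) hx (Algebra.IsAlgebraic.isAlgebraic x))

/-- In characteristic zero a finite extension of `K(x)` is separable. -/
theorem isSeparable_adjoin_simple_of_charZero [CharZero K] (x : F) [FiniteDimensional K⟮x⟯ F] :
    Algebra.IsSeparable K⟮x⟯ F := by
  have : CharZero K⟮x⟯ := charZero_of_injective_algebraMap (algebraMap K K⟮x⟯).injective
  have : Algebra.IsAlgebraic K⟮x⟯ F := Algebra.IsAlgebraic.of_finite _ _
  exact Algebra.IsAlgebraic.isSeparable_of_perfectField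

end Exchange

end Fermat.Agent.CAR.Glob.ChartField
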