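import Mathlib
import Fermat.Agent.CAR.Glob.ChartField
import Fermat.Agent.ESJ.Jac.FinDimK

/-!
# CAR (Charts): the function-field data of the chart theorem for `K · F_N`

For every field `K ⊇ ℚ`, every level `N` and every `x ∈ K · F_N` whose `q`-order is nonzero
(e.g. `x = J_0 * J_2` at level `M' q²`, of order `-1 - q²`), the hypotheses `hx`,
`FiniteDimensional K⟮x⟯ F`, `Algebra.IsSeparable K⟮x⟯ F`, `hK0` of
`Charts.exists_eq_const_mul_pow_of_charts` hold for
`F = laurentBaseChange K (modularFunctionFieldFull N)` (take `K := K⟮x⟯`, `hxK :=
mem_adjoin_simple_self K x`, `hK := le_rfl` there).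
-/

set_option autoImplicit false

namespace Fermat.Agent.CAR.Glob.ChartField

open ModularCurve IntermediateField Fermat.Agent.ESJ.Jac

variable (K : Type) [Field K] [Algebra ℚ K] (N : ℕ) [NeZero N]

omit [NeZero N] in
/-- An element of `K · F_N` of nonzero `q`-order is transcendental over `K`. -/
theorem transcendental_FNK (x : ↥(laurentBaseChange K (modularFunctionFieldFull N)))
    (hx : (x : LaurentSeries K).order ≠ 0) : Transcendental K x :=
  transcendental_of_order_ne_zero _ x hx

/-- `K · F_N` is finite over `K(x)` for every `x` of nonzero `q`-order. -/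
theorem finiteDimensional_FNK (x : ↥(laurentBaseChange K (modularFunctionFieldFull N)))
    (hx : (x : LaurentSeries K).order ≠ 0) :
    FiniteDimensional K⟮x⟯ ↥(laurentBaseChange K (modularFunctionFieldFull N)) := by
  have := FinDimK.finiteDimensional_jBarK K N
  exact finiteDimensional_adjoin_simple_of_transcendental (jBarK K N)
    (transcendental_FNK K N x hx)

/-- `K · F_N` is separable over `K(x)` (characteristic zero). -/
theorem isSeparable_FNK (x : ↥(laurentBaseChange K (modularFunctionFieldFull N)))
    (hx : (x : LaurentSeries K).order ≠ 0) :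
    Algebra.IsSeparable K⟮x⟯ ↥(laurentBaseChange K (modularFunctionFieldFull N)) := by
  have := finiteDimensional_FNK K N x hx
  have : CharZero K := algebraRat.charZero K
  exact isSeparable_adjoin_simple_of_charZero x

omit [NeZero N] in
/-- `K` is algebraically closed in `K · F_N`. -/
theorem mem_range_of_isAlgebraic_FNK (y : ↥(laurentBaseChange K (modularFunctionFieldFull N)))
    (hy : IsAlgebraic K y) :
    y ∈ (algebraMap K ↥(laurentBaseChange K (modularFunctionFieldFull N))).range :=
  mem_range_of_isAlgebraic _ y hy

end Fermat.Agent.CAR.Glob.ChartField
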