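import Mathlib
import Fermat.Agent.CAR.V3.CountAbs

/-!
# CAR (Glob): the chart function `x = y z` (instance: `y = J_0`, `z = J_2`) — abstract part

* §1 integrality: the valuative criterion for `R[S]`, `y` integral over `R[z]` ⟹ `y` integral over
  `R[y z]`, `z` integral over `R[y]`, `z ≠ 0` ⟹ `y⁻¹` integral over `R[(y z)⁻¹]`, consequences for
  the two chart rings.
-/

set_option autoImplicit false
set_option linter.style.haveILetI false

namespace Fermat.Agent.CAR.Glob.ChartX

open Polynomial IsLocalRing
open Fermat.Agent.CAR.Formal (IsUnif)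
open Fermat.Agent.CAR.V3.CountAbs

/-! ### §1 Integrality -/

section Integral

variable {R F : Type*} [CommRing R] [Field F] [Algebra R F]

/-- **Valuative criterion** for the subalgebra generated by a set: `w` is integral over `R[S]` iff
it lies in every valuation subring of `F` containing the image of `R` and `S`. -/
theorem isIntegral_adjoin_iff {S : Set F} {w : F} :
    IsIntegral (Algebra.adjoin R S) w ↔
      ∀ V : ValuationSubring F, (∀ r : R, algebraMap R F r ∈ V) → (∀ s ∈ S, s ∈ V) → w ∈ V := by
  constructor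
  · intro hw V hR hS
    have h1 : (Algebra.adjoin R S).toSubring ≤ V.toSubring := by
      rw [Algebra.adjoin_eq_ring_closure, Subring.closure_le]
      rintro v (⟨r, rfl⟩ | hv)
      · exact hR r
      · exact hS v hv
    let φ : Algebra.adjoin R S →+* V :=
      (algebraMap (Algebra.adjoin R S) F).codRestrict V (fun a => h1 a.2)
    have h2 : IsIntegral V (RingHom.id F w) :=
      IsIntegral.map_of_comp_eq φ (RingHom.id F) (by ext a; rfl) hw
    obtain ⟨y, hy⟩ := IsIntegrallyClosedIn.isIntegral_iff.mp h2
    rw [RingHom.id_apply] at hy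
    rw [← hy]
    exact y.2
  · intro h
    have key := iInf_valuationSubring_superset (K := F) (s := Set.range (algebraMap R F) ∪ S)
    have hmem : w ∈ (integralClosure (Subring.closure (Set.range (algebraMap R F) ∪ S)) F).toSubring := by
      rw [← key, Subring.mem_iInf]
      rintro ⟨V, hV⟩
      exact h V (fun r => hV (Or.inl ⟨r, rfl⟩)) (fun s hs => hV (Or.inr hs))
    have hint : IsIntegral (Subring.closure (Set.range (algebraMap R F) ∪ S)) w := hmem
    let ψ : Subring.closure (Set.range (algebraMap R F) ∪ S) →+* Algebra.adjoin R S :=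
      (Subring.subtype _).codRestrict (Algebra.adjoin R S) (fun a => by
        have h3 : (a : F) ∈ (Algebra.adjoin R S).toSubring := by
          rw [Algebra.adjoin_eq_ring_closure]
          exact a.2
        exact h3)
    exact IsIntegral.map_of_comp_eq ψ (RingHom.id F) (by ext a; rfl) hint

/-- Singleton form of the valuative criterion. -/
theorem isIntegral_adjoin_singleton_iff {t w : F} :
    IsIntegral (Algebra.adjoin R {t}) w ↔
      ∀ V : ValuationSubring F, (∀ r : R, algebraMap R F r ∈ V) → t ∈ V → w ∈ V := by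
  rw [isIntegral_adjoin_iff]
  refine forall_congr' fun V => forall_congr' fun _ => ?_
  simp

/-- Transitivity: `t` integral over `R[s]` and `w` integral over `R[t]` ⟹ `w` integral over
`R[s]`. -/
theorem isIntegral_adjoin_trans {s t w : F} (ht : IsIntegral (Algebra.adjoin R {s}) t)
    (hw : IsIntegral (Algebra.adjoin R {t}) w) : IsIntegral (Algebra.adjoin R {s}) w := by
  rw [isIntegral_adjoin_singleton_iff] at ht hw ⊢
  exact fun V hR hs => hw V hR (ht V hR hs)

/-- **(X-1)** `y` integral over `R[z]` ⟹ `y` integral over `R[y z]`. -/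
theorem isIntegral_adjoin_mul_left {y z : F} (hy : IsIntegral (Algebra.adjoin R {z}) y) :
    IsIntegral (Algebra.adjoin R {y * z}) y := by
  rw [isIntegral_adjoin_singleton_iff] at hy ⊢
  intro V hR hx
  by_contra hyV
  have hinv : y⁻¹ ∈ V := (V.mem_or_inv_mem y).resolve_left hyV
  have hy0 : y ≠ 0 := fun h0 => hyV (h0 ▸ V.zero_mem)
  have hz : z ∈ V := by
    have : z = y⁻¹ * (y * z) := by field_simp
    rw [this]
    exact V.mul_mem _ _ hinv hx
  exact hyV (hy V hR hz)

/-- **(X-1)** `z` integral over `R[y]` ⟹ `z` integral over `R[y z]`. -/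
theorem isIntegral_adjoin_mul_right {y z : F} (hz : IsIntegral (Algebra.adjoin R {y}) z) :
    IsIntegral (Algebra.adjoin R {y * z}) z := by
  rw [mul_comm]
  exact isIntegral_adjoin_mul_left hz

/-- **(X-4)** `z ≠ 0` integral over `R[y]` ⟹ `y⁻¹` integral over `R[(y z)⁻¹]`. -/
theorem isIntegral_adjoin_inv_mul_left {y z : F} (hz0 : z ≠ 0)
    (hz : IsIntegral (Algebra.adjoin R {y}) z) :
    IsIntegral (Algebra.adjoin R {(y * z)⁻¹}) y⁻¹ := by
  rw [isIntegral_adjoin_singleton_iff] at hz ⊢
  intro V hR hx
  by_contra hyV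
  have hy : y ∈ V := by
    have := (V.mem_or_inv_mem y⁻¹).resolve_left hyV
    rwa [inv_inv] at this
  have hy0 : y ≠ 0 := fun h0 => hyV (by rw [h0, inv_zero]; exact V.zero_mem)
  have hzV : z ∈ V := hz V hR hy
  apply hyV
  have : y⁻¹ = z * (y * z)⁻¹ := by field_simp
  rw [this]
  exact V.mul_mem _ _ hzV hx

/-- **(X-4)** `y ≠ 0` integral over `R[z]` ⟹ `z⁻¹` integral over `R[(y z)⁻¹]`. -/
theorem isIntegral_adjoin_inv_mul_right {y z : F} (hy0 : y ≠ 0)
    (hy : IsIntegral (Algebra.adjoin R {z}) y) :
    IsIntegral (Algebra.adjoin R {(y * z)⁻¹}) z⁻¹ := by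
  rw [mul_comm]
  exact isIntegral_adjoin_inv_mul_left hy0 hy

/-- The chart rings of `y` and of `x = y z` coincide: `R[y z]` and `R[y]` have the same integral
closure in `F`. -/
theorem isIntegral_adjoin_mul_iff {y z : F} (hy : IsIntegral (Algebra.adjoin R {z}) y)
    (hz : IsIntegral (Algebra.adjoin R {y}) z) (w : F) :
    IsIntegral (Algebra.adjoin R {y * z}) w ↔ IsIntegral (Algebra.adjoin R {y}) w := by
  constructor
  · intro hw
    refine isIntegral_adjoin_trans ?_ hw
    rw [isIntegral_adjoin_singleton_iff] at hz ⊢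
    exact fun V hR hyV => V.mul_mem _ _ hyV (hz V hR hyV)
  · exact isIntegral_adjoin_trans (isIntegral_adjoin_mul_left hy)

/-- The chart ring at infinity of `x = y z` contains the chart ring at infinity of `y`. -/
theorem isIntegral_adjoin_inv_mul_of_left {y z w : F} (hz0 : z ≠ 0)
    (hz : IsIntegral (Algebra.adjoin R {y}) z) (hw : IsIntegral (Algebra.adjoin R {y⁻¹}) w) :
    IsIntegral (Algebra.adjoin R {(y * z)⁻¹}) w :=
  isIntegral_adjoin_trans (isIntegral_adjoin_inv_mul_left hz0 hz) hw

/-- The chart ring at infinity of `x = y z` contains the chart ring at infinity of `z`. -/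
theorem isIntegral_adjoin_inv_mul_of_right {y z w : F} (hy0 : y ≠ 0)
    (hy : IsIntegral (Algebra.adjoin R {z}) y) (hw : IsIntegral (Algebra.adjoin R {z⁻¹}) w) :
    IsIntegral (Algebra.adjoin R {(y * z)⁻¹}) w :=
  isIntegral_adjoin_trans (isIntegral_adjoin_inv_mul_right hy0 hy) hw

/-- Pull-back form: a ring hom `φ : F' → F` compatible with the `R`-structures maps elements
integral over `R[t']` to elements integral over `R[φ t']`. -/
theorem isIntegral_adjoin_map {F' : Type*} [Field F'] [Algebra R F'] (φ : F' →+* F)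
    (hφ : ∀ r : R, φ (algebraMap R F' r) = algebraMap R F r) {t' w' : F'}
    (hw : IsIntegral (Algebra.adjoin R {t'}) w') : IsIntegral (Algebra.adjoin R {φ t'}) (φ w') := by
  rw [isIntegral_adjoin_singleton_iff] at hw ⊢
  intro V hR ht
  exact hw (V.comap φ) (fun r => by
    rw [ValuationSubring.mem_comap, hφ]
    exact hR r) ht

/-- Valuative criterion for the subring generated by a set. -/
theorem isIntegral_closure_iff {F : Type*} [Field F] {S : Set F} {w : F} :
    IsIntegral (Subring.closure S) w ↔ ∀ V : ValuationSubring F, (∀ s ∈ S, s ∈ V) → w ∈ V := by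
  have key := iInf_valuationSubring_superset (K := F) (s := S)
  have h1 : IsIntegral (Subring.closure S) w ↔
      w ∈ (integralClosure (Subring.closure S) F).toSubring := Iff.rfl
  rw [h1, ← key, Subring.mem_iInf]
  exact ⟨fun h V hV => h ⟨V, hV⟩, fun h V => h V.1 V.2⟩

/-- Integrality over the subring generated by `S` implies integrality over `R[S]`. -/
theorem isIntegral_adjoin_of_closure {S : Set F} {w : F} (h : IsIntegral (Subring.closure S) w) :
    IsIntegral (Algebra.adjoin R S) w := by
  rw [isIntegral_closure_iff] at h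
  rw [isIntegral_adjoin_iff]
  exact fun V _ hS => h V hS

end Integral

/-! ### §2 Gauss points: uniqueness of the valuation on `K(t)` with transcendental residue -/

section Gauss

variable {K F : Type*} [Field K] [Field F] [Algebra K F]

/-- `t` has a residue in `V` which is transcendental over the residue field of `O`: a polynomial
with coefficients in `O` whose value at `t` is a non-unit of `V` has all its coefficients in the
maximal ideal of `O`. -/
def ResTransc (O : ValuationSubring K) (V : ValuationSubring F) (t : F) : Prop :=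
  ∀ p : K[X], (∀ n, p.coeff n ∈ O) → aeval t p ∈ V.nonunits → ∀ n, p.coeff n ∈ O.nonunits

variable {O : ValuationSubring K} {V V' : ValuationSubring F} {t : F}

/-- Every nonzero polynomial is a constant times a polynomial with coefficients in `O`, one of
which is `1`. -/
theorem exists_primitive (O : ValuationSubring K) {p : K[X]} (hp : p ≠ 0) :
    ∃ (c : K) (p₀ : K[X]), c ≠ 0 ∧ p = C c * p₀ ∧ (∀ n, p₀.coeff n ∈ O) ∧ ∃ n, p₀.coeff n = 1 := by
  classical
  obtain ⟨n₀, hn₀, hmax⟩ := Finset.exists_max_image p.support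
    (fun n => O.valuation (p.coeff n)) (by
      rw [Finset.nonempty_iff_ne_empty, Ne, Polynomial.support_eq_empty]; exact hp)
  have hc : p.coeff n₀ ≠ 0 := Polynomial.mem_support_iff.mp hn₀
  refine ⟨p.coeff n₀, C (p.coeff n₀)⁻¹ * p, hc, ?_, ?_, n₀, ?_⟩
  · rw [← mul_assoc, ← C_mul, mul_inv_cancel₀ hc, C_1, one_mul]
  · intro n
    rw [coeff_C_mul]
    by_cases hn : n ∈ p.support
    · rw [← O.valuation_le_one_iff, map_mul, map_inv₀]
      have h1 := hmax n hn
      have h2 : O.valuation (p.coeff n₀) ≠ 0 := (Valuation.ne_zero_iff _).mpr hc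
      calc (O.valuation (p.coeff n₀))⁻¹ * O.valuation (p.coeff n)
          ≤ (O.valuation (p.coeff n₀))⁻¹ * O.valuation (p.coeff n₀) :=
            mul_le_mul_right h1 _
        _ = 1 := inv_mul_cancel₀ h2
    · rw [Polynomial.notMem_support_iff.mp hn, mul_zero]
      exact O.zero_mem
  · rw [coeff_C_mul, inv_mul_cancel₀ hc]

/-- The value at `t` of a polynomial with coefficients in `O`, one of them `1`, is a unit of
`V`. -/
theorem ResTransc.aeval_primitive (h : ResTransc O V t) (hV : IsAbove O V) (ht : t ∈ V)
    {p₀ : K[X]} (hp : ∀ n, p₀.coeff n ∈ O) (hn : ∃ n, p₀.coeff n = 1) :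
    aeval t p₀ ∈ V ∧ (aeval t p₀)⁻¹ ∈ V := by
  have hmem : aeval t p₀ ∈ V := by
    rw [aeval_eq_sum_range]
    refine V.toSubring.sum_mem fun i _ => ?_
    rw [Algebra.smul_def]
    exact V.mul_mem _ _ ((hV _).mpr (hp i)) (V.pow_mem ht i)
  refine ⟨hmem, ?_⟩
  by_contra hinv
  have hnu : aeval t p₀ ∈ V.nonunits := by
    rw [ValuationSubring.mem_nonunits_iff_or]
    exact Or.inr hinv
  obtain ⟨n, hn⟩ := hn
  have h1 := h p₀ hp hnu n
  rw [hn, ValuationSubring.mem_nonunits_iff, map_one] at h1
  exact lt_irrefl _ h1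

/-- **Normal form on `K(t)`.**  A nonzero element of `K(t)` is a constant of `K` times an element
of `K(t)` which is a unit of EVERY valuation subring `V` above `O` containing `t` with
transcendental residue. -/
theorem exists_eq_mul_of_mem_adjoin (O : ValuationSubring K) {t f : F}
    (hf : f ∈ IntermediateField.adjoin K {t}) (hf0 : f ≠ 0) :
    ∃ (c : K) (u : F), c ≠ 0 ∧ u ∈ IntermediateField.adjoin K {t} ∧ f = algebraMap K F c * u ∧
      ∀ V : ValuationSubring F, IsAbove O V → t ∈ V → ResTransc O V t → u ∈ V ∧ u⁻¹ ∈ V := by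
  obtain ⟨r, s, rfl⟩ := (IntermediateField.mem_adjoin_simple_iff K f).mp hf
  have hr0 : r ≠ 0 := by
    rintro rfl
    exact hf0 (by simp)
  have hs0 : s ≠ 0 := by
    rintro rfl
    exact hf0 (by simp)
  obtain ⟨cr, r₀, hcr, hr, hr₀, hr₁⟩ := exists_primitive O hr0
  obtain ⟨cs, s₀, hcs, hs, hs₀, hs₁⟩ := exists_primitive O hs0
  have hs₀0 : aeval t s₀ ≠ 0 := by
    intro h0
    apply hf0
    rw [hs, map_mul, h0, mul_zero, div_zero]
  have hmemK : ∀ g : K[X], aeval t g ∈ IntermediateField.adjoin K {t} := fun g =>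
    (IntermediateField.mem_adjoin_simple_iff K _).mpr ⟨g, 1, by simp⟩
  refine ⟨cr / cs, aeval t r₀ / aeval t s₀, div_ne_zero hcr hcs,
    div_mem (hmemK r₀) (hmemK s₀), ?_, fun V hV ht h => ?_⟩
  · have hcsF : algebraMap K F cs ≠ 0 := (_root_.map_ne_zero _).mpr hcs
    rw [hr, hs, map_mul, map_mul, aeval_C, aeval_C, map_div₀]
    field_simp
  · obtain ⟨h1, h1'⟩ := h.aeval_primitive hV ht hr₀ hr₁
    obtain ⟨h2, h2'⟩ := h.aeval_primitive hV ht hs₀ hs₁
    refine ⟨?_, ?_⟩
    · rw [div_eq_mul_inv]
      exact V.mul_mem _ _ h1 h2'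
    · rw [inv_div, div_eq_mul_inv]
      exact V.mul_mem _ _ h2 h1'

/-- Multiplying by a unit of `V` does not change membership. -/
theorem mul_unit_mem_iff {V : ValuationSubring F} {a u : F} (hu : u ∈ V) (hu' : u⁻¹ ∈ V)
    (hu0 : u ≠ 0) : a * u ∈ V ↔ a ∈ V := by
  refine ⟨fun h => ?_, fun h => V.mul_mem _ _ h hu⟩
  have : a = a * u * u⁻¹ := by field_simp
  rw [this]
  exact V.mul_mem _ _ h hu'

/-- **(X-2) Uniqueness of the Gauss valuation.**  Two valuation subrings above `O` containing `t`
with transcendental residue have the same restriction to `K(t)`. -/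
theorem mem_iff_of_resTransc (hV : IsAbove O V) (hV' : IsAbove O V') (ht : t ∈ V) (ht' : t ∈ V')
    (h : ResTransc O V t) (h' : ResTransc O V' t) {f : F}
    (hf : f ∈ IntermediateField.adjoin K {t}) : f ∈ V ↔ f ∈ V' := by
  by_cases hf0 : f = 0
  · rw [hf0]
    exact ⟨fun _ => V'.zero_mem, fun _ => V.zero_mem⟩
  obtain ⟨c, u, -, -, rfl, hu⟩ := exists_eq_mul_of_mem_adjoin O hf hf0
  have hu0 : u ≠ 0 := fun h0 => hf0 (by rw [h0, mul_zero])
  obtain ⟨h1, h1'⟩ := hu V hV ht h
  obtain ⟨h2, h2'⟩ := hu V' hV' ht' h'
  rw [mul_unit_mem_iff h1 h1' hu0, mul_unit_mem_iff h2 h2' hu0, hV c, hV' c]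

/-- The restriction to `K(t)` of a valuation subring above `O` containing `t` with transcendental
residue is above `O`. -/
theorem isAbove_comap_adjoin (hV : IsAbove O V) (t : F) :
    IsAbove O (V.comap (algebraMap (IntermediateField.adjoin K {t}) F)) := by
  intro a
  rw [ValuationSubring.mem_comap, ← hV a, ← IsScalarTower.algebraMap_apply]

/-- `V` is above its restriction to `K(t)`. -/
theorem isAbove_comap_self (V : ValuationSubring F) (t : F) :
    IsAbove (V.comap (algebraMap (IntermediateField.adjoin K {t}) F)) V :=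
  fun _ => Iff.rfl

/-- **The Gauss ring is a discrete valuation ring with the uniformiser of `O`.** -/
theorem isUnif_comap_adjoin {ϖ : K} (hu : IsUnif O ϖ) (hV : IsAbove O V) (ht : t ∈ V)
    (h : ResTransc O V t) :
    IsUnif (V.comap (algebraMap (IntermediateField.adjoin K {t}) F))
      (algebraMap K (IntermediateField.adjoin K {t}) ϖ) := by
  refine ⟨?_, ?_, ?_⟩
  · rw [ValuationSubring.mem_comap, ← IsScalarTower.algebraMap_apply]
    exact (hV ϖ).mpr hu.mem
  · rw [ValuationSubring.mem_comap, ← map_inv₀, ← IsScalarTower.algebraMap_apply, hV]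
    exact hu.inv_notMem
  · intro x hx0
    have hxF : (x : F) ≠ 0 := fun h0 => hx0 (Subtype.ext h0)
    obtain ⟨c, u, hc, humem, hxu, huV⟩ := exists_eq_mul_of_mem_adjoin O x.2 hxF
    obtain ⟨hu1, hu1'⟩ := huV V hV ht h
    obtain ⟨n, a, ha, ha', rfl⟩ := hu.exists_zpow c hc
    refine ⟨n, ⟨algebraMap K F a * u, mul_mem (IntermediateField.algebraMap_mem _ a) humem⟩,
      ?_, ?_, ?_⟩
    · rw [ValuationSubring.mem_comap]
      exact V.mul_mem _ _ ((hV a).mpr ha) hu1
    · rw [ValuationSubring.mem_comap, map_inv₀]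
      change (algebraMap K F a * u)⁻¹ ∈ V
      rw [mul_inv, ← map_inv₀]
      exact V.mul_mem _ _ ((hV _).mpr ha') hu1'
    · apply Subtype.ext
      rw [hxu]
      change algebraMap K F (ϖ ^ n * a) * u =
        ((algebraMap K (IntermediateField.adjoin K {t}) ϖ ^ n : IntermediateField.adjoin K {t}) : F)
          * (algebraMap K F a * u)
      have e1 : ((algebraMap K (IntermediateField.adjoin K {t}) ϖ ^ n :
          IntermediateField.adjoin K {t}) : F) = algebraMap K F ϖ ^ n := by
        rw [← map_zpow₀, ← map_zpow₀]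
        rfl
      rw [e1, map_mul, map_zpow₀]
      ring

/-! #### Residue fields -/

/-- The inclusion `O → V` for a valuation subring `V` above `O`. -/
def aboveHom (hV : IsAbove O V) : O →+* V :=
  ((algebraMap K F).comp O.subtype).codRestrict V (fun a => (hV a).mpr a.2)

theorem coe_aboveHom (hV : IsAbove O V) (a : O) : ((aboveHom hV a : V) : F) = algebraMap K F a :=
  rfl

theorem isLocalHom_aboveHom (hV : IsAbove O V) : IsLocalHom (aboveHom hV) := by
  constructor
  intro a ha
  by_contra hna
  have h0 : a ∈ maximalIdeal O := hna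
  have h1 : (a : K) ∈ O.nonunits := ValuationSubring.coe_mem_nonunits_iff.mpr h0
  have h2 : algebraMap K F (a : K) ∈ V.nonunits := (hV.algebraMap_mem_nonunits_iff (a : K)).mpr h1
  have h3 : aboveHom hV a ∈ maximalIdeal V := ValuationSubring.coe_mem_nonunits_iff.mp h2
  exact h3 ha

/-- The induced map of residue fields. -/
noncomputable def resHom (hV : IsAbove O V) : ResidueField O →+* ResidueField V :=
  haveI := isLocalHom_aboveHom hV
  ResidueField.map (aboveHom hV)

theorem resHom_residue (hV : IsAbove O V) (a : O) :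
    resHom hV (residue O a) = residue V (aboveHom hV a) := by
  haveI := isLocalHom_aboveHom hV
  exact ResidueField.map_residue (aboveHom hV) a

/-- Evaluation of a polynomial with coefficients in `O` at an element of `V`. -/
theorem coe_eval₂_aboveHom (hV : IsAbove O V) (ht : t ∈ V) (pO : O[X]) :
    ((eval₂ (aboveHom hV) ⟨t, ht⟩ pO : V) : F) = aeval t (pO.map O.subtype) := by
  have h1 := hom_eval₂ pO (aboveHom hV) V.subtype ⟨t, ht⟩
  have h2 : ((eval₂ (aboveHom hV) ⟨t, ht⟩ pO : V) : F) =
      V.subtype (eval₂ (aboveHom hV) ⟨t, ht⟩ pO) := rfl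
  rw [h2, h1, aeval_def, eval₂_map]
  rfl

/-- A polynomial over `K` with coefficients in `O` comes from `O[X]`. -/
theorem exists_map_subtype_eq (O : ValuationSubring K) {p : K[X]} (hp : ∀ n, p.coeff n ∈ O) :
    ∃ pO : O[X], pO.map O.subtype = p ∧ ∀ n, ((pO.coeff n : O) : K) = p.coeff n := by
  have h1 : p ∈ lifts O.subtype := by
    rw [lifts_iff_coeff_lifts]
    exact fun n => ⟨⟨p.coeff n, hp n⟩, rfl⟩
  obtain ⟨pO, hpO⟩ := (mem_lifts p).mp h1
  refine ⟨pO, hpO, fun n => ?_⟩
  rw [← hpO, coeff_map]
  rfl

/-- **Criterion via a residue map.**  If `red : V → κ` kills the non-units, is compatible with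
`π : O → k` (whose kernel consists of non-units) and `red t` is transcendental over `k`, then `t`
has transcendental residue. -/
theorem resTransc_of_red {k κ : Type*} [Field k] [Field κ] [Algebra k κ] (π : O →+* k)
    (red : V →+* κ) (hV : IsAbove O V) (hπ : ∀ a : O, π a = 0 → (a : K) ∈ O.nonunits)
    (hred : ∀ v : V, (v : F) ∈ V.nonunits → red v = 0)
    (hcomp : ∀ a : O, red (aboveHom hV a) = algebraMap k κ (π a))
    (ht : t ∈ V) (htr : Transcendental k (red ⟨t, ht⟩)) : ResTransc O V t := by
  intro p hp hnu n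
  obtain ⟨pO, hpO, hcoe⟩ := exists_map_subtype_eq O hp
  have h1 : red (eval₂ (aboveHom hV) ⟨t, ht⟩ pO) = 0 := by
    apply hred
    rw [coe_eval₂_aboveHom, hpO]
    exact hnu
  rw [hom_eval₂] at h1
  have h2 : red.comp (aboveHom hV) = (algebraMap k κ).comp π := RingHom.ext hcomp
  rw [h2, ← eval₂_map, ← aeval_def] at h1
  have h3 := (transcendental_iff.mp htr) _ h1
  have h4 : π (pO.coeff n) = 0 := by
    rw [← coeff_map, h3, coeff_zero]
  rw [← hcoe n]
  exact hπ _ h4

/-- Residue-field form of `ResTransc` (⟸). -/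
theorem resTransc_of_transcendental_residue (hV : IsAbove O V) (ht : t ∈ V)
    (htr : letI := (resHom hV).toAlgebra
      Transcendental (ResidueField O) (residue V ⟨t, ht⟩)) : ResTransc O V t := by
  letI := (resHom hV).toAlgebra
  refine resTransc_of_red (residue O) (residue V) hV (fun a ha => ?_) (fun v hv => ?_)
    (fun a => ?_) ht htr
  · exact ValuationSubring.coe_mem_nonunits_iff.mpr ((residue_eq_zero_iff a).mp ha)
  · exact (residue_eq_zero_iff v).mpr (ValuationSubring.coe_mem_nonunits_iff.mp hv)
  · exact (resHom_residue hV a).symm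

/-- Residue-field form of `ResTransc` (⟹). -/
theorem ResTransc.transcendental_residue (h : ResTransc O V t) (hV : IsAbove O V) (ht : t ∈ V) :
    letI := (resHom hV).toAlgebra
    Transcendental (ResidueField O) (residue V ⟨t, ht⟩) := by
  letI := (resHom hV).toAlgebra
  rw [transcendental_iff]
  intro P hP
  obtain ⟨pO, rfl⟩ := Polynomial.map_surjective (residue O) residue_surjective P
  have h1 : residue V (eval₂ (aboveHom hV) ⟨t, ht⟩ pO) = 0 := by
    rw [hom_eval₂]
    have h2 : (residue V).comp (aboveHom hV) =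
        (algebraMap (ResidueField O) (ResidueField V)).comp (residue O) :=
      RingHom.ext fun a => (resHom_residue hV a).symm
    rw [h2, ← eval₂_map, ← aeval_def]
    exact hP
  have h3 : aeval t (pO.map O.subtype) ∈ V.nonunits := by
    rw [← coe_eval₂_aboveHom hV ht]
    exact ValuationSubring.coe_mem_nonunits_iff.mpr ((residue_eq_zero_iff _).mp h1)
  have h4 := h (pO.map O.subtype) (fun n => by rw [coeff_map]; exact (pO.coeff n).2) h3
  ext n
  rw [coeff_map, coeff_zero, residue_eq_zero_iff]
  have h5 := h4 n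
  rw [coeff_map] at h5
  exact ValuationSubring.coe_mem_nonunits_iff.mp h5

/-! #### Transfer of the Gauss condition along mutual integrality -/

/-- **Transfer.**  Let `V` be above `O` and `s ∈ V` have transcendental residue.  If `t ∈ V` and
`s` is integral over `R[t]` (`R` a ring mapping into `O`), then `t` has transcendental residue
(otherwise the residue of `s` would be algebraic). -/
theorem ResTransc.of_isIntegral {R : Type*} [CommRing R] [Algebra R K] [Algebra R F]
    [IsScalarTower R K F] (hV : IsAbove O V) (hRO : ∀ r : R, algebraMap R K r ∈ O) {s t : F}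
    (hs : s ∈ V) (h : ResTransc O V s) (ht : t ∈ V)
    (hst : IsIntegral (Algebra.adjoin R {t}) s) : ResTransc O V t := by
  have hRV : ∀ r : R, algebraMap R F r ∈ V := fun r => by
    rw [IsScalarTower.algebraMap_apply R K F]
    exact (hV _).mpr (hRO r)
  refine resTransc_of_transcendental_residue hV ht ?_
  letI := (resHom hV).toAlgebra
  intro htalg
  -- `s̄` is integral over `k[t̄]`
  obtain ⟨g, hgm, hg⟩ := hst
  have hle : (Algebra.adjoin R {t}).toSubring ≤ V.toSubring := by
    rw [Algebra.adjoin_eq_ring_closure, Subring.closure_le]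
    rintro v (⟨r, rfl⟩ | hv)
    · exact hRV r
    · rw [Set.mem_singleton_iff.mp hv]
      exact ht
  let θ : Algebra.adjoin R {t} →+* V :=
    (algebraMap (Algebra.adjoin R {t}) F).codRestrict V (fun a => hle a.2)
  have h1 : eval₂ θ ⟨s, hs⟩ g = 0 := by
    apply Subtype.ext
    have h0 := hom_eval₂ g θ V.subtype ⟨s, hs⟩
    have h2 : ((eval₂ θ ⟨s, hs⟩ g : V) : F) = V.subtype (eval₂ θ ⟨s, hs⟩ g) := rfl
    rw [h2, h0]
    exact hg
  have h2 : eval₂ ((residue V).comp θ) (residue V ⟨s, hs⟩) g = 0 := by
    rw [← hom_eval₂, h1, map_zero]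
  set A : Subalgebra (ResidueField O) (ResidueField V) :=
    Algebra.adjoin (ResidueField O) {residue V ⟨t, ht⟩} with hA
  have hAmem : ∀ a : Algebra.adjoin R {t}, residue V (θ a) ∈ A := by
    intro a
    have hle2 : (Algebra.adjoin R {t}).toSubring ≤
        (A.toSubring.comap (residue V)).map V.subtype := by
      rw [Algebra.adjoin_eq_ring_closure, Subring.closure_le]
      rintro v (⟨r, rfl⟩ | hv)
      · refine ⟨⟨algebraMap R F r, hRV r⟩, ?_, rfl⟩
        have e1 : (⟨algebraMap R F r, hRV r⟩ : V) = aboveHom hV ⟨algebraMap R K r, hRO r⟩ :=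
          Subtype.ext (IsScalarTower.algebraMap_apply R K F r)
        change residue V _ ∈ A
        rw [e1, ← resHom_residue]
        exact A.algebraMap_mem _
      · rw [Set.mem_singleton_iff.mp hv]
        exact ⟨⟨t, ht⟩, Algebra.subset_adjoin rfl, rfl⟩
    obtain ⟨v, hv, hva⟩ := hle2 a.2
    have e2 : θ a = v := Subtype.ext hva.symm
    rw [e2]
    exact hv
  let θ' : Algebra.adjoin R {t} →+* A := ((residue V).comp θ).codRestrict A hAmem
  have hint : IsIntegral A (residue V ⟨s, hs⟩) := by
    refine ⟨g.map θ', hgm.map _, ?_⟩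
    rw [eval₂_map]
    exact h2
  haveI : Algebra.IsIntegral (ResidueField O) A := Algebra.IsIntegral.adjoin (by
    rintro x hx
    rw [Set.mem_singleton_iff.mp hx]
    exact htalg.isIntegral)
  have hsalg : IsAlgebraic (ResidueField O) (residue V ⟨s, hs⟩) :=
    (isIntegral_trans _ hint).isAlgebraic
  exact h.transcendental_residue hV hs hsalg

/-- **Transfer along mutual integrality.**  If `s ∈ V` has transcendental residue, `t` is integral
over `R[s]` and `s` is integral over `R[t]`, then `t ∈ V` has transcendental residue. -/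
theorem ResTransc.of_isIntegral_of_isIntegral {R : Type*} [CommRing R] [Algebra R K]
    [Algebra R F] [IsScalarTower R K F] (hV : IsAbove O V) (hRO : ∀ r : R, algebraMap R K r ∈ O)
    {s t : F} (hs : s ∈ V) (h : ResTransc O V s) (hts : IsIntegral (Algebra.adjoin R {s}) t)
    (hst : IsIntegral (Algebra.adjoin R {t}) s) : t ∈ V ∧ ResTransc O V t := by
  have hRV : ∀ r : R, algebraMap R F r ∈ V := fun r => by
    rw [IsScalarTower.algebraMap_apply R K F]
    exact (hV _).mpr (hRO r)
  have ht : t ∈ V := (isIntegral_adjoin_singleton_iff.mp hts) V hRV hs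
  exact ⟨ht, h.of_isIntegral hV hRO hs ht hst⟩

/-- **(X-3), core.**  Let `V` be above `O`, and let `y`, `z` be integral over `R[z]`, `R[y]`
respectively (`R` a ring mapping into `O`).  If `x = y z` lies in `V` with transcendental residue,
then `y` lies in `V` with transcendental residue. -/
theorem ResTransc.of_mul {R : Type*} [CommRing R] [Algebra R K] [Algebra R F]
    [IsScalarTower R K F] (hV : IsAbove O V) (hRO : ∀ r : R, algebraMap R K r ∈ O) {y z : F}
    (hy : IsIntegral (Algebra.adjoin R {z}) y) (hz : IsIntegral (Algebra.adjoin R {y}) z)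
    (hx : y * z ∈ V) (h : ResTransc O V (y * z)) : y ∈ V ∧ ResTransc O V y := by
  refine h.of_isIntegral_of_isIntegral hV hRO hx (isIntegral_adjoin_mul_left hy) ?_
  rw [isIntegral_adjoin_singleton_iff] at hz ⊢
  exact fun W hR hyW => W.mul_mem _ _ hyW (hz W hR hyW)

/-- Polynomial form of `ResTransc` (the shape used by `CAR/V3/Count`): a polynomial over `O` with
a unit coefficient takes a unit value at `t`. -/
theorem resTransc_iff_forall_polynomial :
    ResTransc O V t ↔ ∀ P : O[X], (∃ n, ((P.coeff n : O) : K) ∉ O.nonunits) →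
      aeval t (P.map O.subtype) ∉ V.nonunits := by
  constructor
  · rintro h P ⟨n, hn⟩ hnu
    apply hn
    have h1 := h (P.map O.subtype) (fun m => by rw [coeff_map]; exact (P.coeff m).2) hnu n
    rwa [coeff_map] at h1
  · intro h p hp hnu n
    obtain ⟨pO, hpO, hcoe⟩ := exists_map_subtype_eq O hp
    by_contra hn
    exact h pO ⟨n, by rw [hcoe n]; exact hn⟩ (by rw [hpO]; exact hnu)

/-- Residue-map form of `ResTransc` (the shape of `CAR/V3/Count.eq_of_gauss`): if `π : O → k`
kills the non-units, a polynomial over `O` with nonzero reduction takes a unit value at `t`. -/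
theorem ResTransc.notMem_nonunits_of_map_ne_zero {k : Type*} [CommRing k] (π : O →+* k)
    (hπ : ∀ a : O, ¬ IsUnit a → π a = 0) (h : ResTransc O V t) (P : O[X]) (hP : P.map π ≠ 0) :
    aeval t (P.map O.subtype) ∉ V.nonunits := by
  intro hnu
  apply hP
  ext n
  rw [coeff_map, coeff_zero]
  apply hπ
  have h1 := h (P.map O.subtype) (fun m => by rw [coeff_map]; exact (P.coeff m).2) hnu n
  rw [coeff_map] at h1
  exact ValuationSubring.coe_mem_nonunits_iff.mp h1

/-- **The Gauss condition depends only on the mutual-integrality class.**  If `s`, `t` are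
integral over `R[t]`, `R[s]` respectively, then for every `V` above `O`: `s ∈ V` with
transcendental residue iff `t ∈ V` with transcendental residue. -/
theorem gauss_iff_of_isIntegral {R : Type*} [CommRing R] [Algebra R K] [Algebra R F]
    [IsScalarTower R K F] (hV : IsAbove O V) (hRO : ∀ r : R, algebraMap R K r ∈ O) {s t : F}
    (hts : IsIntegral (Algebra.adjoin R {s}) t) (hst : IsIntegral (Algebra.adjoin R {t}) s) :
    (s ∈ V ∧ ResTransc O V s) ↔ (t ∈ V ∧ ResTransc O V t) :=
  ⟨fun h => h.2.of_isIntegral_of_isIntegral hV hRO h.1 hts hst,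
    fun h => h.2.of_isIntegral_of_isIntegral hV hRO h.1 hst hts⟩

/-- **Tower.**  If `V` is above a valuation subring `O'` of an intermediate field `F'` and
`t' ∈ F'` has transcendental residue in `O'`, then its image has transcendental residue in `V`. -/
theorem ResTransc.of_isAbove {F' : Type*} [Field F'] [Algebra K F'] [Algebra F' F]
    [IsScalarTower K F' F] {O' : ValuationSubring F'} (hO' : IsAbove O' V) {t' : F'}
    (h : ResTransc O O' t') : ResTransc O V (algebraMap F' F t') := by
  intro p hp hnu n
  refine h p hp ?_ n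
  rw [← hO'.algebraMap_mem_nonunits_iff]
  have e : algebraMap F' F (aeval t' p) = aeval (algebraMap F' F t') p :=
    (aeval_algebraMap_apply F t' p).symm
  rw [e]
  exact hnu

/-- A valuation subring is above the Gauss ring of `t` (the restriction to `K(t)` of a reference
valuation subring `V₀` at which `t` has transcendental residue) iff it is above `O`, contains `t`
and `t` has transcendental residue. -/
theorem isAbove_comap_adjoin_iff {V₀ : ValuationSubring F} (hV₀ : IsAbove O V₀) (ht₀ : t ∈ V₀)
    (h₀ : ResTransc O V₀ t) (V' : ValuationSubring F) :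
    IsAbove (V₀.comap (algebraMap (IntermediateField.adjoin K {t}) F)) V' ↔
      IsAbove O V' ∧ t ∈ V' ∧ ResTransc O V' t := by
  constructor
  · intro hV'
    have hmem : ∀ f : F, f ∈ IntermediateField.adjoin K {t} → (f ∈ V' ↔ f ∈ V₀) := fun f hf =>
      hV' ⟨f, hf⟩
    have hnu : ∀ f : F, f ∈ IntermediateField.adjoin K {t} →
        (f ∈ V'.nonunits ↔ f ∈ V₀.nonunits) := fun f hf => by
      rw [ValuationSubring.mem_nonunits_iff_or, ValuationSubring.mem_nonunits_iff_or,
        hmem _ (inv_mem hf)]
    have hmemK : ∀ g : K[X], aeval t g ∈ IntermediateField.adjoin K {t} := fun g =>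
      (IntermediateField.mem_adjoin_simple_iff K _).mpr ⟨g, 1, by simp⟩
    refine ⟨fun a => ?_, ?_, fun p hp hpn => ?_⟩
    · rw [hmem _ (IntermediateField.algebraMap_mem _ a)]
      exact hV₀ a
    · exact (hmem t (IntermediateField.mem_adjoin_simple_self K t)).mpr ht₀
    · exact h₀ p hp ((hnu _ (hmemK p)).mp hpn)
  · rintro ⟨hV', ht', h'⟩ f
    rw [ValuationSubring.mem_comap]
    exact mem_iff_of_resTransc hV' hV₀ ht' ht₀ h' h₀ f.2

end Gauss

/-! ### §3 Exhaustion -/

section Exhaust

variable {K F : Type*} [Field K] [Field F] [Algebra K F] {O : ValuationSubring K}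
  {ι : Type*} {V : ι → ValuationSubring F}

/-- **(X-3), general form.**  Exhaustion at the Gauss point of `t` gives exhaustion at the Gauss
point of any `s` in the same mutual-integrality class. -/
theorem exists_eq_of_resTransc_of_isIntegral {R : Type*} [CommRing R] [Algebra R K] [Algebra R F]
    [IsScalarTower R K F] (hRO : ∀ r : R, algebraMap R K r ∈ O) {s t : F}
    (hts : IsIntegral (Algebra.adjoin R {s}) t) (hst : IsIntegral (Algebra.adjoin R {t}) s)
    (hex : ∀ V' : ValuationSubring F, IsAbove O V' → t ∈ V' → ResTransc O V' t → ∃ i, V' = V i)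
    (V' : ValuationSubring F) (hV' : IsAbove O V') (hs : s ∈ V') (h : ResTransc O V' s) :
    ∃ i, V' = V i := by
  obtain ⟨htV, ht'⟩ := h.of_isIntegral_of_isIntegral hV' hRO hs hts hst
  exact hex V' hV' htV ht'

/-- **(X-3)** If the `V i` are all the valuation subrings above `O` at which `y` has
transcendental residue, they are all the valuation subrings above `O` at which `x = y z` has
transcendental residue. -/
theorem exists_eq_of_resTransc_mul {R : Type*} [CommRing R] [Algebra R K] [Algebra R F]
    [IsScalarTower R K F] (hRO : ∀ r : R, algebraMap R K r ∈ O) {y z : F}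
    (hy : IsIntegral (Algebra.adjoin R {z}) y) (hz : IsIntegral (Algebra.adjoin R {y}) z)
    (hex : ∀ V' : ValuationSubring F, IsAbove O V' → y ∈ V' → ResTransc O V' y → ∃ i, V' = V i)
    (V' : ValuationSubring F) (hV' : IsAbove O V') (hx : y * z ∈ V')
    (h : ResTransc O V' (y * z)) : ∃ i, V' = V i := by
  obtain ⟨hyV, hy'⟩ := h.of_mul hV' hRO hy hz hx
  exact hex V' hV' hyV hy'

/-- **(X-3)**, in the form consumed by `CountAbs.Family`: exhaustion above the Gauss ring of
`x = y z` (the restriction of `V₀` to `K(x)`). -/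
theorem exists_eq_of_isAbove_comap_mul {R : Type*} [CommRing R] [Algebra R K] [Algebra R F]
    [IsScalarTower R K F] (hRO : ∀ r : R, algebraMap R K r ∈ O) {y z : F}
    (hy : IsIntegral (Algebra.adjoin R {z}) y) (hz : IsIntegral (Algebra.adjoin R {y}) z)
    (hex : ∀ V' : ValuationSubring F, IsAbove O V' → y ∈ V' → ResTransc O V' y → ∃ i, V' = V i)
    {V₀ : ValuationSubring F} (hV₀ : IsAbove O V₀) (hx₀ : y * z ∈ V₀)
    (h₀ : ResTransc O V₀ (y * z)) (V' : ValuationSubring F)
    (hV' : IsAbove (V₀.comap (algebraMap (IntermediateField.adjoin K {y * z}) F)) V') :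
    ∃ i, V' = V i := by
  obtain ⟨h1, h2, h3⟩ := (isAbove_comap_adjoin_iff hV₀ hx₀ h₀ V').mp hV'
  exact exists_eq_of_resTransc_mul hRO hy hz hex V' h1 h2 h3

end Exhaust

/-! ### §4 From exhaustion to a `CountAbs.Family` -/

section FamilyOfExhaust

variable {K F : Type*} [Field K] [Field F] [Algebra K F] [FiniteDimensional K F]
  [Algebra.IsSeparable K F] {ι : Type*} [Fintype ι] {O : ValuationSubring K} {ϖ : K}
  {V : ι → ValuationSubring F}

omit [FiniteDimensional K F] [Algebra.IsSeparable K F] [Fintype ι] in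
/-- Every prime of the integral closure of `O` in `F` above the maximal ideal is the centre of a
valuation subring above `O`. -/
theorem exists_isAbove_centre_eq (hu : IsUnif O ϖ) (𝔓 : Ideal (integralClosure O F))
    [h𝔓 : 𝔓.IsMaximal] (hϖ : algebraMap O (integralClosure O F) ⟨ϖ, hu.mem⟩ ∈ 𝔓) :
    ∃ (V' : ValuationSubring F) (hV' : IsAbove O V'), centre hV' = 𝔓 := by
  obtain ⟨V', hCV, h𝔓V⟩ := Ideal.image_subset_nonunits_valuationSubring
    (A := (integralClosure O F).toSubring) 𝔓 h𝔓.ne_top
  have hϖV : algebraMap K F ϖ ∈ V'.nonunits :=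
    h𝔓V ⟨algebraMap O (integralClosure O F) ⟨ϖ, hu.mem⟩, hϖ, rfl⟩
  have hV' : IsAbove O V' := by
    refine isAbove_of_mem hu (fun x hx => ?_) ?_
    · exact hCV (algebraMap O (integralClosure O F) ⟨x, hx⟩).2
    · rw [ValuationSubring.mem_nonunits_iff_or] at hϖV
      rcases hϖV with h0 | h0
      · exact absurd ((map_eq_zero _).mp h0) hu.ne_zero
      · exact h0
  refine ⟨V', hV', ?_⟩
  symm
  refine h𝔓.eq_of_le (centre_isPrime hV').ne_top fun s hs => ?_
  rw [mem_centre_iff]
  exact h𝔓V ⟨s, hs, rfl⟩

/-- A uniformising element of a prime of a Dedekind domain: `d ∈ P` and a cofactor `s ∉ P` with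
`P * Q' = (d)`, `s ∈ Q'`. -/
theorem exists_span_eq_mul {C : Type*} [CommRing C] [IsDedekindDomain C] (P : Ideal C)
    [hmax : P.IsMaximal] (hP0 : P ≠ ⊥) :
    ∃ (d s : C) (Q' : Ideal C), d ∈ P ∧ s ∈ Q' ∧ s ∉ P ∧ Ideal.span {d} = P * Q' := by
  classical
  have hP1 : P ≠ ⊤ := hmax.ne_top
  obtain ⟨d, hd1, hd2⟩ := Ideal.exists_mem_pow_notMem_pow_succ P hP0 hP1 1
  rw [pow_one] at hd1
  have hd0 : d ≠ 0 := fun h0 => hd2 (h0 ▸ Ideal.zero_mem _)
  have hspan0 : Ideal.span {d} ≠ ⊥ := by
    rw [Ne, Ideal.span_singleton_eq_bot]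
    exact hd0
  obtain ⟨Q', hQ', hI'⟩ := Ideal.eq_prime_pow_mul_coprime hspan0 P
  obtain ⟨s, hsQ, hsP⟩ : ∃ s ∈ Q', s ∉ P := by
    by_contra hcon
    push Not at hcon
    have : P ⊔ Q' = P := sup_eq_left.mpr hcon
    rw [this] at hQ'
    exact hP1 hQ'
  generalize Multiset.count P (UniqueFactorizationMonoid.normalizedFactors (Ideal.span {d})) = m
    at hI'
  have hdm : d ∈ P ^ m * Q' := by
    rw [← hI']
    exact Ideal.mem_span_singleton_self d
  have hm1 : m = 1 := by
    rcases Nat.lt_trichotomy m 1 with hlt | heq | hgt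
    · exfalso
      have hm0 : m = 0 := by omega
      rw [hm0, pow_zero, one_mul] at hI'
      have hle : Q' ≤ P := by
        rw [← hI', Ideal.span_singleton_le_iff_mem]
        exact hd1
      exact hsP (hle hsQ)
    · exact heq
    · exfalso
      apply hd2
      have h2 : P ^ m ≤ P ^ (1 + 1) := Ideal.pow_le_pow_right (by omega)
      exact h2 (Ideal.mul_le_left hdm)
  rw [hm1, pow_one] at hI'
  exact ⟨d, s, Q', hd1, hsQ, hsP, hI'⟩

/-- The uniformiser of `O` is a unit times the `e`-th power of a non-unit of `V` (`e` the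
ramification index of the centre of `V`). -/
theorem exists_ram (hu : IsUnif O ϖ) {V : ValuationSubring F} (hV : IsAbove O V) :
    ∃ d c : F, d ∈ V.nonunits ∧ c ∈ V ∧
      algebraMap K F ϖ = d ^ (centre hV).ramificationIdx O * c := by
  classical
  have hdvr := unif_isDiscreteValuationRing hu
  have hD := isDedekindDomain_closure (K := K) (F := F) (O := O)
  have hmax := centre_isMaximal hV
  obtain ⟨d, s, Q', hd1, hsQ, hsP, hI'⟩ := exists_span_eq_mul (centre hV) (centre_ne_bot hV)
  obtain ⟨Q, -, hI⟩ := Ideal.eq_prime_pow_mul_coprime (map_maximalIdeal_ne_bot (F := F) hu)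
    (centre hV)
  rw [← Ideal.IsDedekindDomain.ramificationIdx_eq_normalizedFactors_count (maximalIdeal O)
    (centre hV) (map_maximalIdeal_ne_bot hu)] at hI
  generalize (centre hV).ramificationIdx O = e at hI ⊢
  have hϖe : algebraMap O (integralClosure O F) ⟨ϖ, hu.mem⟩ ∈ centre hV ^ e := by
    have h1 : algebraMap O (integralClosure O F) ⟨ϖ, hu.mem⟩ ∈ centre hV ^ e * Q := by
      rw [← hI, map_maximalIdeal_eq hu]
      exact Ideal.mem_span_singleton_self _
    exact Ideal.mul_le_left h1
  have h2 : algebraMap O (integralClosure O F) ⟨ϖ, hu.mem⟩ * s ^ e ∈ Ideal.span {d ^ e} := by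
    rw [← Ideal.span_singleton_pow, hI', mul_pow]
    exact Ideal.mul_mem_mul hϖe (Ideal.pow_mem_pow hsQ e)
  obtain ⟨w, hw⟩ := Ideal.mem_span_singleton'.mp h2
  have hs' := (not_mem_centre_iff hV s).mp hsP
  refine ⟨(d : F), (w : F) * ((s : F)⁻¹) ^ e, (mem_centre_iff hV d).mp hd1,
    V.mul_mem _ _ (hV.coe_mem w) (V.pow_mem hs'.1 e), ?_⟩
  have h3 := congrArg (Subtype.val : integralClosure O F → F) hw
  have h4 : algebraMap O F ⟨ϖ, hu.mem⟩ = algebraMap K F ϖ := rfl
  push_cast at h3
  rw [h4] at h3
  have hs0 : (s : F) ^ e ≠ 0 := pow_ne_zero e hs'.2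
  rw [inv_pow, ← mul_assoc, mul_comm ((d : F) ^ e), h3, mul_assoc, mul_inv_cancel₀ hs0, mul_one]

set_option synthInstance.maxHeartbeats 200000 in
/-- There are `f` elements of `V` independent modulo the maximal ideal over `O` (`f` the residue
degree of the centre of `V`). -/
theorem exists_res (hu : IsUnif O ϖ) {V : ValuationSubring F} (hV : IsAbove O V) :
    ∃ b : Fin ((centre hV).inertiaDeg O) → F, (∀ j, b j ∈ V) ∧
      ∀ c : Fin ((centre hV).inertiaDeg O) → K, (∀ j, c j ∈ O) →
        ∑ j, algebraMap K F (c j) * b j ∈ V.nonunits → ∀ j, c j ∈ O.nonunits := by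
  classical
  have hdvr := unif_isDiscreteValuationRing hu
  have hD := isDedekindDomain_closure (K := K) (F := F) (O := O)
  have hfin := finite_closure (K := K) (F := F) (O := O)
  have hmax := centre_isMaximal hV
  have hf : (centre hV).inertiaDeg O =
      Module.finrank (O ⧸ maximalIdeal O) (integralClosure O F ⧸ centre hV) :=
    Ideal.inertiaDeg_eq_of_isMaximal (maximalIdeal O) (centre hV)
  obtain ⟨B, hB⟩ := exists_linearIndependent_of_le_finrank (R := O ⧸ maximalIdeal O)
    (M := integralClosure O F ⧸ centre hV) hf.le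
  choose s hs using fun j => Ideal.Quotient.mk_surjective (B j)
  refine ⟨fun j => (s j : F), fun j => hV.coe_mem (s j), fun c hc hsum j => ?_⟩
  have h1 : (∑ j, algebraMap O (integralClosure O F) ⟨c j, hc j⟩ * s j) ∈ centre hV := by
    rw [mem_centre_iff]
    have h2 : ((∑ j, algebraMap O (integralClosure O F) ⟨c j, hc j⟩ * s j :
        integralClosure O F) : F) = ∑ j, algebraMap K F (c j) * (s j : F) := by
      push_cast
      rfl
    rw [h2]
    exact hsum
  have h3 : ∑ j, (Ideal.Quotient.mk (maximalIdeal O) ⟨c j, hc j⟩) • B j = 0 := by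
    have h4 : ∑ j, (Ideal.Quotient.mk (maximalIdeal O) ⟨c j, hc j⟩) • B j =
        Ideal.Quotient.mk (centre hV)
          (∑ j, algebraMap O (integralClosure O F) ⟨c j, hc j⟩ * s j) := by
      rw [map_sum]
      refine Finset.sum_congr rfl fun j _ => ?_
      rw [← hs j, Algebra.smul_def, Ideal.Quotient.algebraMap_mk_of_liesOver, map_mul]
    rw [h4, Ideal.Quotient.eq_zero_iff_mem]
    exact h1
  rw [Fintype.linearIndependent_iff] at hB
  have h5 := hB _ h3 j
  rw [Ideal.Quotient.eq_zero_iff_mem] at h5
  exact ValuationSubring.coe_mem_nonunits_iff.mpr h5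

/-- Under exhaustion, the degree is the sum of `e f` over the family. -/
theorem finrank_eq_sum_of_exhaust (hu : IsUnif O ϖ) (habove : ∀ i, IsAbove O (V i))
    (hinj : Function.Injective V)
    (hex : ∀ V' : ValuationSubring F, IsAbove O V' → ∃ i, V' = V i) :
    Module.finrank K F = ∑ i, (centre (habove i)).ramificationIdx O *
      (centre (habove i)).inertiaDeg O := by
  classical
  have hdvr := unif_isDiscreteValuationRing hu
  have hD := isDedekindDomain_closure (K := K) (F := F) (O := O)
  have hfin := finite_closure (K := K) (F := F) (O := O)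
  have hfree := free_closure (K := K) (F := F) (O := O)
  have hfinite : Finite ((maximalIdeal O).primesOver (integralClosure O F)) :=
    (Algebra.QuasiFinite.finite_primesOver (maximalIdeal O)).to_subtype
  let _ : Fintype ((maximalIdeal O).primesOver (integralClosure O F)) := Fintype.ofFinite _
  have hsum := Ideal.sum_ramification_inertia_eq_finrank (maximalIdeal O) (integralClosure O F)
  rw [finrank_closure] at hsum
  let φ : ι → (maximalIdeal O).primesOver (integralClosure O F) := fun i =>
    ⟨centre (habove i), centre_isPrime _, centre_liesOver _⟩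
  have hφ : Function.Bijective φ := by
    refine ⟨fun i j hij => hinj (eq_of_centre_eq (habove i) (habove j)
      (congrArg Subtype.val hij)), fun q => ?_⟩
    have hq1 : q.1.IsPrime := q.2.1
    have hq2 : q.1.LiesOver (maximalIdeal O) := q.2.2
    have hϖq : algebraMap O (integralClosure O F) ⟨ϖ, hu.mem⟩ ∈ q.1 := by
      have h1 : (⟨ϖ, hu.mem⟩ : O) ∈ maximalIdeal O := by
        rw [unif_maximalIdeal_eq hu]
        exact Ideal.mem_span_singleton_self _
      rw [Ideal.LiesOver.over (P := q.1) (p := maximalIdeal O), Ideal.under_def,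
        Ideal.mem_comap] at h1
      exact h1
    have hq0 : q.1 ≠ ⊥ := fun h0 => algebraMap_unif_ne_zero (F := F) hu (by
      rw [h0, Ideal.mem_bot] at hϖq
      exact hϖq)
    have hqmax : q.1.IsMaximal := Ideal.IsPrime.isMaximal hq1 hq0
    obtain ⟨V', hV', hc⟩ := exists_isAbove_centre_eq hu q.1 hϖq
    obtain ⟨i, rfl⟩ := hex V' hV'
    exact ⟨i, Subtype.ext hc⟩
  rw [← hsum]
  exact (Fintype.sum_bijective φ hφ _ _ (fun i => rfl)).symm

/-- **From exhaustion to the count.**  If the finitely many pairwise distinct `V i` are ALL the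
valuation subrings of `F` above the discrete valuation subring `O` of `K`, then they form a
`CountAbs.Family` with their exact ramification indices and residue degrees. -/
theorem family_of_exhaust (hu : IsUnif O ϖ) (habove : ∀ i, IsAbove O (V i))
    (hinj : Function.Injective V)
    (hex : ∀ V' : ValuationSubring F, IsAbove O V' → ∃ i, V' = V i) :
    Family O ϖ V (fun i => (centre (habove i)).ramificationIdx O)
      (fun i => (centre (habove i)).inertiaDeg O) :=
  ⟨hu, habove, hinj, fun i => exists_ram hu (habove i), fun i => exists_res hu (habove i),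
    (finrank_eq_sum_of_exhaust hu habove hinj hex).le⟩

/-- **The counted family over the base `K(s)`.**  Let the `V i` be pairwise distinct valuation
subrings of `F` above `O` (a discrete valuation subring of `K` with uniformiser `ϖ`), containing
`t` with transcendental residue, and exhausting the valuation subrings with these properties.
If `s` is in the mutual-integrality class of `t` and `F` is finite separable over `K(s)`, then
the `V i` form a `CountAbs.Family` above the Gauss ring of `K(s)` (the restriction of `V i₀`),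
with uniformiser `ϖ`. -/
theorem family_adjoin_of_gauss {K F : Type*} [Field K] [Field F] [Algebra K F]
    {O : ValuationSubring K} {ϖ : K} (hu : IsUnif O ϖ) {ι : Type*} [Fintype ι]
    {V : ι → ValuationSubring F} (hinj : Function.Injective V)
    {R : Type*} [CommRing R] [Algebra R K] [Algebra R F] [IsScalarTower R K F]
    (hRO : ∀ r : R, algebraMap R K r ∈ O) {s t : F}
    (hts : IsIntegral (Algebra.adjoin R {s}) t) (hst : IsIntegral (Algebra.adjoin R {t}) s)
    (habove : ∀ i, IsAbove O (V i)) (ht : ∀ i, t ∈ V i) (htr : ∀ i, ResTransc O (V i) t)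
    (hex : ∀ V' : ValuationSubring F, IsAbove O V' → t ∈ V' → ResTransc O V' t → ∃ i, V' = V i)
    (i₀ : ι) [FiniteDimensional (IntermediateField.adjoin K {s}) F]
    [Algebra.IsSeparable (IntermediateField.adjoin K {s}) F] :
    ∃ e f : ι → ℕ, Family ((V i₀).comap (algebraMap (IntermediateField.adjoin K {s}) F))
      (algebraMap K (IntermediateField.adjoin K {s}) ϖ) V e f := by
  have hs : ∀ i, s ∈ V i ∧ ResTransc O (V i) s := fun i =>
    (gauss_iff_of_isIntegral (habove i) hRO hts hst).mpr ⟨ht i, htr i⟩
  have habove' : ∀ i, IsAbove ((V i₀).comap (algebraMap (IntermediateField.adjoin K {s}) F))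
      (V i) := fun i =>
    (isAbove_comap_adjoin_iff (habove i₀) (hs i₀).1 (hs i₀).2 (V i)).mpr
      ⟨habove i, (hs i).1, (hs i).2⟩
  refine ⟨_, _, family_of_exhaust (isUnif_comap_adjoin hu (habove i₀) (hs i₀).1 (hs i₀).2)
    habove' hinj fun V' hV' => ?_⟩
  obtain ⟨h1, h2, h3⟩ := (isAbove_comap_adjoin_iff (habove i₀) (hs i₀).1 (hs i₀).2 V').mp hV'
  exact exists_eq_of_resTransc_of_isIntegral hRO hts hst hex V' h1 h2 h3

end FamilyOfExhaust

/-! ### §5 The field `K(s)`: transcendence and finiteness -/

section Degree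

variable {K F : Type*} [Field K] [Field F] [Algebra K F]

/-- Integrality over `R[s]` gives integrality over any intermediate field containing `s`. -/
theorem isIntegral_intermediateField_of_isIntegral_adjoin {R : Type*} [CommRing R] [Algebra R K]
    [Algebra R F] [IsScalarTower R K F] (E : IntermediateField K F) {s t : F} (hs : s ∈ E)
    (h : IsIntegral (Algebra.adjoin R {s}) t) : IsIntegral E t := by
  have hle : (Algebra.adjoin R {s}).toSubring ≤ E.toSubfield.toSubring := by
    rw [Algebra.adjoin_eq_ring_closure, Subring.closure_le]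
    rintro v (⟨r, rfl⟩ | hv)
    · rw [IsScalarTower.algebraMap_apply R K F]
      exact E.algebraMap_mem _
    · rw [Set.mem_singleton_iff.mp hv]
      exact hs
  let φ : Algebra.adjoin R {s} →+* E :=
    (algebraMap (Algebra.adjoin R {s}) F).codRestrict E (fun a => hle a.2)
  exact IsIntegral.map_of_comp_eq φ (RingHom.id F) (by ext a; rfl) h

/-- If `t` is transcendental over `K` and integral over `K(s)`, then `s` is transcendental over
`K`. -/
theorem transcendental_of_isIntegral_adjoin {s t : F} (ht : Transcendental K t)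
    (hts : IsIntegral (IntermediateField.adjoin K {s}) t) : Transcendental K s := by
  intro hs
  apply ht
  haveI : Algebra.IsAlgebraic K (IntermediateField.adjoin K {s}) :=
    IntermediateField.isAlgebraic_adjoin_simple hs.isIntegral
  exact hts.isAlgebraic.restrictScalars K

/-- If `F` is generated over `K` by finitely many elements integral over an intermediate field
`E`, then `F` is finite-dimensional over `E`. -/
theorem finiteDimensional_of_adjoin_eq_top (E : IntermediateField K F) (S : Set F)
    (hS : S.Finite) (hgen : IntermediateField.adjoin K S = ⊤) (hint : ∀ y ∈ S, IsIntegral E y) :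
    FiniteDimensional E F := by
  haveI : Finite S := hS
  have hfin : FiniteDimensional E (IntermediateField.adjoin E S) :=
    IntermediateField.finiteDimensional_adjoin hint
  have hmem : ∀ y : F, y ∈ IntermediateField.adjoin E S := by
    intro y
    have hy : y ∈ IntermediateField.adjoin K S := by
      rw [hgen]
      trivial
    induction hy using IntermediateField.adjoin_induction with
    | mem x hx => exact IntermediateField.subset_adjoin E S hx
    | algebraMap c =>
      have h1 : algebraMap K F c = algebraMap E F (algebraMap K E c) := rfl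
      rw [h1]
      exact IntermediateField.algebraMap_mem _ _
    | add x y _ _ hx hy => exact add_mem hx hy
    | inv x _ hx => exact inv_mem hx
    | mul x y _ _ hx hy => exact mul_mem hx hy
  have htop : IntermediateField.adjoin E S = ⊤ := eq_top_iff.mpr fun y _ => hmem y
  rw [htop] at hfin
  exact Module.Finite.equiv (IntermediateField.topEquiv (F := E) (E := F)).toLinearEquiv

end Degree

end Fermat.Agent.CAR.Glob.ChartX
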