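import Mathlib
import Fermat.Agent.CAR.Local.VertHartogs

/-!
# CAR-15 (Charts): the two chart rings `R = integral closure of W[x]`, `R' = integral closure of
`W[x⁻¹]` in the shape the Newton–Čech endgame consumes (abstract, Mathlib only)
-/

set_option autoImplicit false

namespace Fermat.Agent.CAR.Glob.Charts

open Polynomial IntermediateField

section Basic

variable (W : Type*) {F : Type*} [CommRing W] [Field F] [Algebra W F]

/-- The chart ring `R(x)`: the integral closure of `W[x]` in `F`, as a `W`-subalgebra of `F`. -/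
def chart (x : F) : Subalgebra W F :=
  (integralClosure (Algebra.adjoin W {x}) F).restrictScalars W

variable {W}

theorem mem_chart_iff {x y : F} : y ∈ chart W x ↔ IsIntegral (Algebra.adjoin W {x}) y := Iff.rfl

theorem adjoin_le_chart (x : F) : Algebra.adjoin W {x} ≤ chart W x := fun a ha =>
  (isIntegral_algebraMap (R := Algebra.adjoin W {x}) (A := F) (x := ⟨a, ha⟩))

theorem self_mem_chart (x : F) : x ∈ chart W x :=
  adjoin_le_chart x (Algebra.self_mem_adjoin_singleton W x)

/-- The chart ring is integrally closed in `F`. -/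
theorem mem_chart_of_isIntegral {x y : F} (h : IsIntegral (chart W x) y) : y ∈ chart W x := by
  have h' : IsIntegral (integralClosure (Algebra.adjoin W {x}) F) y := h
  exact isIntegral_trans (R := Algebra.adjoin W {x}) (A := integralClosure (Algebra.adjoin W {x}) F) y h'

/-- (Ch-2) The chart ring is `m`-th-root closed in `F`. -/
theorem mem_chart_of_pow_mem {x y : F} {m : ℕ} (hm : 0 < m) (h : y ^ m ∈ chart W x) :
    y ∈ chart W x :=
  IsIntegral.of_pow hm h

end Basic

section Overlap

variable {W F : Type*} [CommRing W] [Field F] [Algebra W F]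

/-- Integrality over a subalgebra passes to a larger subalgebra. -/
theorem isIntegral_of_subalgebra_le {S T : Subalgebra W F} (h : S ≤ T) {r : F}
    (hr : IsIntegral S r) : IsIntegral T r := by
  obtain ⟨p, hp, hpr⟩ := hr
  refine ⟨p.map (Subalgebra.inclusion h).toRingHom, hp.map _, ?_⟩
  rw [eval₂_map]
  exact hpr

/-- Every element of `W[x, x⁻¹]` is `a / x ^ n` with `a ∈ W[x]`. -/
theorem exists_mul_pow_mem_adjoin {x : F} (hx : x ≠ 0) {z : F}
    (hz : z ∈ Algebra.adjoin W {x, x⁻¹}) : ∃ n : ℕ, z * x ^ n ∈ Algebra.adjoin W {x} := by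
  have hxA : x ∈ Algebra.adjoin W {x} := Algebra.self_mem_adjoin_singleton W x
  induction hz using Algebra.adjoin_induction with
  | mem z hz =>
    rcases hz with rfl | rfl
    · exact ⟨0, by simp [hxA]⟩
    · exact ⟨1, by rw [pow_one, inv_mul_cancel₀ hx]; exact one_mem _⟩
  | algebraMap w => exact ⟨0, by simp⟩
  | add z₁ z₂ _ _ h₁ h₂ =>
    obtain ⟨n₁, h₁⟩ := h₁
    obtain ⟨n₂, h₂⟩ := h₂
    refine ⟨n₁ + n₂, ?_⟩
    have : (z₁ + z₂) * x ^ (n₁ + n₂) = z₁ * x ^ n₁ * x ^ n₂ + z₂ * x ^ n₂ * x ^ n₁ := by ring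
    rw [this]
    exact add_mem (mul_mem h₁ (pow_mem hxA _)) (mul_mem h₂ (pow_mem hxA _))
  | mul z₁ z₂ _ _ h₁ h₂ =>
    obtain ⟨n₁, h₁⟩ := h₁
    obtain ⟨n₂, h₂⟩ := h₂
    refine ⟨n₁ + n₂, ?_⟩
    have : (z₁ * z₂) * x ^ (n₁ + n₂) = (z₁ * x ^ n₁) * (z₂ * x ^ n₂) := by ring
    rw [this]
    exact mul_mem h₁ h₂

/-- An element integral over `W[x, x⁻¹]` becomes integral over `W[x]` after multiplication by a
power of `x`. -/
theorem exists_pow_mul_isIntegral {x : F} (hx : x ≠ 0) {r : F}
    (hr : IsIntegral (Algebra.adjoin W {x, x⁻¹}) r) :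
    ∃ n : ℕ, IsIntegral (Algebra.adjoin W {x}) (x ^ n * r) := by
  have hAB : Algebra.adjoin W {x} ≤ Algebra.adjoin W {x, x⁻¹} :=
    Algebra.adjoin_mono (by simp)
  let _ : Algebra (Algebra.adjoin W {x}) (Algebra.adjoin W {x, x⁻¹}) :=
    (Subalgebra.inclusion hAB).toRingHom.toAlgebra
  have : IsScalarTower (Algebra.adjoin W {x}) (Algebra.adjoin W {x, x⁻¹}) F :=
    IsScalarTower.of_algebraMap_eq (fun _ => rfl)
  let xA : Algebra.adjoin W {x} := ⟨x, Algebra.self_mem_adjoin_singleton W x⟩
  have hinj : Function.Injective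
      (algebraMap (Algebra.adjoin W {x}) (Algebra.adjoin W {x, x⁻¹})) :=
    Subalgebra.inclusion_injective hAB
  have : IsLocalization (Submonoid.powers xA) (Algebra.adjoin W {x, x⁻¹}) := by
    refine (isLocalization_iff _ _).mpr ⟨?_, ?_, ?_⟩
    · rintro ⟨_, n, rfl⟩
      refine IsUnit.of_mul_eq_one (⟨x⁻¹, Algebra.subset_adjoin (by simp)⟩ ^ n) ?_
      apply Subtype.ext
      show (x ^ n) * (x⁻¹) ^ n = 1
      rw [← mul_pow, mul_inv_cancel₀ hx, one_pow]
    · rintro ⟨z, hz⟩
      obtain ⟨n, hn⟩ := exists_mul_pow_mem_adjoin hx hz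
      exact ⟨(⟨_, hn⟩, ⟨xA ^ n, n, rfl⟩), Subtype.ext rfl⟩
    · intro a b hab
      exact ⟨1, by rw [hinj hab]⟩
  obtain ⟨⟨_, n, rfl⟩, hm⟩ := IsIntegral.exists_multiple_integral_of_isLocalization
    (Submonoid.powers xA) (Rₘ := Algebra.adjoin W {x, x⁻¹}) r hr
  exact ⟨n, hm⟩

/-- (Ch-2) OVERLAP: an element of the chart at `x⁻¹` lands in the chart at `x` after
multiplication by a power of `x`. -/
theorem exists_pow_mul_mem_chart {x : F} (hx : x ≠ 0) {r : F} (hr : r ∈ chart W x⁻¹) :
    ∃ n : ℕ, x ^ n * r ∈ chart W x :=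
  exists_pow_mul_isIntegral hx
    (isIntegral_of_subalgebra_le (Algebra.adjoin_mono (by simp)) hr)

/-- (Ch-2) OVERLAP, the other direction. -/
theorem exists_inv_pow_mul_mem_chart {x : F} (hx : x ≠ 0) {r : F} (hr : r ∈ chart W x) :
    ∃ n : ℕ, x⁻¹ ^ n * r ∈ chart W x⁻¹ := by
  have h := exists_pow_mul_mem_chart (W := W) (x := x⁻¹) (inv_ne_zero hx) (r := r)
    (by rwa [inv_inv])
  exact h

end Overlap

section Fraction

variable {W K0 F : Type*} [CommRing W] [Field K0] [Algebra W K0]
  [Field F] [Algebra K0 F] [Algebra W F] [IsScalarTower W K0 F]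

theorem adjoin_le_intermediateField {t : F} {K : IntermediateField K0 F} (ht : t ∈ K)
    (a : Algebra.adjoin W {t}) : (a : F) ∈ K := by
  have h : Algebra.adjoin W {t} ≤ K.toSubalgebra.restrictScalars W :=
    Algebra.adjoin_le (by simpa using ht)
  exact h a.2

/-- The inclusion `W[t] → K` for `t ∈ K`. -/
def adjoinToField (t : F) (K : IntermediateField K0 F) (ht : t ∈ K) :
    Algebra.adjoin W {t} →+* K :=
  (algebraMap (Algebra.adjoin W {t}) F).codRestrict K (adjoin_le_intermediateField ht)

/-- The algebra structure `W[t] → K` for `t ∈ K` (not an instance). -/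
@[reducible] def adjoinAlgebra (t : F) (K : IntermediateField K0 F) (ht : t ∈ K) :
    Algebra (Algebra.adjoin W {t}) K :=
  (adjoinToField t K ht).toAlgebra

theorem adjoinAlgebra_isScalarTower (t : F) (K : IntermediateField K0 F) (ht : t ∈ K) :
    letI := adjoinAlgebra (W := W) t K ht
    IsScalarTower (Algebra.adjoin W {t}) K F :=
  letI := adjoinAlgebra (W := W) t K ht
  IsScalarTower.of_algebraMap_eq (fun _ => rfl)

variable [IsDomain W] [IsFractionRing W K0]

/-- `K0(t)` is the fraction field of `W[t]`. -/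
theorem adjoinAlgebra_isFractionRing (t : F) (K : IntermediateField K0 F) (ht : t ∈ K)
    (hK : K ≤ K0⟮t⟯) :
    letI := adjoinAlgebra (W := W) t K ht
    IsFractionRing (Algebra.adjoin W {t}) K := by
  let _ := adjoinAlgebra (W := W) t K ht
  have hinj : Function.Injective (algebraMap (Algebra.adjoin W {t}) K) :=
    fun a b hab => Subtype.ext (congrArg (fun z : K => (z : F)) hab)
  have : FaithfulSMul (Algebra.adjoin W {t}) K :=
    (faithfulSMul_iff_algebraMap_injective _ _).mpr hinj
  refine IsFractionRing.of_field _ K (fun z => ?_)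
  obtain ⟨r, s, hz⟩ := (mem_adjoin_simple_iff K0 (z : F)).mp (hK z.2)
  obtain ⟨b, hbm, hb⟩ := IsLocalization.integerNormalization_spec (nonZeroDivisors W) r
  obtain ⟨c, hcm, hc⟩ := IsLocalization.integerNormalization_spec (nonZeroDivisors W) s
  have hbF : algebraMap W F b ≠ 0 := by
    rw [IsScalarTower.algebraMap_apply W K0 F]
    exact (map_ne_zero_iff _ (algebraMap K0 F).injective).mpr
      (IsFractionRing.to_map_ne_zero_of_mem_nonZeroDivisors hbm)
  have hcF : algebraMap W F c ≠ 0 := by
    rw [IsScalarTower.algebraMap_apply W K0 F]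
    exact (map_ne_zero_iff _ (algebraMap K0 F).injective).mpr
      (IsFractionRing.to_map_ne_zero_of_mem_nonZeroDivisors hcm)
  have hr : aeval t (IsLocalization.integerNormalization (nonZeroDivisors W) r) =
      algebraMap W F b * aeval t r := by
    rw [← aeval_map_algebraMap K0, hb, ← algebraMap_smul K0 b r, map_smul, Algebra.smul_def,
      ← IsScalarTower.algebraMap_apply]
  have hs : aeval t (IsLocalization.integerNormalization (nonZeroDivisors W) s) =
      algebraMap W F c * aeval t s := by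
    rw [← aeval_map_algebraMap K0, hc, ← algebraMap_smul K0 c s, map_smul, Algebra.smul_def,
      ← IsScalarTower.algebraMap_apply]
  refine ⟨⟨algebraMap W F c *
      aeval t (IsLocalization.integerNormalization (nonZeroDivisors W) r),
      mul_mem (Subalgebra.algebraMap_mem _ _) (aeval_mem_adjoin_singleton _ _)⟩,
    ⟨algebraMap W F b *
      aeval t (IsLocalization.integerNormalization (nonZeroDivisors W) s),
      mul_mem (Subalgebra.algebraMap_mem _ _) (aeval_mem_adjoin_singleton _ _)⟩, Subtype.ext ?_⟩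
  show (z : F) = (algebraMap W F c *
      aeval t (IsLocalization.integerNormalization (nonZeroDivisors W) r)) /
    (algebraMap W F b *
      aeval t (IsLocalization.integerNormalization (nonZeroDivisors W) s))
  rw [hz, hr, hs, ← mul_assoc, ← mul_assoc, mul_comm (algebraMap W F c),
    mul_div_mul_left _ _ (mul_ne_zero hbF hcF)]

end Fraction

theorem algebraMap_base_injective (W K0 F : Type*) [CommRing W] [Field K0] [Algebra W K0]
    [IsFractionRing W K0] [Field F] [Algebra K0 F] [Algebra W F] [IsScalarTower W K0 F] :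
    Function.Injective (algebraMap W F) := by
  rw [IsScalarTower.algebraMap_eq W K0 F]
  exact (algebraMap K0 F).injective.comp (IsFractionRing.injective W K0)

section Finite

variable {W K0 F : Type*} [CommRing W] [IsDomain W] [Field K0] [Algebra W K0]
  [IsFractionRing W K0] [Field F] [Algebra K0 F] [Algebra W F] [IsScalarTower W K0 F]

omit [IsDomain W] in
theorem transcendental_base {t : F} (ht : Transcendental K0 t) : Transcendental W t :=
  ht.restrictScalars (IsFractionRing.injective W K0)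

omit [IsDomain W] in
theorem transcendental_inv {t : F} (ht : Transcendental K0 t) : Transcendental K0 t⁻¹ :=
  fun h => ht (by simpa using h.inv)

omit [IsDomain W] [IsFractionRing W K0] [CommRing W] [Algebra W K0] [Algebra W F]
  [IsScalarTower W K0 F] in
/-- `K0(x) = K0(x⁻¹)`: the hypotheses on `K` pass from `x` to `x⁻¹`. -/
theorem le_adjoin_inv {t : F} {K : IntermediateField K0 F} (hK : K ≤ K0⟮t⟯) : K ≤ K0⟮t⁻¹⟯ := by
  refine hK.trans ?_
  rw [adjoin_simple_le_iff]
  simpa using inv_mem (mem_adjoin_simple_self K0 t⁻¹)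

omit [IsDomain W] in
theorem ne_zero_of_transcendental {t : F} (ht : Transcendental K0 t) : t ≠ 0 :=
  fun h0 => ht (h0 ▸ isAlgebraic_zero)

omit [IsDomain W] in
/-- `W[t] ≅ W[X]` is Noetherian. -/
theorem adjoin_isNoetherianRing [IsNoetherianRing W] {t : F} (ht : Transcendental K0 t) :
    IsNoetherianRing (Algebra.adjoin W {t}) :=
  isNoetherianRing_of_ringEquiv W[X]
    (Polynomial.algEquivOfTranscendental W t (transcendental_base ht)).toRingEquiv

/-- `W[t] ≅ W[X]` is integrally closed. -/
theorem adjoin_isIntegrallyClosed [IsIntegrallyClosed W] {t : F} (ht : Transcendental K0 t) :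
    IsIntegrallyClosed (Algebra.adjoin W {t}) :=
  IsIntegrallyClosed.of_equiv
    (Polynomial.algEquivOfTranscendental W t (transcendental_base ht)).toRingEquiv

variable [IsNoetherianRing W] [IsIntegrallyClosed W]

/-- (Ch-1) The integral closure of `W[x]` in `F` is a finite `W[x]`-module, when `F` is finite
separable over `K = K0(x)`. -/
theorem integralClosure_finite {x : F} (hx : Transcendental K0 x)
    (K : IntermediateField K0 F) (hxK : x ∈ K) (hK : K ≤ K0⟮x⟯) [FiniteDimensional K F]
    [Algebra.IsSeparable K F] :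
    Module.Finite (Algebra.adjoin W {x}) (integralClosure (Algebra.adjoin W {x}) F) := by
  let _ := adjoinAlgebra (W := W) x K hxK
  have := adjoinAlgebra_isScalarTower (W := W) x K hxK
  have := adjoinAlgebra_isFractionRing (W := W) x K hxK hK
  have := adjoin_isNoetherianRing (W := W) hx
  have := adjoin_isIntegrallyClosed (W := W) hx
  exact IsIntegralClosure.finite (Algebra.adjoin W {x}) K F _

/-- (Ch-1) The integral closure of `W[x]` in `F` is a Noetherian ring. -/
theorem integralClosure_isNoetherianRing {x : F} (hx : Transcendental K0 x)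
    (K : IntermediateField K0 F) (hxK : x ∈ K) (hK : K ≤ K0⟮x⟯) [FiniteDimensional K F]
    [Algebra.IsSeparable K F] :
    IsNoetherianRing (integralClosure (Algebra.adjoin W {x}) F) := by
  let _ := adjoinAlgebra (W := W) x K hxK
  have := adjoinAlgebra_isScalarTower (W := W) x K hxK
  have := adjoinAlgebra_isFractionRing (W := W) x K hxK hK
  have := adjoin_isNoetherianRing (W := W) hx
  have := adjoin_isIntegrallyClosed (W := W) hx
  exact IsIntegralClosure.isNoetherianRing (Algebra.adjoin W {x}) K F _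

/-- (Ch-1) The chart ring is a Noetherian ring. -/
theorem chart_isNoetherianRing {x : F} (hx : Transcendental K0 x)
    (K : IntermediateField K0 F) (hxK : x ∈ K) (hK : K ≤ K0⟮x⟯) [FiniteDimensional K F]
    [Algebra.IsSeparable K F] : IsNoetherianRing (chart W x) :=
  integralClosure_isNoetherianRing hx K hxK hK

/-- (Ch-1) in the shape `hfin` of `NewtonCech.exists_global_root`: finitely many elements
generate the chart ring as a `W[x]`-module. -/
theorem exists_finset_span_chart {x : F} (hx : Transcendental K0 x)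
    (K : IntermediateField K0 F) (hxK : x ∈ K) (hK : K ≤ K0⟮x⟯) [FiniteDimensional K F]
    [Algebra.IsSeparable K F] :
    ∃ t : Finset F, ∀ y ∈ chart W x, y ∈ Submodule.span (Algebra.adjoin W {x}) (t : Set F) := by
  classical
  have := integralClosure_finite (W := W) hx K hxK hK
  obtain ⟨s, hs⟩ := (Module.Finite.fg_top :
    (⊤ : Submodule (Algebra.adjoin W {x}) (integralClosure (Algebra.adjoin W {x}) F)).FG)
  refine ⟨s.image Subtype.val, fun y hy => ?_⟩
  have hmem : (⟨y, hy⟩ : integralClosure (Algebra.adjoin W {x}) F) ∈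
      Submodule.span (Algebra.adjoin W {x}) (s : Set (integralClosure (Algebra.adjoin W {x}) F)) := by
    rw [hs]
    exact Submodule.mem_top
  have := Submodule.apply_mem_span_image_of_mem_span
    ((integralClosure (Algebra.adjoin W {x}) F).val.toLinearMap) hmem
  rw [Finset.coe_image]
  exact this

omit [IsNoetherianRing W] [IsIntegrallyClosed W] in
/-- The chart ring is integrally closed (as an abstract domain). -/
theorem integralClosure_isIntegrallyClosed {x : F}
    (K : IntermediateField K0 F) (hxK : x ∈ K) (hK : K ≤ K0⟮x⟯) [FiniteDimensional K F] :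
    IsIntegrallyClosed (integralClosure (Algebra.adjoin W {x}) F) := by
  let _ := adjoinAlgebra (W := W) x K hxK
  have := adjoinAlgebra_isScalarTower (W := W) x K hxK
  have := adjoinAlgebra_isFractionRing (W := W) x K hxK hK
  exact integralClosure.isIntegrallyClosedOfFiniteExtension K

omit [IsNoetherianRing W] [IsIntegrallyClosed W] in
/-- `F` is the fraction field of the chart ring. -/
theorem integralClosure_isFractionRing {x : F}
    (K : IntermediateField K0 F) (hxK : x ∈ K) (hK : K ≤ K0⟮x⟯) [FiniteDimensional K F] :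
    IsFractionRing (integralClosure (Algebra.adjoin W {x}) F) F := by
  let _ := adjoinAlgebra (W := W) x K hxK
  have := adjoinAlgebra_isScalarTower (W := W) x K hxK
  have := adjoinAlgebra_isFractionRing (W := W) x K hxK hK
  exact integralClosure.isFractionRing_of_finite_extension K F

end Finite

section Inter

variable {W K0 F : Type*} [CommRing W] [IsDomain W] [Field K0] [Algebra W K0]
  [IsFractionRing W K0] [Field F] [Algebra K0 F] [Algebra W F] [IsScalarTower W K0 F]

omit [IsDomain W] [Field K0] [Algebra W K0] [IsFractionRing W K0] [Algebra K0 F]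
  [IsScalarTower W K0 F] in
/-- `W[x] ∩ W[x⁻¹] = W` inside `F`, for `x` transcendental over `W`. -/
theorem mem_range_of_mem_adjoin_of_mem_adjoin_inv [Nontrivial W] {x : F}
    (hx : Transcendental W x) (hx0 : x ≠ 0) {z : F} (h1 : z ∈ Algebra.adjoin W {x})
    (h2 : z ∈ Algebra.adjoin W {x⁻¹}) : z ∈ (algebraMap W F).range := by
  rw [Algebra.adjoin_singleton_eq_range_aeval] at h1 h2
  obtain ⟨P, rfl⟩ := (AlgHom.mem_range _).mp h1
  obtain ⟨Q, hQ⟩ := (AlgHom.mem_range _).mp h2
  by_cases hP : P = 0
  · subst hP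
    exact ⟨0, by simp⟩
  have hinj : Function.Injective (aeval x : W[X] →ₐ[W] F) :=
    transcendental_iff_injective.mp hx
  let _ : Invertible x⁻¹ := invertibleOfNonzero (inv_ne_zero hx0)
  have hrev := eval₂_reverse_mul_pow (algebraMap W F) x⁻¹ Q
  rw [invOf_eq_inv, inv_inv] at hrev
  -- `x ^ n * P(x) = (reverse Q)(x)`
  have hEq : aeval x (X ^ Q.natDegree * P) = aeval x Q.reverse := by
    have h3 : (aeval x⁻¹) Q = eval₂ (algebraMap W F) x⁻¹ Q := rfl
    have h4 : (aeval x) Q.reverse = eval₂ (algebraMap W F) x Q.reverse := rfl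
    rw [map_mul, map_pow, aeval_X, ← hQ, h3, h4, ← hrev, mul_comm, mul_assoc, ← mul_pow,
      inv_mul_cancel₀ hx0, one_pow, mul_one]
  have hpoly := hinj hEq
  have hdeg : (X ^ Q.natDegree * P).natDegree = P.natDegree + Q.natDegree :=
    natDegree_X_pow_mul _ hP
  have hle : P.natDegree + Q.natDegree ≤ Q.natDegree := by
    rw [← hdeg, hpoly]
    exact reverse_natDegree_le Q
  have hP0 : P.natDegree = 0 := by omega
  refine ⟨P.coeff 0, ?_⟩
  conv_rhs => rw [eq_C_of_natDegree_eq_zero hP0]
  rw [aeval_C]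

/-- (Ch-3) The two charts meet in `W`: `R ∩ R' = W` inside `F`, when `K0` is algebraically closed
in `F`. -/
theorem mem_range_of_mem_chart_of_mem_chart_inv [IsIntegrallyClosed W] {x : F}
    (hx : Transcendental K0 x)
    (hK0 : ∀ y : F, IsAlgebraic K0 y → y ∈ (algebraMap K0 F).range)
    {y : F} (h : y ∈ chart W x) (h' : y ∈ chart W x⁻¹) : y ∈ (algebraMap W F).range := by
  have hx0 : x ≠ 0 := ne_zero_of_transcendental hx
  have hx' : Transcendental K0 x⁻¹ := transcendental_inv hx
  have hxK : x ∈ K0⟮x⟯ := mem_adjoin_simple_self K0 x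
  have hxK' : x⁻¹ ∈ K0⟮x⟯ := inv_mem hxK
  have hK' : K0⟮x⟯ ≤ K0⟮x⁻¹⟯ := by
    rw [adjoin_simple_le_iff]
    simpa using inv_mem (mem_adjoin_simple_self K0 x⁻¹)
  have hWF : Function.Injective (algebraMap W F) := by
    rw [IsScalarTower.algebraMap_eq W K0 F]
    exact (algebraMap K0 F).injective.comp (IsFractionRing.injective W K0)
  -- the coefficients of the minimal polynomial over `K0(x)` lie in `W[x] ∩ W[x⁻¹] = W`
  have key : ∀ i, algebraMap K0⟮x⟯ F ((minpoly K0⟮x⟯ y).coeff i) ∈ (algebraMap W F).range := by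
    intro i
    have h1 : algebraMap K0⟮x⟯ F ((minpoly K0⟮x⟯ y).coeff i) ∈ Algebra.adjoin W {x} := by
      let _ := adjoinAlgebra (W := W) x K0⟮x⟯ hxK
      have := adjoinAlgebra_isScalarTower (W := W) x K0⟮x⟯ hxK
      have := adjoinAlgebra_isFractionRing (W := W) x K0⟮x⟯ hxK le_rfl
      have := adjoin_isIntegrallyClosed (W := W) hx
      rw [minpoly.isIntegrallyClosed_eq_field_fractions' K0⟮x⟯ h, coeff_map]
      exact ((minpoly (Algebra.adjoin W {x}) y).coeff i).2
    have h2 : algebraMap K0⟮x⟯ F ((minpoly K0⟮x⟯ y).coeff i) ∈ Algebra.adjoin W {x⁻¹} := by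
      let _ := adjoinAlgebra (W := W) x⁻¹ K0⟮x⟯ hxK'
      have := adjoinAlgebra_isScalarTower (W := W) x⁻¹ K0⟮x⟯ hxK'
      have := adjoinAlgebra_isFractionRing (W := W) x⁻¹ K0⟮x⟯ hxK' hK'
      have := adjoin_isIntegrallyClosed (W := W) hx'
      rw [minpoly.isIntegrallyClosed_eq_field_fractions' K0⟮x⟯ h', coeff_map]
      exact ((minpoly (Algebra.adjoin W {x⁻¹}) y).coeff i).2
    exact mem_range_of_mem_adjoin_of_mem_adjoin_inv (transcendental_base hx) hx0 h1 h2
  -- hence `y` is integral over `W`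
  have hyK : IsIntegral K0⟮x⟯ y := by
    let _ := adjoinAlgebra (W := W) x K0⟮x⟯ hxK
    have := adjoinAlgebra_isScalarTower (W := W) x K0⟮x⟯ hxK
    exact IsIntegral.tower_top (R := Algebra.adjoin W {x}) h
  have hlift : (minpoly K0⟮x⟯ y).map (algebraMap K0⟮x⟯ F) ∈ lifts (algebraMap W F) := by
    rw [lifts_iff_coeff_lifts]
    intro n
    rw [coeff_map]
    exact key n
  obtain ⟨Q, hQ, -, hQm⟩ := lifts_and_natDegree_eq_and_monic hlift ((minpoly.monic hyK).map _)
  have hyW : IsIntegral W y := by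
    refine ⟨Q, hQm, ?_⟩
    rw [← eval_map, hQ, eval_map]
    exact minpoly.aeval K0⟮x⟯ y
  -- `y` is algebraic over `K0`, hence in `K0`, hence in `W`
  obtain ⟨c, rfl⟩ := hK0 y (hyW.isAlgebraic.extendScalars (IsFractionRing.injective W K0))
  have hc : IsIntegral W c := (isIntegral_algebraMap_iff (algebraMap K0 F).injective).mp hyW
  obtain ⟨w, rfl⟩ := IsIntegrallyClosed.isIntegral_iff.mp hc
  exact ⟨w, IsScalarTower.algebraMap_apply W K0 F w⟩

end Inter

section Saturation

variable {W K0 F : Type*} [CommRing W] [IsDomain W] [Field K0] [Algebra W K0]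
  [IsFractionRing W K0] [Field F] [Algebra K0 F] [Algebra W F] [IsScalarTower W K0 F]
  [IsNoetherianRing W] [IsIntegrallyClosed W]

omit [IsNoetherianRing W] [IsIntegrallyClosed W] in
/-- The chart ring is integrally closed (as an abstract domain). -/
theorem chart_isIntegrallyClosed {x : F} (K : IntermediateField K0 F) (hxK : x ∈ K)
    (hK : K ≤ K0⟮x⟯) [FiniteDimensional K F] : IsIntegrallyClosed (chart W x) :=
  integralClosure_isIntegrallyClosed (W := W) K hxK hK

omit [IsNoetherianRing W] [IsIntegrallyClosed W] in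
/-- `F` is the fraction field of the chart ring. -/
theorem chart_isFractionRing {x : F} (K : IntermediateField K0 F) (hxK : x ∈ K)
    (hK : K ≤ K0⟮x⟯) [FiniteDimensional K F] : IsFractionRing (chart W x) F :=
  integralClosure_isFractionRing (W := W) K hxK hK

/-- (Ch-4) SATURATION, general denominator.  Let `V i` be valuation subrings of `F` containing the
chart ring `R`, such that every prime of `R` minimal over `b R` is the centre of some `V i`.  Then
`y ∈ ⋂ V i` and `b y ∈ R` imply `y ∈ R`. -/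
theorem mem_chart_of_mul_mem {ι : Type*} (V : ι → ValuationSubring F) {x : F}
    (hx : Transcendental K0 x) (K : IntermediateField K0 F) (hxK : x ∈ K) (hK : K ≤ K0⟮x⟯)
    [FiniteDimensional K F] [Algebra.IsSeparable K F]
    (hRV : ∀ i, ∀ r ∈ chart W x, r ∈ V i) {b : chart W x} (hb : b ≠ 0)
    (hmin : ∀ 𝔮 ∈ (Ideal.span {b}).minimalPrimes,
      ∃ i, 𝔮 = Local.centre (V i) (fun a : chart W x => hRV i a a.2))
    {y : F} (hy : ∀ i, y ∈ V i) (hby : (b : F) * y ∈ chart W x) : y ∈ chart W x := by
  have : IsNoetherianRing (chart W x) := chart_isNoetherianRing hx K hxK hK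
  have : IsIntegrallyClosed (chart W x) := chart_isIntegrallyClosed (W := W) K hxK hK
  have : IsFractionRing (chart W x) F := chart_isFractionRing (W := W) K hxK hK
  obtain ⟨c, hc⟩ := Local.VertH.mem_range_of_pow_mul_eq (A := chart W x) V
    (fun i a => hRV i a a.2) hb hmin y 1 ⟨(b : F) * y, hby⟩ (by rw [pow_one]; rfl) hy
  rw [← hc]
  exact c.2

/-- (Ch-4) SATURATION at `q`: `y ∈ ⋂ V i`, `q y ∈ R` imply `y ∈ R`. -/
theorem mem_chart_of_smul_mem {ι : Type*} (V : ι → ValuationSubring F) {x : F}
    (hx : Transcendental K0 x) (K : IntermediateField K0 F) (hxK : x ∈ K) (hK : K ≤ K0⟮x⟯)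
    [FiniteDimensional K F] [Algebra.IsSeparable K F]
    (hRV : ∀ i, ∀ r ∈ chart W x, r ∈ V i) {q : W} (hq : q ≠ 0)
    (hmin : ∀ 𝔮 ∈ (Ideal.span {algebraMap W (chart W x) q}).minimalPrimes,
      ∃ i, 𝔮 = Local.centre (V i) (fun a : chart W x => hRV i a a.2))
    {y : F} (hy : ∀ i, y ∈ V i) (hqy : q • y ∈ chart W x) : y ∈ chart W x := by
  have hqF : algebraMap W F q ≠ 0 := fun h0 =>
    hq (algebraMap_base_injective W K0 F (by rw [h0, map_zero]))
  have hb : algebraMap W (chart W x) q ≠ 0 := fun h0 => hqF (by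
    have := congrArg (fun z : chart W x => (z : F)) h0
    simpa using this)
  refine mem_chart_of_mul_mem V hx K hxK hK hRV hb hmin hy ?_
  rw [Algebra.smul_def] at hqy
  exact hqy

/-- (Ch-4) RADICAL, in the shape `hsat` of `NewtonCech.exists_global_root_of_valuations`.  If
moreover `q ∣ z ^ e` in `V i` for every non-unit `z` of `V i` (ramification indices `≤ e`), then
every element of `R` which is a non-unit of all `V i` has its `e`-th power in `q R`. -/
theorem exists_pow_eq_smul_of_mem_nonunits {ι : Type*} (V : ι → ValuationSubring F) {x : F}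
    (hx : Transcendental K0 x) (K : IntermediateField K0 F) (hxK : x ∈ K) (hK : K ≤ K0⟮x⟯)
    [FiniteDimensional K F] [Algebra.IsSeparable K F]
    (hRV : ∀ i, ∀ r ∈ chart W x, r ∈ V i) {q : W} (hq : q ≠ 0)
    (hmin : ∀ 𝔮 ∈ (Ideal.span {algebraMap W (chart W x) q}).minimalPrimes,
      ∃ i, 𝔮 = Local.centre (V i) (fun a : chart W x => hRV i a a.2))
    (e : ℕ) (he : ∀ i, ∀ z ∈ (V i).nonunits, z ^ e / algebraMap W F q ∈ V i) :
    ∀ y ∈ chart W x, (∀ i, y ∈ (V i).nonunits) → ∃ N : ℕ, ∃ r ∈ chart W x, y ^ N = q • r := by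
  intro y hyR hy
  have hqF : algebraMap W F q ≠ 0 := fun h0 =>
    hq (algebraMap_base_injective W K0 F (by rw [h0, map_zero]))
  have hmul : q • (y ^ e / algebraMap W F q) = y ^ e := by
    rw [Algebra.smul_def, mul_div_cancel₀ _ hqF]
  refine ⟨e, y ^ e / algebraMap W F q, ?_, hmul.symm⟩
  refine mem_chart_of_smul_mem V hx K hxK hK hRV hq hmin (fun i => he i y (hy i)) ?_
  rw [hmul]
  exact pow_mem hyR e

/-- (Ch-4) RADICAL on the overlap `R[1/x]`, in the shape `hsat₀` of
`NewtonCech.exists_global_root_of_valuations`. -/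
theorem exists_pow_mul_pow_eq_smul_of_mem_nonunits {ι : Type*} (V : ι → ValuationSubring F)
    {x : F} (hx : Transcendental K0 x) (K : IntermediateField K0 F) (hxK : x ∈ K)
    (hK : K ≤ K0⟮x⟯) [FiniteDimensional K F] [Algebra.IsSeparable K F]
    (hRV : ∀ i, ∀ r ∈ chart W x, r ∈ V i) {q : W} (hq : q ≠ 0)
    (hmin : ∀ 𝔮 ∈ (Ideal.span {algebraMap W (chart W x) q}).minimalPrimes,
      ∃ i, 𝔮 = Local.centre (V i) (fun a : chart W x => hRV i a a.2))
    (e : ℕ) (he : ∀ i, ∀ z ∈ (V i).nonunits, z ^ e / algebraMap W F q ∈ V i) :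
    ∀ y : F, (∀ i, y ∈ (V i).nonunits) → (∃ n : ℕ, x ^ n * y ∈ chart W x) →
      ∃ N n : ℕ, ∃ r ∈ chart W x, x ^ n * y ^ N = q • r := by
  rintro y hy ⟨n, hn⟩
  have hxV : ∀ i, x ^ n ∈ V i := fun i => pow_mem (hRV i x (self_mem_chart x)) n
  have hy' : ∀ i, x ^ n * y ∈ (V i).nonunits := fun i => by
    rw [ValuationSubring.mem_nonunits_iff, map_mul]
    exact mul_lt_of_le_one_of_lt (((V i).valuation_le_one_iff _).2 (hxV i))
      ((ValuationSubring.mem_nonunits_iff (V i)).1 (hy i))
  obtain ⟨N, r, hr, hN⟩ :=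
    exists_pow_eq_smul_of_mem_nonunits V hx K hxK hK hRV hq hmin e he _ hn hy'
  exact ⟨N, n * N, r, hr, by rw [← hN, mul_pow, pow_mul]⟩

end Saturation

end Fermat.Agent.CAR.Glob.Charts
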