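/-
CAR, chart at infinity (ruling #3 D1; cusp recipe (Cu-1) in its CORRECTED form).

Abstract setting: a field `F`, three nonzero elements `j0 j1 j2 : F` (the functions `J_0, J_1, J_2`
of level `q²`), and `Φ ∈ ℤ[Y][X]` (outer variable `X`, inner variable `Y`; `ev2 Φ x y = Φ(x; y)`,
which is `(TD.polyAt Φ y).eval x`) such that

* `Φ` is monic of degree `q + 1` in `X`, its coefficient of `X^j` has `Y`-degree `≤ q` for `j ≥ 1`
  and `≤ q + 1` for `j = 0` (true for the modular polynomial: symmetry up to sign + monicity,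
  `natDegree_coeff_le_of_symm`);
* `Φ(j1; j0) = Φ(j0; j1) = Φ(j2; j1) = Φ(j1; j2) = 0`.

Then for every valuation subring `V` of `F`:

* `val_le_one_of_rel` : `v y ≤ 1 → v x ≤ 1` if `Φ(x; y) = 0`;
* `val_le_pow_of_rel` : `1 < v y → v x ≤ v y ^ q` if `Φ(x; y) = 0` (dominant term);
* `mem_of_inv_mul_mem` : if `(j0 * j2)⁻¹ ∈ V` then
  `j0⁻¹, j2⁻¹, j1 / j0^q, j1 / j2^q, j2 / j0^(q²), j0 / j2^(q²) ∈ V`;
* `isIntegral_quot` : hence these six elements are integral over every ring `R → F` whose image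
  contains `(j0 * j2)⁻¹` (valuative criterion).

WARNING: `j2 / j1^q` and `j0 / j1^q` are NOT integral over `R[(j0 j2)⁻¹]` in the application
(`J_1` vanishes at finite points where `J_0 J_2` is a unit); use `j2 / j0^(q²)`, `j0 / j2^(q²)`.
-/
import Mathlib

set_option autoImplicit false

namespace Fermat.Agent.CAR.Glob.CuspQuot

open Polynomial

variable {F : Type*} [Field F]

/-- `Φ(x; y)`: the outer variable evaluated at `x`, the inner variable at `y`. -/
noncomputable def ev2 (Φ : Polynomial (Polynomial ℤ)) (x y : F) : F :=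
  (Φ.map (Polynomial.eval₂RingHom (Int.castRingHom F) y)).eval x

theorem ev2_def (Φ : Polynomial (Polynomial ℤ)) (x y : F) :
    ev2 Φ x y = (Φ.map (Polynomial.eval₂RingHom (Int.castRingHom F) y)).eval x := rfl

/-! ### Coefficient degrees from symmetry -/

/-- A bivariate integer polynomial, monic of degree `n` in the outer variable and symmetric up to
a sign: the coefficient of `X^j` has inner degree `≤ n`. -/
theorem natDegree_coeff_le_of_symm {Φ : Polynomial (Polynomial ℤ)} {n : ℕ}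
    (hΦd : Φ.natDegree = n) {c : ℤ}
    (hsymm : ∀ i j, (Φ.coeff i).coeff j = c * (Φ.coeff j).coeff i) (j : ℕ) :
    (Φ.coeff j).natDegree ≤ n := by
  rw [natDegree_le_iff_coeff_eq_zero]
  intro i hi
  have h0 : Φ.coeff i = 0 := coeff_eq_zero_of_natDegree_lt (by rw [hΦd]; exact hi)
  rw [hsymm, h0, coeff_zero, mul_zero]

/-- … and inner degree `< n` if `j ≥ 1`. -/
theorem natDegree_coeff_lt_of_symm {Φ : Polynomial (Polynomial ℤ)} {n : ℕ} (hΦm : Φ.Monic)
    (hΦd : Φ.natDegree = n + 1) {c : ℤ}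
    (hsymm : ∀ i j, (Φ.coeff i).coeff j = c * (Φ.coeff j).coeff i) (j : ℕ) (hj : 1 ≤ j) :
    (Φ.coeff j).natDegree ≤ n := by
  rw [natDegree_le_iff_coeff_eq_zero]
  intro i hi
  rcases Nat.lt_or_ge (n + 1) i with h1 | h1
  · have h0 : Φ.coeff i = 0 := coeff_eq_zero_of_natDegree_lt (by rw [hΦd]; exact h1)
    rw [hsymm, h0, coeff_zero, mul_zero]
  · have hi' : i = n + 1 := le_antisymm h1 hi
    have hlead : Φ.coeff (n + 1) = 1 := by
      rw [← hΦd, coeff_natDegree, hΦm.leadingCoeff]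
    rw [hsymm, hi', hlead, coeff_one, if_neg (by omega), mul_zero]

/-! ### The dominant-term lemma -/

/-- A root of a monic polynomial cannot dominate all the lower terms. -/
theorem not_dominant (V : ValuationSubring F) (P : F[X]) (hP : P.Monic) (x : F)
    (hx : P.eval x = 0)
    (h : ∀ j < P.natDegree,
      V.valuation (P.coeff j) * V.valuation x ^ j < V.valuation x ^ P.natDegree) : False := by
  have h1 : P.eval x = x ^ P.natDegree + ∑ j ∈ Finset.range P.natDegree, P.coeff j * x ^ j := by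
    rw [Polynomial.eval_eq_sum_range, Finset.sum_range_succ, hP.coeff_natDegree, one_mul, add_comm]
  have hne : V.valuation x ^ P.natDegree ≠ 0 := by
    rcases Nat.eq_zero_or_pos P.natDegree with hn | hn
    · rw [hn, pow_zero]
      exact one_ne_zero
    · exact ((zero_le).trans_lt (h 0 hn)).ne'
  have h2 : V.valuation (∑ j ∈ Finset.range P.natDegree, P.coeff j * x ^ j) <
      V.valuation (x ^ P.natDegree) := by
    rw [map_pow]
    refine Valuation.map_sum_lt _ hne fun j hj => ?_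
    rw [map_mul, map_pow]
    exact h j (Finset.mem_range.mp hj)
  have h3 := Valuation.map_add_eq_of_lt_left V.valuation h2
  rw [← h1, hx, map_zero, map_pow] at h3
  exact hne h3.symm

/-- Integers have valuation `≤ 1`. -/
theorem val_intCast_le_one (V : ValuationSubring F) (a : ℤ) : V.valuation (a : F) ≤ 1 :=
  (V.valuation_le_one_iff _).mpr (intCast_mem V a)

/-- An integer polynomial at an element of `V` has valuation `≤ 1`. -/
theorem val_eval₂_le_one (V : ValuationSubring F) (c : Polynomial ℤ) {y : F}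
    (hy : V.valuation y ≤ 1) : V.valuation (c.eval₂ (Int.castRingHom F) y) ≤ 1 := by
  rw [Polynomial.eval₂_eq_sum_range]
  refine Valuation.map_sum_le _ fun i _ => ?_
  rw [map_mul, map_pow]
  exact mul_le_one' (val_intCast_le_one V _) (pow_le_one₀ zero_le hy)

/-- An integer polynomial of degree `≤ d` at an element of valuation `≥ 1`. -/
theorem val_eval₂_le_pow (V : ValuationSubring F) (c : Polynomial ℤ) {d : ℕ}
    (hd : c.natDegree ≤ d) {y : F} (hy : 1 ≤ V.valuation y) :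
    V.valuation (c.eval₂ (Int.castRingHom F) y) ≤ V.valuation y ^ d := by
  rw [Polynomial.eval₂_eq_sum_range]
  refine Valuation.map_sum_le _ fun i hi => ?_
  rw [map_mul, map_pow]
  have hi' : i ≤ d := (Nat.lt_succ_iff.mp (Finset.mem_range.mp hi)).trans hd
  calc V.valuation ((Int.castRingHom F) (c.coeff i)) * V.valuation y ^ i
      ≤ 1 * V.valuation y ^ i := mul_le_mul_left (val_intCast_le_one V _) _
    _ = V.valuation y ^ i := one_mul _
    _ ≤ V.valuation y ^ d := pow_le_pow_right₀ hy hi'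

section Rel

variable {Φ : Polynomial (Polynomial ℤ)} {q : ℕ}

theorem map_monic (hΦm : Φ.Monic) (y : F) :
    (Φ.map (Polynomial.eval₂RingHom (Int.castRingHom F) y)).Monic := hΦm.map _

theorem map_natDegree (hΦm : Φ.Monic) (y : F) :
    (Φ.map (Polynomial.eval₂RingHom (Int.castRingHom F) y)).natDegree = Φ.natDegree :=
  hΦm.natDegree_map _

theorem map_coeff (y : F) (j : ℕ) :
    (Φ.map (Polynomial.eval₂RingHom (Int.castRingHom F) y)).coeff j =
      (Φ.coeff j).eval₂ (Int.castRingHom F) y := by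
  rw [coeff_map, coe_eval₂RingHom]

/-- (i) `Φ(x; y) = 0`, `Φ` monic in `x`: `y ∈ V → x ∈ V`. -/
theorem val_le_one_of_rel (V : ValuationSubring F) (hΦm : Φ.Monic) {x y : F}
    (h : ev2 Φ x y = 0) (hy : V.valuation y ≤ 1) : V.valuation x ≤ 1 := by
  by_contra hx
  rw [not_le] at hx
  refine not_dominant V _ (map_monic hΦm y) x h fun j hj => ?_
  rw [map_coeff]
  calc V.valuation ((Φ.coeff j).eval₂ (Int.castRingHom F) y) * V.valuation x ^ j
      ≤ 1 * V.valuation x ^ j := mul_le_mul_left (val_eval₂_le_one V _ hy) _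
    _ = V.valuation x ^ j := one_mul _
    _ < V.valuation x ^ _ := pow_lt_pow_right₀ hx hj

/-- (ii) **the dominant-term lemma**: `Φ(x; y) = 0` and `1 < v y` imply `v x ≤ v y ^ q`. -/
theorem val_le_pow_of_rel (V : ValuationSubring F) (hΦm : Φ.Monic) (hΦd : Φ.natDegree = q + 1)
    (hq : 1 ≤ q) (hc : ∀ j, 1 ≤ j → (Φ.coeff j).natDegree ≤ q)
    (hc0 : (Φ.coeff 0).natDegree ≤ q + 1) {x y : F} (h : ev2 Φ x y = 0)
    (hy : 1 < V.valuation y) : V.valuation x ≤ V.valuation y ^ q := by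
  by_contra hx
  rw [not_le] at hx
  have hyq : V.valuation y ≤ V.valuation y ^ q := le_self_pow₀ hy.le (by omega)
  have hyx : V.valuation y < V.valuation x := lt_of_le_of_lt hyq hx
  have hx1 : 1 < V.valuation x := hy.trans hyx
  have hx0 : 0 < V.valuation x := zero_lt_one.trans hx1
  refine not_dominant V _ (map_monic hΦm y) x h fun j hj => ?_
  rw [map_natDegree hΦm, hΦd] at hj ⊢
  rw [map_coeff]
  rcases Nat.eq_zero_or_pos j with rfl | hj0
  · rw [pow_zero, mul_one]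
    exact lt_of_le_of_lt (val_eval₂_le_pow V _ hc0 hy.le)
      (pow_lt_pow_left₀ hyx zero_le (by omega))
  · have h1 : V.valuation ((Φ.coeff j).eval₂ (Int.castRingHom F) y) < V.valuation x :=
      lt_of_le_of_lt (val_eval₂_le_pow V _ (hc j hj0) hy.le) hx
    calc V.valuation ((Φ.coeff j).eval₂ (Int.castRingHom F) y) * V.valuation x ^ j
        < V.valuation x * V.valuation x ^ j :=
          mul_lt_mul_of_pos_right h1 (pow_pos hx0 j)
      _ = V.valuation x ^ (j + 1) := (pow_succ' _ _).symm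
      _ ≤ V.valuation x ^ (q + 1) := pow_le_pow_right₀ hx1.le (by omega)

/-- The valuations of `j0, j1, j2` at a valuation ring containing `(j0 * j2)⁻¹`. -/
theorem val_key (V : ValuationSubring F) (hΦm : Φ.Monic) (hΦd : Φ.natDegree = q + 1)
    (hq : 1 ≤ q) (hc : ∀ j, 1 ≤ j → (Φ.coeff j).natDegree ≤ q)
    (hc0 : (Φ.coeff 0).natDegree ≤ q + 1) {j0 j1 j2 : F} (hj0 : j0 ≠ 0) (hj2 : j2 ≠ 0)
    (h01 : ev2 Φ j1 j0 = 0) (h10 : ev2 Φ j0 j1 = 0) (h12 : ev2 Φ j2 j1 = 0)
    (h21 : ev2 Φ j1 j2 = 0) (hx : (j0 * j2)⁻¹ ∈ V) :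
    1 ≤ V.valuation j0 ∧ 1 ≤ V.valuation j2 ∧ V.valuation j1 ≤ V.valuation j0 ^ q ∧
      V.valuation j1 ≤ V.valuation j2 ^ q ∧ V.valuation j2 ≤ V.valuation j0 ^ (q ^ 2) ∧
      V.valuation j0 ≤ V.valuation j2 ^ (q ^ 2) := by
  have h0pos : 0 < V.valuation j0 := (Valuation.pos_iff _).mpr hj0
  have h2pos : 0 < V.valuation j2 := (Valuation.pos_iff _).mpr hj2
  have hprod : 1 ≤ V.valuation j0 * V.valuation j2 := by
    have h := (V.valuation_le_one_iff _).mpr hx
    rw [map_inv₀, map_mul] at h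
    exact (inv_le_one₀ (mul_pos h0pos h2pos)).mp h
  rcases le_or_gt (V.valuation j0) 1 with h0 | h0
  · have h1 : V.valuation j1 ≤ 1 := val_le_one_of_rel V hΦm h01 h0
    have h2 : V.valuation j2 ≤ 1 := val_le_one_of_rel V hΦm h12 h1
    have h0' : V.valuation j0 = 1 := by
      refine le_antisymm h0 ?_
      calc (1 : V.ValueGroup) ≤ V.valuation j0 * V.valuation j2 := hprod
        _ ≤ V.valuation j0 * 1 := mul_le_mul_right h2 _
        _ = V.valuation j0 := mul_one _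
    have h2' : V.valuation j2 = 1 := by
      refine le_antisymm h2 ?_
      calc (1 : V.ValueGroup) ≤ V.valuation j0 * V.valuation j2 := hprod
        _ = V.valuation j2 := by rw [h0', one_mul]
    rw [h0', h2', one_pow, one_pow]
    exact ⟨le_rfl, le_rfl, h1, h1, le_rfl, le_rfl⟩
  · have h1 : 1 < V.valuation j1 := by
      by_contra hcon
      exact absurd (val_le_one_of_rel V hΦm h10 (not_lt.mp hcon)) (not_le.mpr h0)
    have h2 : 1 < V.valuation j2 := by
      by_contra hcon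
      exact absurd (val_le_one_of_rel V hΦm h21 (not_lt.mp hcon)) (not_le.mpr h1)
    have a1 : V.valuation j1 ≤ V.valuation j0 ^ q :=
      val_le_pow_of_rel V hΦm hΦd hq hc hc0 h01 h0
    have a2 : V.valuation j1 ≤ V.valuation j2 ^ q :=
      val_le_pow_of_rel V hΦm hΦd hq hc hc0 h21 h2
    have a3 : V.valuation j2 ≤ V.valuation j1 ^ q :=
      val_le_pow_of_rel V hΦm hΦd hq hc hc0 h12 h1
    have a4 : V.valuation j0 ≤ V.valuation j1 ^ q :=
      val_le_pow_of_rel V hΦm hΦd hq hc hc0 h10 h1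
    refine ⟨h0.le, h2.le, a1, a2, ?_, ?_⟩
    · calc V.valuation j2 ≤ V.valuation j1 ^ q := a3
        _ ≤ (V.valuation j0 ^ q) ^ q := pow_le_pow_left₀ zero_le a1 q
        _ = V.valuation j0 ^ (q ^ 2) := by rw [← pow_mul, sq]
    · calc V.valuation j0 ≤ V.valuation j1 ^ q := a4
        _ ≤ (V.valuation j2 ^ q) ^ q := pow_le_pow_left₀ zero_le a2 q
        _ = V.valuation j2 ^ (q ^ 2) := by rw [← pow_mul, sq]

/-- The six elements of the chart at infinity. -/
def quots (q : ℕ) (j0 j1 j2 : F) : Set F :=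
  {j0⁻¹, j2⁻¹, j1 / j0 ^ q, j1 / j2 ^ q, j2 / j0 ^ (q ^ 2), j0 / j2 ^ (q ^ 2)}

/-- (iii) **(Cu-1), corrected**: a valuation ring containing `(j0 * j2)⁻¹` contains
`j0⁻¹, j2⁻¹, j1 / j0^q, j1 / j2^q, j2 / j0^(q²), j0 / j2^(q²)`. -/
theorem mem_of_inv_mul_mem (V : ValuationSubring F) (hΦm : Φ.Monic) (hΦd : Φ.natDegree = q + 1)
    (hq : 1 ≤ q) (hc : ∀ j, 1 ≤ j → (Φ.coeff j).natDegree ≤ q)
    (hc0 : (Φ.coeff 0).natDegree ≤ q + 1) {j0 j1 j2 : F} (hj0 : j0 ≠ 0) (hj2 : j2 ≠ 0)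
    (h01 : ev2 Φ j1 j0 = 0) (h10 : ev2 Φ j0 j1 = 0) (h12 : ev2 Φ j2 j1 = 0)
    (h21 : ev2 Φ j1 j2 = 0) (hx : (j0 * j2)⁻¹ ∈ V) :
    j0⁻¹ ∈ V ∧ j2⁻¹ ∈ V ∧ j1 / j0 ^ q ∈ V ∧ j1 / j2 ^ q ∈ V ∧ j2 / j0 ^ (q ^ 2) ∈ V ∧
      j0 / j2 ^ (q ^ 2) ∈ V := by
  obtain ⟨k0, k2, k1, k1', k4, k5⟩ := val_key V hΦm hΦd hq hc hc0 hj0 hj2 h01 h10 h12 h21 hx
  have h0pos : 0 < V.valuation j0 := (Valuation.pos_iff _).mpr hj0
  have h2pos : 0 < V.valuation j2 := (Valuation.pos_iff _).mpr hj2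
  refine ⟨?_, ?_, ?_, ?_, ?_, ?_⟩
  · rw [← V.valuation_le_one_iff, map_inv₀]
    exact (inv_le_one₀ h0pos).mpr k0
  · rw [← V.valuation_le_one_iff, map_inv₀]
    exact (inv_le_one₀ h2pos).mpr k2
  · rw [← V.valuation_le_one_iff, map_div₀, map_pow]
    exact (div_le_one₀ (pow_pos h0pos q)).mpr k1
  · rw [← V.valuation_le_one_iff, map_div₀, map_pow]
    exact (div_le_one₀ (pow_pos h2pos q)).mpr k1'
  · rw [← V.valuation_le_one_iff, map_div₀, map_pow]
    exact (div_le_one₀ (pow_pos h0pos _)).mpr k4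
  · rw [← V.valuation_le_one_iff, map_div₀, map_pow]
    exact (div_le_one₀ (pow_pos h2pos _)).mpr k5

theorem forall_mem_quots (V : ValuationSubring F) (hΦm : Φ.Monic) (hΦd : Φ.natDegree = q + 1)
    (hq : 1 ≤ q) (hc : ∀ j, 1 ≤ j → (Φ.coeff j).natDegree ≤ q)
    (hc0 : (Φ.coeff 0).natDegree ≤ q + 1) {j0 j1 j2 : F} (hj0 : j0 ≠ 0) (hj2 : j2 ≠ 0)
    (h01 : ev2 Φ j1 j0 = 0) (h10 : ev2 Φ j0 j1 = 0) (h12 : ev2 Φ j2 j1 = 0)
    (h21 : ev2 Φ j1 j2 = 0) (hx : (j0 * j2)⁻¹ ∈ V) : ∀ y ∈ quots q j0 j1 j2, y ∈ V := by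
  obtain ⟨a, b, c, d, e, f⟩ :=
    mem_of_inv_mul_mem V hΦm hΦd hq hc hc0 hj0 hj2 h01 h10 h12 h21 hx
  intro y hy
  simp only [quots, Set.mem_insert_iff, Set.mem_singleton_iff] at hy
  rcases hy with rfl | rfl | rfl | rfl | rfl | rfl
  exacts [a, b, c, d, e, f]

/-- The valuative criterion of integrality. -/
theorem isIntegral_of_forall_valuationSubring {R : Type*} [CommRing R] [Algebra R F] (y : F)
    (h : ∀ V : ValuationSubring F, (∀ r : R, algebraMap R F r ∈ V) → y ∈ V) :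
    IsIntegral R y := by
  by_contra hy
  have hyR : y ∉ (integralClosure R F).toSubring := hy
  obtain ⟨V, hRV, hyV⟩ := Subring.exists_le_valuationSubring_of_isIntegrallyClosedIn hyR
  exact hyV (h V fun r => hRV ((integralClosure R F).algebraMap_mem r))

/-- (iv) **the six quotients are integral** over every ring whose image in `F` contains
`(j0 * j2)⁻¹`. -/
theorem isIntegral_quot {R : Type*} [CommRing R] [Algebra R F] (hΦm : Φ.Monic)
    (hΦd : Φ.natDegree = q + 1) (hq : 1 ≤ q) (hc : ∀ j, 1 ≤ j → (Φ.coeff j).natDegree ≤ q)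
    (hc0 : (Φ.coeff 0).natDegree ≤ q + 1) {j0 j1 j2 : F} (hj0 : j0 ≠ 0) (hj2 : j2 ≠ 0)
    (h01 : ev2 Φ j1 j0 = 0) (h10 : ev2 Φ j0 j1 = 0) (h12 : ev2 Φ j2 j1 = 0)
    (h21 : ev2 Φ j1 j2 = 0) (hx : ∃ r : R, algebraMap R F r = (j0 * j2)⁻¹) :
    IsIntegral R j0⁻¹ ∧ IsIntegral R j2⁻¹ ∧ IsIntegral R (j1 / j0 ^ q) ∧
      IsIntegral R (j1 / j2 ^ q) ∧ IsIntegral R (j2 / j0 ^ (q ^ 2)) ∧
      IsIntegral R (j0 / j2 ^ (q ^ 2)) := by
  obtain ⟨r, hr⟩ := hx
  have key : ∀ V : ValuationSubring F, (∀ r : R, algebraMap R F r ∈ V) →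
      j0⁻¹ ∈ V ∧ j2⁻¹ ∈ V ∧ j1 / j0 ^ q ∈ V ∧ j1 / j2 ^ q ∈ V ∧ j2 / j0 ^ (q ^ 2) ∈ V ∧
        j0 / j2 ^ (q ^ 2) ∈ V := fun V hV =>
    mem_of_inv_mul_mem V hΦm hΦd hq hc hc0 hj0 hj2 h01 h10 h12 h21 (hr ▸ hV r)
  exact ⟨isIntegral_of_forall_valuationSubring _ fun V hV => (key V hV).1,
    isIntegral_of_forall_valuationSubring _ fun V hV => (key V hV).2.1,
    isIntegral_of_forall_valuationSubring _ fun V hV => (key V hV).2.2.1,
    isIntegral_of_forall_valuationSubring _ fun V hV => (key V hV).2.2.2.1,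
    isIntegral_of_forall_valuationSubring _ fun V hV => (key V hV).2.2.2.2.1,
    isIntegral_of_forall_valuationSubring _ fun V hV => (key V hV).2.2.2.2.2⟩

/-- The same for the chart `x = j0 * j2` itself: `j0, j1, j2` are integral over every ring whose
image contains `j0 * j2` (ruling #3 D1 (a)), *if* the coefficient `Φ(·; 0)`-argument applies:
here in the valuative form `j0 * j2 ∈ V → j0, j1, j2 ∈ V`. -/
theorem mem_of_mul_mem (V : ValuationSubring F) (hΦm : Φ.Monic) {j0 j1 j2 : F}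
    (h01 : ev2 Φ j1 j0 = 0) (h10 : ev2 Φ j0 j1 = 0) (h12 : ev2 Φ j2 j1 = 0)
    (h21 : ev2 Φ j1 j2 = 0) (hx : j0 * j2 ∈ V) : j0 ∈ V ∧ j1 ∈ V ∧ j2 ∈ V := by
  have key : V.valuation j1 ≤ 1 := by
    by_contra hcon
    rw [not_le] at hcon
    have h0 : 1 < V.valuation j0 := by
      by_contra h0
      exact absurd (val_le_one_of_rel V hΦm h01 (not_lt.mp h0)) (not_le.mpr hcon)
    have h2 : 1 < V.valuation j2 := by
      by_contra h2
      exact absurd (val_le_one_of_rel V hΦm h21 (not_lt.mp h2)) (not_le.mpr hcon)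
    have h := (V.valuation_le_one_iff _).mpr hx
    rw [map_mul] at h
    exact absurd h (not_le.mpr (one_lt_mul'' h0 h2))
  exact ⟨(V.valuation_le_one_iff _).mp (val_le_one_of_rel V hΦm h10 key),
    (V.valuation_le_one_iff _).mp key,
    (V.valuation_le_one_iff _).mp (val_le_one_of_rel V hΦm h12 key)⟩

/-- `j0, j1, j2` are integral over every ring whose image in `F` contains `j0 * j2`. -/
theorem isIntegral_of_mul {R : Type*} [CommRing R] [Algebra R F] (hΦm : Φ.Monic) {j0 j1 j2 : F}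
    (h01 : ev2 Φ j1 j0 = 0) (h10 : ev2 Φ j0 j1 = 0) (h12 : ev2 Φ j2 j1 = 0)
    (h21 : ev2 Φ j1 j2 = 0) (hx : ∃ r : R, algebraMap R F r = j0 * j2) :
    IsIntegral R j0 ∧ IsIntegral R j1 ∧ IsIntegral R j2 := by
  obtain ⟨r, hr⟩ := hx
  have key : ∀ V : ValuationSubring F, (∀ r : R, algebraMap R F r ∈ V) →
      j0 ∈ V ∧ j1 ∈ V ∧ j2 ∈ V := fun V hV =>
    mem_of_mul_mem V hΦm h01 h10 h12 h21 (hr ▸ hV r)
  exact ⟨isIntegral_of_forall_valuationSubring _ fun V hV => (key V hV).1,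
    isIntegral_of_forall_valuationSubring _ fun V hV => (key V hV).2.1,
    isIntegral_of_forall_valuationSubring _ fun V hV => (key V hV).2.2⟩

end Rel

end Fermat.Agent.CAR.Glob.CuspQuot
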