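/-
CAR, chart at infinity: the instance of `CAR/Glob/CuspQuot.lean` for the modular polynomial.

* `modEq_coeff_bounds` : for `D : TD.ModEq q` (`q` prime) the coefficient of `X^j` in `D.Φ` has
  inner degree `≤ q` (`j ≥ 1`) resp. `≤ q + 1` (`j = 0`) — from helper71's symmetry
  `BAD.CuspOrd.modEq_coeff_symm`;
* `rel_of_coe` : the four modular relations between three elements of a field of Laurent series
  with expansions `J(q^m), J(q^(m q)), J(q^(m q²))`;
* `mem_of_inv_mul_mem_modEq`, `isIntegral_quot_modEq`, `isIntegral_of_mul_modEq` : the corrected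
  (Cu-1) and ruling #3 D1 (a) for such elements;
* `piStar_*` : the same for `J_i := π_i^* (xL L M')` in `F = L·F_{M' q²}` (`CAR/V3/Inf.lean`).
-/
import Mathlib
import Fermat.Agent.CAR.Glob.CuspQuot
import Fermat.Agent.BAD.CuspOrdInst
import Fermat.Agent.S28.ValInd
import Fermat.Agent.CAR.V3.Inf

set_option autoImplicit false

namespace Fermat.Agent.CAR.Glob.CuspQuot

open Polynomial ModularCurve Fermat.Agent.S28 Fermat.Agent.Lib.Red Fermat.Agent.CAR.V3

theorem ev2_eq_polyAt {F : Type*} [Field F] (Φ : Polynomial (Polynomial ℤ)) (x y : F) :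
    ev2 Φ x y = (TD.polyAt Φ y).eval x := rfl

variable {q : ℕ} [NeZero q]

/-- The inner degrees of the coefficients of the modular polynomial. -/
theorem modEq_coeff_bounds (hq : q.Prime) (D : TD.ModEq q) :
    (∀ j, 1 ≤ j → (D.Φ.coeff j).natDegree ≤ q) ∧ (D.Φ.coeff 0).natDegree ≤ q + 1 := by
  obtain ⟨c, -, hc⟩ := Fermat.Agent.BAD.CuspOrd.modEq_coeff_symm hq D
  exact ⟨fun j hj => natDegree_coeff_lt_of_symm D.monic D.natDegree_eq hc j hj,
    natDegree_coeff_le_of_symm D.natDegree_eq hc 0⟩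

section Series

variable {L : Type*} [Field L]

/-- The four modular relations between `J(q^m)`, `J(q^(m q))`, `J(q^(m q²))`, inside any field of
Laurent series containing them. -/
theorem rel_of_coe (D : TD.ModEq q) (E : IntermediateField L (LaurentSeries L)) (m : ℕ)
    (hm : m ≠ 0) {j0 j1 j2 : E} (h0 : (j0 : LaurentSeries L) = TD.Jd L m)
    (h1 : (j1 : LaurentSeries L) = TD.Jd L (m * q))
    (h2 : (j2 : LaurentSeries L) = TD.Jd L (m * q * q)) :
    ev2 D.Φ j1 j0 = 0 ∧ ev2 D.Φ j0 j1 = 0 ∧ ev2 D.Φ j2 j1 = 0 ∧ ev2 D.Φ j1 j2 = 0 := by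
  have hq0 : q ≠ 0 := NeZero.ne q
  have hmq : m * q ≠ 0 := Nat.mul_ne_zero hm hq0
  have key : ∀ x y : E, (TD.polyAt D.Φ (y : LaurentSeries L)).eval (x : LaurentSeries L) = 0 →
      ev2 D.Φ x y = 0 := by
    intro x y h
    apply Subtype.val_injective
    have e := TD.map_eval_polyAt (algebraMap E (LaurentSeries L)) D.Φ x y
    rw [ev2_eq_polyAt]
    exact e.trans h
  refine ⟨key _ _ ?_, key _ _ ?_, key _ _ ?_, key _ _ ?_⟩
  · rw [h0, h1]
    exact D.rel₂' hq0 L m hm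
  · rw [h0, h1]
    exact D.rel₁' hq0 L m hm
  · rw [h1, h2]
    exact D.rel₂' hq0 L (m * q) hmq
  · rw [h1, h2]
    exact D.rel₁' hq0 L (m * q) hmq

theorem ne_zero_of_coe (E : IntermediateField L (LaurentSeries L)) (m : ℕ) (hm : m ≠ 0) {j : E}
    (h : (j : LaurentSeries L) = TD.Jd L m) : j ≠ 0 := by
  rintro rfl
  exact Fermat.Agent.S28.ValInd.Jd_ne_zero (K := L) m hm h.symm

/-- **(Cu-1), corrected, for the modular polynomial**: valuation-ring form. -/
theorem mem_of_inv_mul_mem_modEq (hq : q.Prime) (D : TD.ModEq q)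
    (E : IntermediateField L (LaurentSeries L)) (m : ℕ) (hm : m ≠ 0) {j0 j1 j2 : E}
    (h0 : (j0 : LaurentSeries L) = TD.Jd L m) (h1 : (j1 : LaurentSeries L) = TD.Jd L (m * q))
    (h2 : (j2 : LaurentSeries L) = TD.Jd L (m * q * q)) (V : ValuationSubring E)
    (hx : (j0 * j2)⁻¹ ∈ V) :
    j0⁻¹ ∈ V ∧ j2⁻¹ ∈ V ∧ j1 / j0 ^ q ∈ V ∧ j1 / j2 ^ q ∈ V ∧ j2 / j0 ^ (q ^ 2) ∈ V ∧
      j0 / j2 ^ (q ^ 2) ∈ V := by
  obtain ⟨r1, r2, r3, r4⟩ := rel_of_coe D E m hm h0 h1 h2
  obtain ⟨hc, hc0⟩ := modEq_coeff_bounds hq D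
  exact mem_of_inv_mul_mem V D.monic D.natDegree_eq hq.one_lt.le hc hc0
    (ne_zero_of_coe E m hm h0)
    (ne_zero_of_coe E (m * q * q)
      (Nat.mul_ne_zero (Nat.mul_ne_zero hm (NeZero.ne q)) (NeZero.ne q)) h2) r1 r2 r3 r4 hx

/-- **(Cu-1), corrected, for the modular polynomial**: the six quotients are integral over every
ring whose image contains `(j0 * j2)⁻¹`. -/
theorem isIntegral_quot_modEq (hq : q.Prime) (D : TD.ModEq q)
    (E : IntermediateField L (LaurentSeries L)) (m : ℕ) (hm : m ≠ 0) {j0 j1 j2 : E}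
    (h0 : (j0 : LaurentSeries L) = TD.Jd L m) (h1 : (j1 : LaurentSeries L) = TD.Jd L (m * q))
    (h2 : (j2 : LaurentSeries L) = TD.Jd L (m * q * q)) {R : Type*} [CommRing R] [Algebra R E]
    (hx : ∃ r : R, algebraMap R E r = (j0 * j2)⁻¹) :
    IsIntegral R j0⁻¹ ∧ IsIntegral R j2⁻¹ ∧ IsIntegral R (j1 / j0 ^ q) ∧
      IsIntegral R (j1 / j2 ^ q) ∧ IsIntegral R (j2 / j0 ^ (q ^ 2)) ∧
      IsIntegral R (j0 / j2 ^ (q ^ 2)) := by
  obtain ⟨r1, r2, r3, r4⟩ := rel_of_coe D E m hm h0 h1 h2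
  obtain ⟨hc, hc0⟩ := modEq_coeff_bounds hq D
  exact isIntegral_quot D.monic D.natDegree_eq hq.one_lt.le hc hc0
    (ne_zero_of_coe E m hm h0)
    (ne_zero_of_coe E (m * q * q)
      (Nat.mul_ne_zero (Nat.mul_ne_zero hm (NeZero.ne q)) (NeZero.ne q)) h2) r1 r2 r3 r4 hx

/-- Ruling #3 D1 (a): `j0, j1, j2` are integral over every ring whose image contains `j0 * j2`. -/
theorem isIntegral_of_mul_modEq (D : TD.ModEq q)
    (E : IntermediateField L (LaurentSeries L)) (m : ℕ) (hm : m ≠ 0) {j0 j1 j2 : E}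
    (h0 : (j0 : LaurentSeries L) = TD.Jd L m) (h1 : (j1 : LaurentSeries L) = TD.Jd L (m * q))
    (h2 : (j2 : LaurentSeries L) = TD.Jd L (m * q * q)) {R : Type*} [CommRing R] [Algebra R E]
    (hx : ∃ r : R, algebraMap R E r = j0 * j2) :
    IsIntegral R j0 ∧ IsIntegral R j1 ∧ IsIntegral R j2 := by
  obtain ⟨r1, r2, r3, r4⟩ := rel_of_coe D E m hm h0 h1 h2
  exact isIntegral_of_mul D.monic r1 r2 r3 r4 hx

end Series

/-! ### The functions `J_i = π_i^* (xL L M')` of level `M' q²` -/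

section PiStar

variable (L : Type) [Field L] [Algebra ℚ L] (M' : ℕ) [NeZero M']

/-- `J_0 = π_0^* x`, `x = xL L M' = J(q^M')`. -/
noncomputable def J0 : ↥(laurentBaseChange L (modularFunctionFieldFull (M' * q * q))) :=
  piStar0 L M' q (xL L M')

/-- `J_1 = π_1^* x`. -/
noncomputable def J1 : ↥(laurentBaseChange L (modularFunctionFieldFull (M' * q * q))) :=
  piStar1 L M' q (xL L M')

/-- `J_2 = π_2^* x`. -/
noncomputable def J2 : ↥(laurentBaseChange L (modularFunctionFieldFull (M' * q * q))) :=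
  piStar2 L M' q (xL L M')

theorem coe_J0 : ((J0 (q := q) L M' : ↥(laurentBaseChange L (modularFunctionFieldFull (M' * q * q)))) :
    LaurentSeries L) = TD.Jd L M' := by
  unfold J0
  rw [coe_piStar0, coe_xL]

theorem coe_J1 : ((J1 (q := q) L M' : ↥(laurentBaseChange L (modularFunctionFieldFull (M' * q * q)))) :
    LaurentSeries L) = TD.Jd L (M' * q) := by
  unfold J1
  rw [coe_piStar1, coe_xL, TD.qExpand_Jd L q M' (NeZero.ne M'), mul_comm]

theorem coe_J2 : ((J2 (q := q) L M' : ↥(laurentBaseChange L (modularFunctionFieldFull (M' * q * q)))) :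
    LaurentSeries L) = TD.Jd L (M' * q * q) := by
  unfold J2
  rw [coe_piStar2, coe_xL, TD.qExpand_Jd L q M' (NeZero.ne M'),
    TD.qExpand_Jd L q (q * M') (Nat.mul_ne_zero (NeZero.ne q) (NeZero.ne M'))]
  congr 1
  ring

/-- **(Cu-1), corrected**, for `J_i = π_i^* x` in `F = L·F_{M' q²}`: valuation-ring form. -/
theorem piStar_mem_of_inv_mul_mem (hq : q.Prime) (D : TD.ModEq q)
    (V : ValuationSubring ↥(laurentBaseChange L (modularFunctionFieldFull (M' * q * q))))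
    (hx : (J0 (q := q) L M' * J2 L M')⁻¹ ∈ V) :
    (J0 (q := q) L M')⁻¹ ∈ V ∧ (J2 (q := q) L M')⁻¹ ∈ V ∧
      J1 (q := q) L M' / J0 L M' ^ q ∈ V ∧ J1 (q := q) L M' / J2 L M' ^ q ∈ V ∧
      J2 (q := q) L M' / J0 L M' ^ (q ^ 2) ∈ V ∧ J0 (q := q) L M' / J2 L M' ^ (q ^ 2) ∈ V :=
  mem_of_inv_mul_mem_modEq hq D _ M' (NeZero.ne M') (coe_J0 L M') (coe_J1 L M') (coe_J2 L M') V hx

/-- **(Cu-1), corrected**, for `J_i = π_i^* x`: integrality over `R ∋ (J_0 J_2)⁻¹`. -/
theorem piStar_isIntegral_quot (hq : q.Prime) (D : TD.ModEq q) {R : Type*} [CommRing R]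
    [Algebra R ↥(laurentBaseChange L (modularFunctionFieldFull (M' * q * q)))]
    (hx : ∃ r : R, algebraMap R ↥(laurentBaseChange L (modularFunctionFieldFull (M' * q * q))) r =
      (J0 (q := q) L M' * J2 L M')⁻¹) :
    IsIntegral R (J0 (q := q) L M')⁻¹ ∧ IsIntegral R (J2 (q := q) L M')⁻¹ ∧
      IsIntegral R (J1 (q := q) L M' / J0 L M' ^ q) ∧
      IsIntegral R (J1 (q := q) L M' / J2 L M' ^ q) ∧
      IsIntegral R (J2 (q := q) L M' / J0 L M' ^ (q ^ 2)) ∧
      IsIntegral R (J0 (q := q) L M' / J2 L M' ^ (q ^ 2)) :=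
  isIntegral_quot_modEq hq D _ M' (NeZero.ne M') (coe_J0 L M') (coe_J1 L M') (coe_J2 L M') hx

/-- Ruling #3 D1 (a) for `J_i = π_i^* x`: integrality over `R ∋ J_0 J_2`. -/
theorem piStar_isIntegral_of_mul (D : TD.ModEq q) {R : Type*} [CommRing R]
    [Algebra R ↥(laurentBaseChange L (modularFunctionFieldFull (M' * q * q)))]
    (hx : ∃ r : R, algebraMap R ↥(laurentBaseChange L (modularFunctionFieldFull (M' * q * q))) r =
      J0 (q := q) L M' * J2 L M') :
    IsIntegral R (J0 (q := q) L M') ∧ IsIntegral R (J1 (q := q) L M') ∧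
      IsIntegral R (J2 (q := q) L M') :=
  isIntegral_of_mul_modEq D _ M' (NeZero.ne M') (coe_J0 L M') (coe_J1 L M') (coe_J2 L M') hx

end PiStar

end Fermat.Agent.CAR.Glob.CuspQuot
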