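import Mathlib
import Fermat.Agent.CAR.Formal.DiscVal

/-!
# CAR (Charts): the ramification bound `he` of the chart theorem from uniformisers

`Charts.exists_eq_const_mul_pow_of_charts` asks, for the vertical family `V i` and the prime `q`,
for one exponent `e` with `∀ i, ∀ z ∈ (V i).nonunits, z ^ e / q ∈ V i`.  Here: if `V` has a
uniformiser `π` (`Formal.IsUnif V π`) and `π ^ e / c ∈ V`, then `z ^ e / c ∈ V` for every
non-unit `z` of `V`; and the family version.
-/

set_option autoImplicit false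

namespace Fermat.Agent.CAR.Glob.Charts

open Fermat.Agent.CAR.Formal

variable {F : Type*} [Field F]

/-- If `π` is a uniformiser of `A` and `π ^ e / c ∈ A`, then `z ^ e / c ∈ A` for every non-unit
`z` of `A`. -/
theorem pow_div_mem_of_isUnif {A : ValuationSubring F} {π c : F} (h : IsUnif A π) {e : ℕ}
    (hc : π ^ e / c ∈ A) : ∀ z ∈ A.nonunits, z ^ e / c ∈ A := by
  intro z hz
  by_cases hz0 : z = 0
  · subst hz0
    rcases Nat.eq_zero_or_pos e with rfl | he
    · simpa using hc
    · rw [zero_pow he.ne', zero_div]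
      exact A.zero_mem
  have hpos : 0 < h.ord z := (h.ord_pos_iff hz0).mpr hz
  obtain ⟨u, hu, -, -, hzu⟩ := h.exists_unit_eq hz0
  obtain ⟨n, hn⟩ : ∃ n : ℕ, h.ord z = (n : ℤ) + 1 :=
    ⟨(h.ord z - 1).toNat, by rw [Int.toNat_of_nonneg (by omega)]; ring⟩
  have hz' : z = π ^ (n + 1) * u := by
    rw [hzu, hn]
    norm_cast
  have e1 : z ^ e / c = π ^ e / c * (π ^ n) ^ e * u ^ e := by
    rw [hz']
    ring
  rw [e1]
  exact A.mul_mem _ _ (A.mul_mem _ _ hc (pow_mem (pow_mem h.mem n) e)) (pow_mem hu e)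

/-- The family version: the hypothesis `he` of `Charts.exists_eq_const_mul_pow_of_charts` from
uniformisers `π i` of the `V i` with `π i ^ e / c ∈ V i`. -/
theorem pow_div_mem_of_forall_isUnif {ι : Type*} (V : ι → ValuationSubring F) (π : ι → F)
    (c : F) (e : ℕ) (h : ∀ i, IsUnif (V i) (π i)) (hc : ∀ i, π i ^ e / c ∈ V i) :
    ∀ i, ∀ z ∈ (V i).nonunits, z ^ e / c ∈ V i :=
  fun i => pow_div_mem_of_isUnif (h i) (hc i)

/-- If `c` itself is a uniformiser of `A`, every `e ≥ 1` works. -/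
theorem pow_div_mem_of_isUnif_self {A : ValuationSubring F} {c : F} (h : IsUnif A c) {e : ℕ}
    (he : 0 < e) : ∀ z ∈ A.nonunits, z ^ e / c ∈ A := by
  refine pow_div_mem_of_isUnif h ?_
  obtain ⟨k, rfl⟩ : ∃ k, e = k + 1 := ⟨e - 1, by omega⟩
  rw [pow_succ, mul_div_assoc, div_self h.ne_zero, mul_one]
  exact pow_mem h.mem k

end Fermat.Agent.CAR.Glob.Charts
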