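/-
CAR (helper18) — NEWTON–ČECH: the global step of CAR-CORE without any dimension count
(pure commutative algebra, Mathlib only).

Setting of the application: `W` the DVR of `K₀ = ℚ̄^I` (uniformiser `q`), `F = K₀·F_M`, `x ∈ F`
a coordinate, `R`, `R'` the integral closures of `W[x]`, `W[x⁻¹]` in `F` (the two affine charts
of the arithmetic surface), `f ∈ F` a Kummer generator of an `m`-torsion class (`m D = div f`),
`L = {s | s ^ m * f ∈ R}`, `L' = {s | s ^ m * f ∈ R'}` the two chart lattices of `O(D)`.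

`exists_global_root` : if there are `s ∈ L`, `s' ∈ L'` with `s ^ m * f - 1`, `s' ^ m * f - 1`,
`s * s' ^ (m - 1) * f - 1` nilpotent modulo `q` (on `R`, `R'`, `R[1/x]` respectively: the line
bundle `O(D)` is trivial on the reduced special fibre, compatibly with `f`), then there is a
GLOBAL `σ` with `σ ^ m * f ≡ 1 mod q` on both charts; in particular `σ ≠ 0`, `σ ∈ L ∩ L'`, and
`σ ^ m * f ∈ R ∩ R'` (`= W` in the application): the class is trivial.

Proof: (1) Newton iteration inside `R` (resp. `R'`): `s ↦ s * (1 - a / m)`, `a = s ^ m * f - 1`,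
squares the error, so `s_e ^ m * f ≡ 1 mod q ^ e` for every `e`; (2) the ratio
`u = s_e * s'_e ^ (m - 1) * f` is `≡ 1` modulo nilpotents and `u ^ m ≡ 1 mod q ^ e`, hence
`u ≡ 1 mod q ^ e` and `s_e - s'_e ∈ q ^ e • L₀`; (3) Čech: `L₀ / (L + L')` is a finitely generated
`W`-module, so its `q`-power torsion is bounded, and `s_e - s'_e = q • (l - l')` for `e` large:
`σ = s_e - q • l = s'_e - q • l'`.

`exists_sub_mem_of_forall_maximal` : the local-to-global ideal argument producing the start.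
-/
import Mathlib

set_option autoImplicit false

namespace Fermat.Agent.CAR.Glob

section RingLemmas

variable {A : Type*} [CommRing A]

/-- `(1 + y) ^ m = 1 + m y + y² Q`. -/
theorem exists_one_add_pow_eq (y : A) (m : ℕ) :
    ∃ Q : A, (1 + y) ^ m = 1 + m * y + y ^ 2 * Q := by
  induction m with
  | zero => exact ⟨0, by simp⟩
  | succ n ih =>
    obtain ⟨Q, hQ⟩ := ih
    refine ⟨Q * (1 + y) + n, ?_⟩
    rw [pow_succ, hQ]
    push_cast
    ring

/-- One Newton step for the `m`-th root of `1 + a`: `(1 + a) * (1 - a / m) ^ m = 1 + a² P`. -/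
theorem exists_newton_step (m : ℕ) (m' : A) (hm : (m : A) * m' = 1) (a : A) :
    ∃ P : A, (1 + a) * (1 - m' * a) ^ m = 1 + a ^ 2 * P := by
  obtain ⟨Q, hQ⟩ := exists_one_add_pow_eq (-(m' * a)) m
  refine ⟨m' ^ 2 * Q * (1 + a) - 1, ?_⟩
  rw [sub_eq_add_neg, hQ]
  linear_combination (-(1 + a) * a) * hm

/-- Iterated Newton: for every `n` there is `c ≡ 1 mod a` with
`(1 + a) * c ^ m ≡ 1 mod a ^ (n + 1)`. -/
theorem exists_newton (m : ℕ) (m' : A) (hm : (m : A) * m' = 1) (a : A) (n : ℕ) :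
    ∃ c b ε : A, c = 1 + a * ε ∧ (1 + a) * c ^ m = 1 + a ^ (n + 1) * b := by
  induction n with
  | zero => exact ⟨1, 1, 0, by ring, by ring⟩
  | succ n ih =>
    obtain ⟨c, b, ε, hc, h⟩ := ih
    obtain ⟨P, hP⟩ := exists_newton_step m m' hm (a ^ (n + 1) * b)
    refine ⟨c * (1 - m' * (a ^ (n + 1) * b)), a ^ n * b ^ 2 * P,
      ε - (1 + a * ε) * m' * a ^ n * b, ?_, ?_⟩
    · rw [hc]; ring
    · rw [mul_pow, ← mul_assoc, h, hP]; ring

/-- A unipotent `m`-th root of unity modulo `I` is trivial (`m` invertible). -/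
theorem mem_of_one_add_pow_sub_one_mem (m : ℕ) (m' : A) (hm : (m : A) * m' = 1) (I : Ideal A)
    (ρ : A) (hρ : ρ ∈ I.radical) (h : (1 + ρ) ^ m - 1 ∈ I) : ρ ∈ I := by
  obtain ⟨Q, hQ⟩ := exists_one_add_pow_eq ρ m
  obtain ⟨N, hN⟩ := hρ
  set r : A ⧸ I := Ideal.Quotient.mk I ρ with hr
  have hnil : IsNilpotent r := ⟨N, by rw [hr, ← map_pow]; exact Ideal.Quotient.eq_zero_iff_mem.2 hN⟩
  have hu : IsUnit (1 + r * Ideal.Quotient.mk I (m' * Q)) :=
    IsNilpotent.isUnit_one_add (Commute.isNilpotent_mul_right (Commute.all _ _) hnil)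
  have h0 : r * (1 + r * Ideal.Quotient.mk I (m' * Q)) = 0 := by
    have e : ρ * (1 + ρ * (m' * Q)) = m' * ((1 + ρ) ^ m - 1) + ρ * (1 - m * m') := by
      rw [hQ]; ring
    rw [hr, ← map_one (Ideal.Quotient.mk I), ← map_mul, ← map_add, ← map_mul, e, hm, sub_self,
      mul_zero, add_zero]
    exact Ideal.Quotient.eq_zero_iff_mem.2 (Ideal.mul_mem_left _ _ h)
  exact Ideal.Quotient.eq_zero_iff_mem.1 ((hu.mul_left_eq_zero).1 h0)

/-- The comparison step: `u ^ m = X * Y ^ (m - 1)`, `X ≡ Y ≡ 1 mod I`, `u` unipotent mod `I`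
⟹ `u ≡ 1 mod I`. -/
theorem sub_one_mem_of_pow_eq (m : ℕ) (m' : A) (hm : (m : A) * m' = 1) (I : Ideal A)
    (u X Y : A) (hu : u - 1 ∈ I.radical) (hX : X - 1 ∈ I) (hY : Y - 1 ∈ I)
    (h : u ^ m = X * Y ^ (m - 1)) : u - 1 ∈ I := by
  apply mem_of_one_add_pow_sub_one_mem m m' hm I (u - 1) hu
  have e1 : (1 + (u - 1)) ^ m - 1 = (X - 1) * Y ^ (m - 1) + (Y ^ (m - 1) - 1) := by
    rw [add_sub_cancel, h]; ring
  rw [e1]
  refine I.add_mem (I.mul_mem_right _ hX) ?_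
  obtain ⟨k, hk⟩ := sub_dvd_pow_sub_pow Y 1 (m - 1)
  rw [one_pow] at hk
  rw [hk]
  exact I.mul_mem_right _ hY

end RingLemmas

section Lattice

variable {W F : Type*} [CommRing W] [Field F] [Algebra W F]

/-- `y` is nilpotent modulo `q R`. -/
def NilMod (R : Subalgebra W F) (q : W) (y : F) : Prop :=
  ∃ N : ℕ, ∃ r ∈ R, y ^ N = q • r

theorem NilMod.mono {R S : Subalgebra W F} (h : R ≤ S) {q : W} {y : F} (hy : NilMod R q y) :
    NilMod S q y := by
  obtain ⟨N, r, hr, e⟩ := hy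
  exact ⟨N, r, h hr, e⟩

theorem nilMod_iff_mem_radical {R : Subalgebra W F} {q : W} (y : R) :
    NilMod R q (y : F) ↔ y ∈ (Ideal.span {algebraMap W R q}).radical := by
  constructor
  · rintro ⟨N, r, hr, e⟩
    refine ⟨N, Ideal.mem_span_singleton'.2 ⟨⟨r, hr⟩, ?_⟩⟩
    apply Subtype.ext
    rw [Subalgebra.coe_pow, e, Subalgebra.coe_mul, mul_comm, Algebra.smul_def]
    rfl
  · rintro ⟨N, hN⟩
    obtain ⟨r, hr⟩ := Ideal.mem_span_singleton'.1 hN
    refine ⟨N, r, r.2, ?_⟩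
    rw [← Subalgebra.coe_pow, ← hr, Subalgebra.coe_mul, mul_comm, Algebra.smul_def]
    rfl

theorem NilMod.add {R : Subalgebra W F} {q : W} {y z : F} (hyR : y ∈ R) (hzR : z ∈ R)
    (hy : NilMod R q y) (hz : NilMod R q z) : NilMod R q (y + z) := by
  have h1 := (nilMod_iff_mem_radical (⟨y, hyR⟩ : R)).1 hy
  have h2 := (nilMod_iff_mem_radical (⟨z, hzR⟩ : R)).1 hz
  exact (nilMod_iff_mem_radical (⟨y, hyR⟩ + ⟨z, hzR⟩ : R)).2 (Ideal.add_mem _ h1 h2)

theorem NilMod.mul_right {R : Subalgebra W F} {q : W} {y z : F} (hzR : z ∈ R)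
    (hy : NilMod R q y) : NilMod R q (y * z) := by
  obtain ⟨N, r, hr, e⟩ := hy
  exact ⟨N, r * z ^ N, R.mul_mem hr (R.pow_mem hzR N), by rw [mul_pow, e, smul_mul_assoc]⟩

theorem NilMod.mul_left {R : Subalgebra W F} {q : W} {y z : F} (hzR : z ∈ R)
    (hy : NilMod R q y) : NilMod R q (z * y) := by
  rw [mul_comm]; exact hy.mul_right hzR

/-- `y ^ (N e) ∈ q ^ e R`. -/
theorem NilMod.exists_pow {R : Subalgebra W F} {q : W} {y : F} (hy : NilMod R q y) (e : ℕ) :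
    ∃ N : ℕ, ∃ r ∈ R, y ^ N = q ^ e • r := by
  obtain ⟨N, r, hr, h⟩ := hy
  exact ⟨N * e, r ^ e, R.pow_mem hr e, by rw [pow_mul, h, smul_pow]⟩

/-- The subalgebra `R[1/x]`. -/
def loc (R : Subalgebra W F) (x : F) (hx : x ∈ R) : Subalgebra W F where
  carrier := {r | ∃ n : ℕ, x ^ n * r ∈ R}
  mul_mem' := by
    rintro a b ⟨n, ha⟩ ⟨k, hb⟩
    refine ⟨n + k, ?_⟩
    have := R.mul_mem ha hb
    convert this using 1
    ring
  add_mem' := by
    rintro a b ⟨n, ha⟩ ⟨k, hb⟩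
    refine ⟨n + k, ?_⟩
    have := R.add_mem (R.mul_mem (R.pow_mem hx k) ha) (R.mul_mem (R.pow_mem hx n) hb)
    convert this using 1
    ring
  algebraMap_mem' := fun c => ⟨0, by rw [pow_zero, one_mul]; exact R.algebraMap_mem c⟩

theorem mem_loc {R : Subalgebra W F} {x : F} {hx : x ∈ R} {r : F} :
    r ∈ loc R x hx ↔ ∃ n : ℕ, x ^ n * r ∈ R := Iff.rfl

theorem le_loc (R : Subalgebra W F) (x : F) (hx : x ∈ R) : R ≤ loc R x hx :=
  fun r hr => ⟨0, by simpa using hr⟩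

theorem inv_mem_loc (R : Subalgebra W F) (x : F) (hx : x ∈ R) : x⁻¹ ∈ loc R x hx := by
  by_cases h0 : x = 0
  · subst h0
    rw [inv_zero]
    exact Subalgebra.zero_mem _
  · exact ⟨1, by rw [pow_one, mul_inv_cancel₀ h0]; exact R.one_mem⟩

/-- `m`-th-root closedness (true for subalgebras integrally closed in `F`). -/
def RootClosed (R : Subalgebra W F) (m : ℕ) : Prop := ∀ y : F, y ^ m ∈ R → y ∈ R

theorem rootClosed_loc {R : Subalgebra W F} {m : ℕ} (hm : m ≠ 0) (hR : RootClosed R m) (x : F)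
    (hx : x ∈ R) : RootClosed (loc R x hx) m := by
  rintro y ⟨n, hn⟩
  refine ⟨n, hR _ ?_⟩
  have e : (x ^ n * y) ^ m = x ^ (n * (m - 1)) * (x ^ n * y ^ m) := by
    obtain ⟨k, rfl⟩ : ∃ k, m = k + 1 := ⟨m - 1, by omega⟩
    rw [Nat.add_sub_cancel]; ring
  rw [e]
  exact R.mul_mem (R.pow_mem hx _) hn

/-- Multilinearity: a product of `m` elements of the lattice times `f` lies in `R`. -/
theorem mul3_mem {R : Subalgebra W F} {m : ℕ} (hR : RootClosed R m) {f s₁ s₂ s₃ : F}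
    (h₁ : s₁ ^ m * f ∈ R) (h₂ : s₂ ^ m * f ∈ R) (h₃ : s₃ ^ m * f ∈ R) {a b c : ℕ}
    (habc : a + b + c = m) : s₁ ^ a * s₂ ^ b * s₃ ^ c * f ∈ R := by
  apply hR
  have e : (s₁ ^ a * s₂ ^ b * s₃ ^ c * f) ^ m =
      (s₁ ^ m * f) ^ a * (s₂ ^ m * f) ^ b * (s₃ ^ m * f) ^ c := by
    subst habc
    ring
  rw [e]
  exact R.mul_mem (R.mul_mem (R.pow_mem h₁ a) (R.pow_mem h₂ b)) (R.pow_mem h₃ c)

/-- The lattice `{s | s ^ m * f ∈ R}` as a `W`-submodule of `F`. -/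
def latt (R : Subalgebra W F) (m : ℕ) (hm : m ≠ 0) (hR : RootClosed R m) (f : F) :
    Submodule W F where
  carrier := {s | s ^ m * f ∈ R}
  zero_mem' := by
    show (0 : F) ^ m * f ∈ R
    rw [zero_pow hm, zero_mul]; exact R.zero_mem
  add_mem' := by
    intro s t hs ht
    show (s + t) ^ m * f ∈ R
    rw [add_pow, Finset.sum_mul]
    refine R.sum_mem fun j hj => ?_
    have hj' : j ≤ m := Nat.lt_succ_iff.1 (Finset.mem_range.1 hj)
    have h1 := mul3_mem hR hs ht ht (a := j) (b := m - j) (c := 0) (by omega)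
    have h2 := R.mul_mem h1 (natCast_mem R (m.choose j))
    convert h2 using 1
    ring
  smul_mem' := by
    intro c s hs
    show (c • s) ^ m * f ∈ R
    rw [smul_pow, smul_mul_assoc]
    exact R.smul_mem hs _

theorem mem_latt {R : Subalgebra W F} {m : ℕ} {hm : m ≠ 0} {hR : RootClosed R m} {f s : F} :
    s ∈ latt R m hm hR f ↔ s ^ m * f ∈ R := Iff.rfl

theorem latt_mul_mem {R : Subalgebra W F} {m : ℕ} {hm : m ≠ 0} {hR : RootClosed R m} {f s r : F}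
    (hr : r ∈ R) (hs : s ∈ latt R m hm hR f) : r * s ∈ latt R m hm hR f := by
  show (r * s) ^ m * f ∈ R
  rw [mul_pow, mul_assoc]
  exact R.mul_mem (R.pow_mem hr m) hs

theorem latt_mono {R S : Subalgebra W F} (h : R ≤ S) {m : ℕ} {hm : m ≠ 0} {hR : RootClosed R m}
    {hS : RootClosed S m} {f : F} : latt R m hm hR f ≤ latt S m hm hS f :=
  fun _ hs => h hs

/-- Clearing denominators in the lattice. -/
theorem exists_pow_mul_mem_latt {S T : Subalgebra W F} {m : ℕ} {hm : m ≠ 0}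
    {hS : RootClosed S m} {hT : RootClosed T m} {y : F} (hy : y ∈ T)
    (h : ∀ r ∈ S, ∃ n : ℕ, y ^ n * r ∈ T) {f s : F} (hs : s ∈ latt S m hm hS f) :
    ∃ n : ℕ, y ^ n * s ∈ latt T m hm hT f := by
  obtain ⟨n, hn⟩ := h _ hs
  refine ⟨n, ?_⟩
  show (y ^ n * s) ^ m * f ∈ T
  have e : (y ^ n * s) ^ m * f = y ^ (n * (m - 1)) * (y ^ n * (s ^ m * f)) := by
    obtain ⟨k, rfl⟩ : ∃ k, m = k + 1 := ⟨m - 1, by omega⟩
    rw [Nat.add_sub_cancel]; ring
  rw [e]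
  exact T.mul_mem (T.pow_mem hy _) hn

end Lattice

section Cech

variable {W F : Type*} [CommRing W] [Field F] [Algebra W F]

/-- In a finitely generated module over a Noetherian ring the `q`-power torsion modulo a
submodule is bounded. -/
theorem exists_torsion_bound [IsNoetherianRing W] (H G : Submodule W F) (hG : G.FG) (q : W) :
    ∃ e₀ : ℕ, ∀ e : ℕ, ∀ g ∈ G, q ^ e • g ∈ H → q ^ e₀ • g ∈ H := by
  have hNoeth : IsNoetherian W G := isNoetherian_of_fg_of_noetherian G hG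
  let K : ℕ →o Submodule W G :=
    { toFun := fun e => (H.comap ((q ^ e) • (LinearMap.id : F →ₗ[W] F))).comap G.subtype
      monotone' := by
        intro a b hab g hg
        obtain ⟨c, rfl⟩ := Nat.exists_eq_add_of_le hab
        have hg' : q ^ a • (g : F) ∈ H := hg
        show q ^ (a + c) • (g : F) ∈ H
        rw [pow_add, mul_comm, mul_smul]
        exact H.smul_mem _ hg' }
  obtain ⟨n, hn⟩ := monotone_stabilizes_iff_noetherian.2 hNoeth K
  refine ⟨n, fun e g hg he => ?_⟩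
  have hmem : (⟨g, hg⟩ : G) ∈ K e := he
  rcases le_total e n with h | h
  · exact K.monotone h hmem
  · rw [← hn e h] at hmem
    exact hmem

theorem pow_mul_inv_pow_add {x : F} (hx : x ≠ 0) (i k : ℕ) :
    x ^ i * x⁻¹ ^ (i + k) = x⁻¹ ^ k := by
  rw [pow_add, ← mul_assoc, ← mul_pow, mul_inv_cancel₀ hx, one_pow, one_mul]

theorem pow_add_mul_inv_pow {x : F} (hx : x ≠ 0) (n k : ℕ) :
    x ^ (n + k) * x⁻¹ ^ n = x ^ k := by
  rw [pow_add, mul_comm (x ^ n), mul_assoc, ← mul_pow, mul_inv_cancel₀ hx, one_pow, mul_one]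

/-- The finite set of "gap monomials" `x⁻ʲ e`, `e ∈ T`, `j < N`. -/
def gapSet (x : F) (T : Finset F) (N : ℕ) : Set F :=
  (fun p : F × ℕ => x⁻¹ ^ p.2 * p.1) '' ((T : Set F) ×ˢ (Finset.range N : Set ℕ))

theorem gapSet_finite (x : F) (T : Finset F) (N : ℕ) : (gapSet x T N).Finite :=
  Set.Finite.image _ ((Finset.finite_toSet T).prod (Finset.finite_toSet _))

variable {R R' : Subalgebra W F} {m : ℕ} {hm : m ≠ 0} {hR : RootClosed R m}
  {hR' : RootClosed R' m} {x f : F}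

theorem pow_mul_inv_pow_mul_mem (hx : x ≠ 0) (hxR : x ∈ R) (hxR' : x⁻¹ ∈ R')
    {T : Finset F} {N : ℕ} {e : F} (heT : e ∈ T) (he : e ∈ latt R m hm hR f)
    (heN : x⁻¹ ^ N * e ∈ latt R' m hm hR' f) (i n : ℕ) :
    x ^ i * x⁻¹ ^ n * e ∈
      latt R m hm hR f ⊔ latt R' m hm hR' f ⊔ Submodule.span W (gapSet x T N) := by
  rcases le_or_gt n i with h | h
  · obtain ⟨c, rfl⟩ := Nat.exists_eq_add_of_le h
    rw [pow_add_mul_inv_pow hx]
    exact Submodule.mem_sup_left (Submodule.mem_sup_left (latt_mul_mem (R.pow_mem hxR _) he))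
  · obtain ⟨k, rfl⟩ := Nat.exists_eq_add_of_le h.le
    rw [pow_mul_inv_pow_add hx]
    rcases le_or_gt N k with h2 | h2
    · obtain ⟨c, rfl⟩ := Nat.exists_eq_add_of_le h2
      rw [add_comm N c, pow_add, mul_assoc]
      exact Submodule.mem_sup_left (Submodule.mem_sup_right
        (latt_mul_mem (R'.pow_mem hxR' _) heN))
    · exact Submodule.mem_sup_right (Submodule.subset_span
        ⟨(e, k), ⟨heT, Finset.mem_coe.2 (Finset.mem_range.2 h2)⟩, rfl⟩)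

theorem inv_pow_mul_mem_of_mem_adjoin (hx : x ≠ 0) (hxR : x ∈ R) (hxR' : x⁻¹ ∈ R')
    {T : Finset F} {N : ℕ} {e : F} (heT : e ∈ T) (he : e ∈ latt R m hm hR f)
    (heN : x⁻¹ ^ N * e ∈ latt R' m hm hR' f) {p : F} (hp : p ∈ Algebra.adjoin W {x}) (n : ℕ) :
    x⁻¹ ^ n * (p * e) ∈
      latt R m hm hR f ⊔ latt R' m hm hR' f ⊔ Submodule.span W (gapSet x T N) := by
  rw [Algebra.adjoin_singleton_eq_range_aeval] at hp
  obtain ⟨g, rfl⟩ := hp
  have e1 : x⁻¹ ^ n * ((Polynomial.aeval x) g * e) =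
      ∑ i ∈ Finset.range (g.natDegree + 1), g.coeff i • (x ^ i * x⁻¹ ^ n * e) := by
    rw [Polynomial.aeval_eq_sum_range, Finset.sum_mul, Finset.mul_sum]
    refine Finset.sum_congr rfl fun i _ => ?_
    rw [smul_mul_assoc, mul_smul_comm]
    congr 1
    ring
  change x⁻¹ ^ n * ((Polynomial.aeval x) g * e) ∈ _
  rw [e1]
  exact Submodule.sum_mem _ fun i _ =>
    Submodule.smul_mem _ _ (pow_mul_inv_pow_mul_mem hx hxR hxR' heT he heN i n)

/-- **Čech generation**: `L₀ ≤ L + L' + (finitely generated W-module)`. -/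
theorem latt_loc_le (hx : x ≠ 0) (hxR : x ∈ R) (hxR' : x⁻¹ ∈ R')
    {T : Finset F} {N : ℕ} (hT : ∀ e ∈ T, e ∈ latt R m hm hR f)
    (hTN : ∀ e ∈ T, x⁻¹ ^ N * e ∈ latt R' m hm hR' f)
    (hspan : ∀ s ∈ latt R m hm hR f, s ∈ Submodule.span (Algebra.adjoin W {x}) (T : Set F)) :
    latt (loc R x hxR) m hm (rootClosed_loc hm hR x hxR) f ≤
      latt R m hm hR f ⊔ latt R' m hm hR' f ⊔ Submodule.span W (gapSet x T N) := by
  intro t ht
  obtain ⟨n, hn⟩ := exists_pow_mul_mem_latt (hT := hR) hxR (fun r hr => hr) ht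
  obtain ⟨c, -, hc⟩ := Submodule.mem_span_finset.1 (hspan _ hn)
  have e1 : t = ∑ e ∈ T, x⁻¹ ^ n * (((c e : Algebra.adjoin W {x}) : F) * e) := by
    rw [← Finset.mul_sum]
    have : ∑ e ∈ T, ((c e : Algebra.adjoin W {x}) : F) * e = x ^ n * t := by
      rw [← hc]
      rfl
    rw [this, ← mul_assoc, ← mul_pow, inv_mul_cancel₀ hx, one_pow, one_mul]
  rw [e1]
  exact Submodule.sum_mem _ fun e he =>
    inv_pow_mul_mem_of_mem_adjoin hx hxR hxR' he (hT e he) (hTN e he) (c e).2 n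

/-- The lattice is finitely generated over `W[x]`. -/
theorem exists_finset_span_latt [IsNoetherianRing W] (hxR : x ∈ R)
    (hfin : ∃ t : Finset F, ∀ y ∈ R, y ∈ Submodule.span (Algebra.adjoin W {x}) (t : Set F))
    (hf : f ≠ 0) :
    ∃ T : Finset F, (∀ e ∈ T, e ∈ latt R m hm hR f) ∧
      ∀ s ∈ latt R m hm hR f, s ∈ Submodule.span (Algebra.adjoin W {x}) (T : Set F) := by
  classical
  obtain ⟨t, ht⟩ := hfin
  have hPR : Algebra.adjoin W {x} ≤ R := Algebra.adjoin_le (Set.singleton_subset_iff.2 hxR)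
  have hNoeth : IsNoetherianRing (Algebra.adjoin W {x}) :=
    isNoetherianRing_of_fg ⟨{x}, by simp⟩
  let LP : Submodule (Algebra.adjoin W {x}) F :=
    { carrier := {s | s ^ m * f ∈ R}
      zero_mem' := (latt R m hm hR f).zero_mem
      add_mem' := fun ha hb => (latt R m hm hR f).add_mem ha hb
      smul_mem' := fun p s hs => by
        have e : p • s = (p : F) * s := rfl
        rw [e]
        exact latt_mul_mem (hm := hm) (hR := hR) (hPR p.2) hs }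
  have hLP : LP.FG := by
    by_cases h0 : ∃ s₁ ∈ latt R m hm hR f, s₁ ≠ 0
    · obtain ⟨s₁, hs₁, hs₁0⟩ := h0
      set c : F := s₁ ^ (m - 1) * f with hc
      have hc0 : c ≠ 0 := mul_ne_zero (pow_ne_zero _ hs₁0) hf
      let μ : F →ₗ[Algebra.adjoin W {x}] F := LinearMap.mulLeft _ c
      have hμ : Function.Injective μ := fun a b hab => mul_left_cancel₀ hc0 hab
      apply Submodule.fg_of_fg_map_injective μ hμ
      have hle : LP.map μ ≤ Submodule.span (Algebra.adjoin W {x}) (t : Set F) := by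
        rintro _ ⟨l, hl, rfl⟩
        apply ht
        have h3 := mul3_mem hR (a := 1) (b := m - 1) (c := 0) hl hs₁ hs₁ (by omega)
        have e : μ l = l ^ 1 * s₁ ^ (m - 1) * s₁ ^ 0 * f := by
          show c * l = _
          rw [hc]; ring
        rw [e]
        exact h3
      have h1 : IsNoetherian (Algebra.adjoin W {x})
          (Submodule.span (Algebra.adjoin W {x}) (t : Set F)) :=
        isNoetherian_span_of_finite _ (Finset.finite_toSet t)
      have h2 : IsNoetherian (Algebra.adjoin W {x}) (LP.map μ) := isNoetherian_of_le hle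
      exact (Submodule.fg_top _).1 (IsNoetherian.noetherian ⊤)
    · have : LP = ⊥ := by
        rw [eq_bot_iff]
        intro s hs
        refine (Submodule.mem_bot _).2 ?_
        by_contra hne
        exact h0 ⟨s, hs, hne⟩
      rw [this]
      exact Submodule.fg_bot
  obtain ⟨T, hT⟩ := hLP
  refine ⟨T, fun e he => ?_, fun s hs => ?_⟩
  · have : e ∈ LP := by
      rw [← hT]
      exact Submodule.subset_span he
    exact this
  · rw [hT]
    exact hs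

end Cech

section Main

variable {W F : Type*} [CommRing W] [Field F] [Algebra W F]

theorem mem_span_algebraMap_iff {S : Subalgebra W F} {c : W} (y : S) :
    y ∈ Ideal.span {algebraMap W S c} ↔ ∃ r ∈ S, (y : F) = c • r := by
  constructor
  · intro h
    obtain ⟨r, hr⟩ := Ideal.mem_span_singleton'.1 h
    refine ⟨r, r.2, ?_⟩
    rw [← hr, Subalgebra.coe_mul, mul_comm, Algebra.smul_def]
    rfl
  · rintro ⟨r, hr, e⟩
    refine Ideal.mem_span_singleton'.2 ⟨⟨r, hr⟩, ?_⟩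
    apply Subtype.ext
    rw [Subalgebra.coe_mul, e, mul_comm, Algebra.smul_def]
    rfl

/-- Newton inside a subalgebra. -/
theorem exists_newton_sub (R : Subalgebra W F) (m : ℕ) (m' : W) (hmm : (m : W) * m' = 1)
    {a : F} (ha : a ∈ R) (n : ℕ) :
    ∃ c ∈ R, ∃ b ∈ R, ∃ ε ∈ R, c = 1 + a * ε ∧ (1 + a) * c ^ m = 1 + a ^ (n + 1) * b := by
  have hmm' : ((m : ℕ) : R) * algebraMap W R m' = 1 := by
    rw [← map_natCast (algebraMap W R), ← map_mul, hmm, map_one]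
  obtain ⟨c, b, ε, hc, h⟩ := exists_newton m (algebraMap W R m') hmm' (⟨a, ha⟩ : R) n
  refine ⟨c, c.2, b, b.2, ε, ε.2, ?_, ?_⟩
  · have := congrArg (Subtype.val) hc
    simpa using this
  · have := congrArg (Subtype.val) h
    simpa using this

/-- The comparison step inside a subalgebra. -/
theorem sub_one_eq_smul_of_pow_eq (S : Subalgebra W F) (m : ℕ) (m' : W)
    (hmm : (m : W) * m' = 1) (c : W) {u X Y : F} (huS : u ∈ S) (hu : NilMod S c (u - 1))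
    (hX : ∃ r ∈ S, X - 1 = c • r) (hY : ∃ r ∈ S, Y - 1 = c • r)
    (h : u ^ m = X * Y ^ (m - 1)) : ∃ r ∈ S, u - 1 = c • r := by
  have hmm' : ((m : ℕ) : S) * algebraMap W S m' = 1 := by
    rw [← map_natCast (algebraMap W S), ← map_mul, hmm, map_one]
  have hXS : X ∈ S := by
    obtain ⟨r, hr, e⟩ := hX
    have : X = 1 + c • r := by rw [← e]; ring
    rw [this]
    exact S.add_mem S.one_mem (S.smul_mem hr c)
  have hYS : Y ∈ S := by
    obtain ⟨r, hr, e⟩ := hY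
    have : Y = 1 + c • r := by rw [← e]; ring
    rw [this]
    exact S.add_mem S.one_mem (S.smul_mem hr c)
  have key := sub_one_mem_of_pow_eq m (algebraMap W S m') hmm' (Ideal.span {algebraMap W S c})
    (⟨u, huS⟩ : S) ⟨X, hXS⟩ ⟨Y, hYS⟩
    ((nilMod_iff_mem_radical (⟨u, huS⟩ - 1 : S)).1 hu)
    ((mem_span_algebraMap_iff (⟨X, hXS⟩ - 1 : S)).2 hX)
    ((mem_span_algebraMap_iff (⟨Y, hYS⟩ - 1 : S)).2 hY)
    (Subtype.ext h)
  exact (mem_span_algebraMap_iff (⟨u, huS⟩ - 1 : S)).1 key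

/-- Perturbing an approximate root by `q • l` keeps it an approximate root modulo `q`. -/
theorem exists_pow_mul_sub_one_eq {R : Subalgebra W F} {m : ℕ} {hm : m ≠ 0}
    {hR : RootClosed R m} {f s l : F} (hs : s ∈ latt R m hm hR f) (hl : l ∈ latt R m hm hR f)
    (q : W) (hA : ∃ r ∈ R, s ^ m * f - 1 = q • r) :
    ∃ r ∈ R, (s + q • l) ^ m * f - 1 = q • r := by
  obtain ⟨r, hr, e⟩ := hA
  have hσ : s + q • l ∈ latt R m hm hR f :=
    (latt R m hm hR f).add_mem hs ((latt R m hm hR f).smul_mem q hl)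
  refine ⟨r + ∑ i ∈ Finset.range m, (s + q • l) ^ i * s ^ (m - 1 - i) * l ^ 1 * f,
    R.add_mem hr (R.sum_mem fun i hi => ?_), ?_⟩
  · have hi' : i < m := Finset.mem_range.1 hi
    exact mul3_mem hR hσ hs hl (by omega)
  · have hgeo := Commute.geom_sum₂_mul (Commute.all (s + q • l) s) m
    have e2 : (s + q • l) ^ m * f - 1 = (s ^ m * f - 1) +
        (∑ i ∈ Finset.range m, (s + q • l) ^ i * s ^ (m - 1 - i)) * (s + q • l - s) * f := by
      rw [hgeo]; ring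
    rw [e2, e, smul_add, add_sub_cancel_left, Finset.smul_sum, Finset.sum_mul, Finset.sum_mul]
    congr 1
    refine Finset.sum_congr rfl fun i _ => ?_
    rw [pow_one, mul_smul_comm, smul_mul_assoc]

/-- **NEWTON–ČECH.**  See the file header. -/
theorem exists_global_root [IsNoetherianRing W]
    (q : W) (m : ℕ) (m' : W) (hmm : (m : W) * m' = 1)
    (x : F) (hx : x ≠ 0) (R R' : Subalgebra W F) (hxR : x ∈ R) (hxR' : x⁻¹ ∈ R')
    (hR : ∀ y : F, y ^ m ∈ R → y ∈ R) (hR' : ∀ y : F, y ^ m ∈ R' → y ∈ R')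
    (hfin : ∃ t : Finset F, ∀ y ∈ R, y ∈ Submodule.span (Algebra.adjoin W {x}) (t : Set F))
    (hloc : ∀ r ∈ R', ∃ n : ℕ, x ^ n * r ∈ R) (hloc' : ∀ r ∈ R, ∃ n : ℕ, x⁻¹ ^ n * r ∈ R')
    (f s s' : F) (hs : s ^ m * f ∈ R) (hs' : s' ^ m * f ∈ R')
    (ha : ∃ N : ℕ, ∃ r ∈ R, (s ^ m * f - 1) ^ N = q • r)
    (ha' : ∃ N : ℕ, ∃ r ∈ R', (s' ^ m * f - 1) ^ N = q • r)
    (hρ : ∃ N n : ℕ, ∃ r ∈ R, x ^ n * (s * s' ^ (m - 1) * f - 1) ^ N = q • r) :
    ∃ σ : F, (∃ r ∈ R, σ ^ m * f - 1 = q • r) ∧ (∃ r ∈ R', σ ^ m * f - 1 = q • r) := by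
  classical
  replace hR : RootClosed R m := hR
  replace hR' : RootClosed R' m := hR'
  have hm : m ≠ 0 := by
    rintro rfl
    have h1 : (1 : W) = 0 := by rw [← hmm]; simp
    have h2 : (1 : F) = 0 := by rw [← map_one (algebraMap W F), h1, map_zero]
    exact one_ne_zero h2
  by_cases hf : f = 0
  · -- degenerate case: `-1` is nilpotent modulo `q`
    subst hf
    have hneg : ∀ N : ℕ, (-1 : F) ^ (N + 1) * (-1) ^ N = -1 := by
      intro N
      rw [← pow_add]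
      have : N + 1 + N = 2 * N + 1 := by ring
      rw [this, pow_succ, pow_mul]
      simp
    obtain ⟨N, r, hr, e⟩ := ha
    obtain ⟨N', r', hr', e'⟩ := ha'
    rw [mul_zero, zero_sub] at e e'
    refine ⟨0, ⟨(-1) ^ (N + 1) * r, R.mul_mem (R.pow_mem (R.neg_mem R.one_mem) _) hr, ?_⟩,
      ⟨(-1) ^ (N' + 1) * r', R'.mul_mem (R'.pow_mem (R'.neg_mem R'.one_mem) _) hr', ?_⟩⟩
    · rw [mul_zero, zero_sub, ← mul_smul_comm, ← e, hneg]
    · rw [mul_zero, zero_sub, ← mul_smul_comm, ← e', hneg]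
  obtain ⟨k, rfl⟩ : ∃ k, m = k + 1 := ⟨m - 1, by omega⟩
  rw [Nat.add_sub_cancel] at hρ
  have hR₀ : RootClosed (loc R x hxR) (k + 1) := rootClosed_loc hm hR x hxR
  have hRR₀ : R ≤ loc R x hxR := le_loc R x hxR
  have hR'R₀ : R' ≤ loc R x hxR := fun r hr => hloc r hr
  have hLL₀ : latt R (k + 1) hm hR f ≤ latt (loc R x hxR) (k + 1) hm hR₀ f := latt_mono hRR₀
  have hL'L₀ : latt R' (k + 1) hm hR' f ≤ latt (loc R x hxR) (k + 1) hm hR₀ f :=
    latt_mono hR'R₀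
  -- Čech
  obtain ⟨T, hT, hspan⟩ := exists_finset_span_latt (hm := hm) (hR := hR) hxR hfin hf
  have hN : ∃ N : ℕ, ∀ e ∈ T, x⁻¹ ^ N * e ∈ latt R' (k + 1) hm hR' f := by
    have h1 : ∀ e ∈ T, ∃ n : ℕ, x⁻¹ ^ n * e ∈ latt R' (k + 1) hm hR' f := fun e he =>
      exists_pow_mul_mem_latt (hT := hR') hxR' hloc' (hT e he)
    choose! n hn using h1
    refine ⟨T.sup n, fun e he => ?_⟩
    obtain ⟨c, hc⟩ := Nat.exists_eq_add_of_le (Finset.le_sup (f := n) he)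
    rw [hc, pow_add, mul_comm (x⁻¹ ^ n e), mul_assoc]
    exact latt_mul_mem (R'.pow_mem hxR' _) (hn e he)
  obtain ⟨N, hTN⟩ := hN
  have hcech := latt_loc_le (hR' := hR') hx hxR hxR' hT hTN hspan
  obtain ⟨e₀, he₀⟩ := exists_torsion_bound
    (latt R (k + 1) hm hR f ⊔ latt R' (k + 1) hm hR' f) (Submodule.span W (gapSet x T N))
    (Submodule.fg_span (gapSet_finite x T N)) q
  -- Newton on both charts, to precision `q ^ (e₀ + 1)`
  have haR : s ^ (k + 1) * f - 1 ∈ R := R.sub_mem hs R.one_mem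
  have ha'R : s' ^ (k + 1) * f - 1 ∈ R' := R'.sub_mem hs' R'.one_mem
  obtain ⟨Ne, r₁, hr₁, hpow⟩ := NilMod.exists_pow ha (e₀ + 1)
  obtain ⟨Ne', r₁', hr₁', hpow'⟩ := NilMod.exists_pow ha' (e₀ + 1)
  obtain ⟨c, hcR, b, hbR, ε, hεR, hc, hcb⟩ := exists_newton_sub R (k + 1) m' hmm haR Ne
  obtain ⟨c', hc'R, b', hb'R, ε', hε'R, hc', hcb'⟩ :=
    exists_newton_sub R' (k + 1) m' hmm ha'R Ne'
  rw [add_sub_cancel] at hcb hcb'
  -- the improved sections
  obtain ⟨r₂, hr₂, hA⟩ : ∃ r ∈ R, (s * c) ^ (k + 1) * f - 1 = q ^ (e₀ + 1) • r := by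
    refine ⟨r₁ * (s ^ (k + 1) * f - 1) * b, R.mul_mem (R.mul_mem hr₁ haR) hbR, ?_⟩
    have : (s * c) ^ (k + 1) * f = s ^ (k + 1) * f * c ^ (k + 1) := by ring
    rw [this, hcb, pow_succ _ Ne, hpow, smul_mul_assoc, smul_mul_assoc]
    ring
  obtain ⟨r₂', hr₂', hA'⟩ : ∃ r ∈ R', (s' * c') ^ (k + 1) * f - 1 = q ^ (e₀ + 1) • r := by
    refine ⟨r₁' * (s' ^ (k + 1) * f - 1) * b', R'.mul_mem (R'.mul_mem hr₁' ha'R) hb'R, ?_⟩
    have : (s' * c') ^ (k + 1) * f = s' ^ (k + 1) * f * c' ^ (k + 1) := by ring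
    rw [this, hcb', pow_succ _ Ne', hpow', smul_mul_assoc, smul_mul_assoc]
    ring
  have hse : s * c ∈ latt R (k + 1) hm hR f := by
    show (s * c) ^ (k + 1) * f ∈ R
    have : (s * c) ^ (k + 1) * f = 1 + q ^ (e₀ + 1) • r₂ := by
      rw [← hA]; ring
    rw [this]
    exact R.add_mem R.one_mem (R.smul_mem hr₂ _)
  have hse' : s' * c' ∈ latt R' (k + 1) hm hR' f := by
    show (s' * c') ^ (k + 1) * f ∈ R'
    have : (s' * c') ^ (k + 1) * f = 1 + q ^ (e₀ + 1) • r₂' := by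
      rw [← hA']; ring
    rw [this]
    exact R'.add_mem R'.one_mem (R'.smul_mem hr₂' _)
  -- the ratio `u`
  have huR₀ : s * s' ^ k * f ∈ loc R x hxR := by
    apply hR₀
    have : (s * s' ^ k * f) ^ (k + 1) = (s ^ (k + 1) * f) * (s' ^ (k + 1) * f) ^ k := by ring
    rw [this]
    exact Subalgebra.mul_mem _ (hRR₀ hs) (Subalgebra.pow_mem _ (hR'R₀ hs') k)
  have hρ' : NilMod (loc R x hxR) q (s * s' ^ k * f - 1) := by
    obtain ⟨N₁, n₁, r, hr, e⟩ := hρ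
    refine ⟨N₁, x⁻¹ ^ n₁ * r, ⟨n₁, ?_⟩, ?_⟩
    · rw [← mul_assoc, ← mul_pow, mul_inv_cancel₀ hx, one_pow, one_mul]
      exact hr
    · rw [← mul_smul_comm, ← e, ← mul_assoc, ← mul_pow, inv_mul_cancel₀ hx, one_pow, one_mul]
  have hueR₀ : (s * c) * (s' * c') ^ k * f ∈ loc R x hxR := by
    apply hR₀
    have : ((s * c) * (s' * c') ^ k * f) ^ (k + 1) =
        ((s * c) ^ (k + 1) * f) * ((s' * c') ^ (k + 1) * f) ^ k := by ring
    rw [this]
    exact Subalgebra.mul_mem _ (hRR₀ hse) (Subalgebra.pow_mem _ (hR'R₀ hse') k)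
  have hcR₀ : c ∈ loc R x hxR := hRR₀ hcR
  have hc'R₀ : c' ∈ loc R x hxR := hR'R₀ hc'R
  have hρe : NilMod (loc R x hxR) q ((s * c) * (s' * c') ^ k * f - 1) := by
    have e1 : (s * c) * (s' * c') ^ k * f - 1 =
        ((s * s' ^ k * f - 1) * (c * c' ^ k) + (s ^ (k + 1) * f - 1) * (ε * c' ^ k)) +
          (s' ^ (k + 1) * f - 1) * (ε' * ∑ i ∈ Finset.range k, c' ^ i) := by
      have hg := geom_sum_mul c' k
      have hc1 : c' - 1 = (s' ^ (k + 1) * f - 1) * ε' := by rw [hc']; ring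
      have e2 : (s' ^ (k + 1) * f - 1) * (ε' * ∑ i ∈ Finset.range k, c' ^ i) = c' ^ k - 1 := by
        rw [← hg, hc1]; ring
      rw [e2, hc]
      ring
    rw [e1]
    have hsum : ∑ i ∈ Finset.range k, c' ^ i ∈ loc R x hxR :=
      Subalgebra.sum_mem _ fun i _ => Subalgebra.pow_mem _ hc'R₀ i
    have hck : c * c' ^ k ∈ loc R x hxR :=
      Subalgebra.mul_mem _ hcR₀ (Subalgebra.pow_mem _ hc'R₀ k)
    have hεk : ε * c' ^ k ∈ loc R x hxR :=
      Subalgebra.mul_mem _ (hRR₀ hεR) (Subalgebra.pow_mem _ hc'R₀ k)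
    have hε'k : ε' * ∑ i ∈ Finset.range k, c' ^ i ∈ loc R x hxR :=
      Subalgebra.mul_mem _ (hR'R₀ hε'R) hsum
    have hu1 : s * s' ^ k * f - 1 ∈ loc R x hxR := Subalgebra.sub_mem _ huR₀ (Subalgebra.one_mem _)
    refine NilMod.add ?_ ?_ (NilMod.add ?_ ?_ (hρ'.mul_right hck)
      ((NilMod.mono hRR₀ ha).mul_right hεk)) ((NilMod.mono hR'R₀ ha').mul_right hε'k)
    · exact Subalgebra.add_mem _ (Subalgebra.mul_mem _ hu1 hck)
        (Subalgebra.mul_mem _ (hRR₀ haR) hεk)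
    · exact Subalgebra.mul_mem _ (hR'R₀ ha'R) hε'k
    · exact Subalgebra.mul_mem _ hu1 hck
    · exact Subalgebra.mul_mem _ (hRR₀ haR) hεk
  obtain ⟨r₃, hr₃, hu3⟩ := sub_one_eq_smul_of_pow_eq (loc R x hxR) (k + 1) m' hmm
    (q ^ (e₀ + 1)) hueR₀ (NilMod.exists_pow hρe (e₀ + 1))
    ⟨r₂, hRR₀ hr₂, hA⟩ ⟨r₂', hR'R₀ hr₂', hA'⟩
    (by rw [Nat.add_sub_cancel]; ring)
  -- the difference of the two sections is divisible by `q ^ (e₀ + 1)` in `L₀`
  set d : F := s * c - s' * c' with hd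
  have hdL₀ : d ∈ latt (loc R x hxR) (k + 1) hm hR₀ f :=
    Submodule.sub_mem _ (hLL₀ hse) (hL'L₀ hse')
  set d₀ : F := (r₃ - r₂') * (s' * c') - r₂' * d with hd₀
  have hd₀L₀ : d₀ ∈ latt (loc R x hxR) (k + 1) hm hR₀ f :=
    Submodule.sub_mem _
      (latt_mul_mem (Subalgebra.sub_mem _ hr₃ (hR'R₀ hr₂')) (hL'L₀ hse'))
      (latt_mul_mem (hR'R₀ hr₂') hdL₀)
  have hdd₀ : d = q ^ (e₀ + 1) • d₀ := by
    have e1 : d = (((s * c) * (s' * c') ^ k * f - 1) - ((s' * c') ^ (k + 1) * f - 1)) * (s' * c')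
        - ((s' * c') ^ (k + 1) * f - 1) * d := by
      rw [hd]; ring
    have e2 : q ^ (e₀ + 1) • d₀ = (q ^ (e₀ + 1) • r₃ - q ^ (e₀ + 1) • r₂') * (s' * c') -
        (q ^ (e₀ + 1) • r₂') * d := by
      rw [hd₀, smul_sub, ← smul_mul_assoc, smul_sub, ← smul_mul_assoc]
    rw [e2, ← hu3, ← hA']
    exact e1
  -- Čech: bounded torsion
  obtain ⟨h, hh, g, hg, hhg⟩ := Submodule.mem_sup.1 (hcech hd₀L₀)
  have hdH : d ∈ latt R (k + 1) hm hR f ⊔ latt R' (k + 1) hm hR' f :=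
    Submodule.sub_mem _ (Submodule.mem_sup_left hse) (Submodule.mem_sup_right hse')
  have hgH : q ^ (e₀ + 1) • g ∈ latt R (k + 1) hm hR f ⊔ latt R' (k + 1) hm hR' f := by
    have : q ^ (e₀ + 1) • g = d - q ^ (e₀ + 1) • h := by
      rw [hdd₀, ← hhg, smul_add, add_sub_cancel_left]
    rw [this]
    exact Submodule.sub_mem _ hdH (Submodule.smul_mem _ _ hh)
  have hg₀ := he₀ (e₀ + 1) g hg hgH
  have hd₀H : q ^ e₀ • d₀ ∈ latt R (k + 1) hm hR f ⊔ latt R' (k + 1) hm hR' f := by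
    rw [← hhg, smul_add]
    exact Submodule.add_mem _ (Submodule.smul_mem _ _ hh) hg₀
  obtain ⟨l, hl, l', hl', hll'⟩ := Submodule.mem_sup.1 hd₀H
  have hsplit : s * c - s' * c' = q • l + q • l' := by
    rw [← smul_add, hll', ← hd, hdd₀, pow_succ, mul_comm, mul_smul]
  refine ⟨s * c + q • (-l), ?_, ?_⟩
  · exact exists_pow_mul_sub_one_eq hse (Submodule.neg_mem _ hl) q
      ⟨q ^ e₀ • r₂, R.smul_mem hr₂ _, by rw [hA, pow_succ, mul_comm, mul_smul]⟩
  · have e1 : s * c + q • (-l) = s' * c' + q • l' := by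
      rw [smul_neg]
      linear_combination hsplit
    rw [e1]
    exact exists_pow_mul_sub_one_eq hse' hl' q
      ⟨q ^ e₀ • r₂', R'.smul_mem hr₂' _, by rw [hA', pow_succ, mul_comm, mul_smul]⟩

/-- **Start from local data** (the ideal argument).  `O ⊇ R` a subalgebra with an ideal `𝔫`
containing `q`; if for every maximal ideal `Q ∋ q` of `R` there are `h ∈ R ∖ Q` and a section `s`
of the lattice with `s ≡ h mod 𝔫`, then there is a section `s ≡ 1 mod 𝔫`. -/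
theorem exists_start {R O : Subalgebra W F} (hRO : R ≤ O) (𝔫 : Ideal O) {m : ℕ} (hm : m ≠ 0)
    (hR : RootClosed R m) (q : W) (hq𝔫 : algebraMap W O q ∈ 𝔫) (f : F)
    (hlocal : ∀ Q : Ideal R, Q.IsMaximal → algebraMap W R q ∈ Q →
      ∃ h : R, h ∉ Q ∧ ∃ s : O, (s : F) ^ m * f ∈ R ∧ s - ⟨h, hRO h.2⟩ ∈ 𝔫) :
    ∃ s : O, (s : F) ^ m * f ∈ R ∧ s - 1 ∈ 𝔫 := by
  let 𝔞 : Ideal R :=
    { carrier := {h | ∃ s : O, (s : F) ^ m * f ∈ R ∧ s - ⟨h, hRO h.2⟩ ∈ 𝔫}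
      zero_mem' := by
        refine ⟨0, ?_, ?_⟩
        · rw [Subalgebra.coe_zero, zero_pow hm, zero_mul]
          exact R.zero_mem
        · have : (0 : O) - ⟨((0 : R) : F), hRO (0 : R).2⟩ = 0 := by
            apply Subtype.ext
            simp
          rw [this]
          exact 𝔫.zero_mem
      add_mem' := by
        rintro a b ⟨s, hs, hsa⟩ ⟨t, ht, htb⟩
        refine ⟨s + t, (latt R m hm hR f).add_mem hs ht, ?_⟩
        have : s + t - ⟨((a + b : R) : F), hRO (a + b).2⟩ =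
            (s - ⟨a, hRO a.2⟩) + (t - ⟨b, hRO b.2⟩) := by
          apply Subtype.ext
          simp only [Subalgebra.coe_add, Subalgebra.coe_sub]
          ring
        rw [this]
        exact 𝔫.add_mem hsa htb
      smul_mem' := by
        rintro c b ⟨s, hs, hsb⟩
        refine ⟨⟨c, hRO c.2⟩ * s, latt_mul_mem (hm := hm) (hR := hR) c.2 hs, ?_⟩
        have : (⟨c, hRO c.2⟩ : O) * s - ⟨((c • b : R) : F), hRO (c • b).2⟩ =
            ⟨c, hRO c.2⟩ * (s - ⟨b, hRO b.2⟩) := by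
          apply Subtype.ext
          simp only [Subalgebra.coe_mul, Subalgebra.coe_sub, smul_eq_mul]
          ring
        rw [this]
        exact 𝔫.mul_mem_left _ hsb }
  have htop : 𝔞 = ⊤ := by
    by_contra hne
    obtain ⟨Q, hQ, hle⟩ := Ideal.exists_le_maximal 𝔞 hne
    by_cases hqQ : algebraMap W R q ∈ Q
    · obtain ⟨h, hh, hmem⟩ := hlocal Q hQ hqQ
      exact hh (hle hmem)
    · apply hqQ
      apply hle
      refine ⟨0, ?_, ?_⟩
      · rw [Subalgebra.coe_zero, zero_pow hm, zero_mul]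
        exact R.zero_mem
      · have : (0 : O) - ⟨((algebraMap W R q : R) : F), hRO (algebraMap W R q).2⟩ =
            -(algebraMap W O q) := by
          apply Subtype.ext
          simp
        rw [this]
        exact 𝔫.neg_mem hq𝔫
  have h1 : (1 : R) ∈ 𝔞 := by
    rw [htop]
    trivial
  obtain ⟨s, hs, h⟩ := h1
  refine ⟨s, hs, ?_⟩
  have : s - 1 = s - ⟨((1 : R) : F), hRO (1 : R).2⟩ := by
    apply Subtype.ext
    simp
  rw [this]
  exact h

/-- **NEWTON–ČECH from local data.**  `O ⊇ R, R'` the semilocal ring of the vertical valuations,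
`𝔫` its radical (`q ∈ 𝔫`), saturation in the form "elements of `𝔫` lying in a chart ring are
nilpotent modulo `q` there", the Kummer generator normalised by `f ≡ 1 mod 𝔫`, and at every
closed point `Q ∋ q` of either chart a section of the lattice congruent modulo `𝔫` to a function
not vanishing at `Q`.  Then there is a global `σ` with `σ ^ m * f ≡ 1 mod q` on both charts. -/
theorem exists_global_root_of_local [IsNoetherianRing W]
    (q : W) (m : ℕ) (m' : W) (hmm : (m : W) * m' = 1)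
    (x : F) (hx : x ≠ 0) (R R' : Subalgebra W F) (hxR : x ∈ R) (hxR' : x⁻¹ ∈ R')
    (hR : ∀ y : F, y ^ m ∈ R → y ∈ R) (hR' : ∀ y : F, y ^ m ∈ R' → y ∈ R')
    (hfin : ∃ t : Finset F, ∀ y ∈ R, y ∈ Submodule.span (Algebra.adjoin W {x}) (t : Set F))
    (hloc : ∀ r ∈ R', ∃ n : ℕ, x ^ n * r ∈ R) (hloc' : ∀ r ∈ R, ∃ n : ℕ, x⁻¹ ^ n * r ∈ R')
    (O : Subalgebra W F) (𝔫 : Ideal O) (hRO : R ≤ O) (hR'O : R' ≤ O)
    (hq𝔫 : algebraMap W O q ∈ 𝔫)
    (hsat : ∀ y : O, y ∈ 𝔫 → (y : F) ∈ R → ∃ N : ℕ, ∃ r ∈ R, (y : F) ^ N = q • r)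
    (hsat' : ∀ y : O, y ∈ 𝔫 → (y : F) ∈ R' → ∃ N : ℕ, ∃ r ∈ R', (y : F) ^ N = q • r)
    (hsat₀ : ∀ y : O, y ∈ 𝔫 → (∃ n : ℕ, x ^ n * (y : F) ∈ R) →
      ∃ N n : ℕ, ∃ r ∈ R, x ^ n * (y : F) ^ N = q • r)
    (f : O) (hf1 : f - 1 ∈ 𝔫)
    (hlocal : ∀ Q : Ideal R, Q.IsMaximal → algebraMap W R q ∈ Q →
      ∃ h : R, h ∉ Q ∧ ∃ s : O, (s : F) ^ m * f ∈ R ∧ s - ⟨h, hRO h.2⟩ ∈ 𝔫)
    (hlocal' : ∀ Q : Ideal R', Q.IsMaximal → algebraMap W R' q ∈ Q →
      ∃ h : R', h ∉ Q ∧ ∃ s : O, (s : F) ^ m * f ∈ R' ∧ s - ⟨h, hR'O h.2⟩ ∈ 𝔫) :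
    ∃ σ : F, (∃ r ∈ R, σ ^ m * f - 1 = q • r) ∧ (∃ r ∈ R', σ ^ m * f - 1 = q • r) := by
  have hm : m ≠ 0 := by
    rintro rfl
    have h1 : (1 : W) = 0 := by rw [← hmm]; simp
    have h2 : (1 : F) = 0 := by rw [← map_one (algebraMap W F), h1, map_zero]
    exact one_ne_zero h2
  obtain ⟨s, hs, hs1⟩ := exists_start hRO 𝔫 hm hR q hq𝔫 f hlocal
  obtain ⟨s', hs', hs1'⟩ := exists_start hR'O 𝔫 hm hR' q hq𝔫 f hlocal'
  -- congruences modulo `𝔫`
  have hπ : ∀ y : O, y - 1 ∈ 𝔫 → Ideal.Quotient.mk 𝔫 y = 1 := by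
    intro y hy
    rw [← sub_eq_zero, ← map_one (Ideal.Quotient.mk 𝔫), ← map_sub]
    exact Ideal.Quotient.eq_zero_iff_mem.2 hy
  have h1 : s ^ m * f - 1 ∈ 𝔫 := by
    rw [← Ideal.Quotient.eq_zero_iff_mem, map_sub, map_mul, map_pow, hπ s hs1, hπ f hf1]
    simp
  have h1' : s' ^ m * f - 1 ∈ 𝔫 := by
    rw [← Ideal.Quotient.eq_zero_iff_mem, map_sub, map_mul, map_pow, hπ s' hs1', hπ f hf1]
    simp
  have hu : s * s' ^ (m - 1) * f - 1 ∈ 𝔫 := by
    rw [← Ideal.Quotient.eq_zero_iff_mem, map_sub, map_mul, map_mul, map_pow, hπ s hs1,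
      hπ s' hs1', hπ f hf1]
    simp
  refine exists_global_root q m m' hmm x hx R R' hxR hxR' hR hR' hfin hloc hloc' f s s' hs hs'
    ?_ ?_ ?_
  · have := hsat _ h1 (by
      have : ((s ^ m * f - 1 : O) : F) = (s : F) ^ m * f - 1 := by simp
      rw [this]
      exact R.sub_mem hs R.one_mem)
    simpa using this
  · have := hsat' _ h1' (by
      have : ((s' ^ m * f - 1 : O) : F) = (s' : F) ^ m * f - 1 := by simp
      rw [this]
      exact R'.sub_mem hs' R'.one_mem)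
    simpa using this
  · have hmem : (s : F) * (s' : F) ^ (m - 1) * f - 1 ∈ loc R x hxR := by
      refine Subalgebra.sub_mem _ ?_ (Subalgebra.one_mem _)
      apply rootClosed_loc hm hR x hxR
      have e : ((s : F) * (s' : F) ^ (m - 1) * f) ^ m =
          ((s : F) ^ m * f) * ((s' : F) ^ m * f) ^ (m - 1) := by
        obtain ⟨k, rfl⟩ : ∃ k, m = k + 1 := ⟨m - 1, by omega⟩
        rw [Nat.add_sub_cancel]
        ring
      rw [e]
      exact Subalgebra.mul_mem _ (le_loc R x hxR hs)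
        (Subalgebra.pow_mem _ (show (s' : F) ^ m * f ∈ loc R x hxR from hloc _ hs') _)
    have := hsat₀ _ hu (by
      have : ((s * s' ^ (m - 1) * f - 1 : O) : F) = (s : F) * (s' : F) ^ (m - 1) * f - 1 := by
        simp
      rw [this]
      exact hmem)
    simpa using this

theorem mem_of_mem_nonunits {V : ValuationSubring F} {y : F} (hy : y ∈ V.nonunits) : y ∈ V :=
  (V.valuation_le_one_iff y).1 (le_of_lt ((ValuationSubring.mem_nonunits_iff V).1 hy))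

/-- **NEWTON–ČECH from local data, valuation form.**  The same as
`exists_global_root_of_local`, with the radical given by a family of valuation subrings `V i`
of `F` (the vertical valuations): `𝔫 = {y | ∀ i, y ∈ (V i).nonunits}`. -/
theorem exists_global_root_of_valuations [IsNoetherianRing W]
    (q : W) (m : ℕ) (m' : W) (hmm : (m : W) * m' = 1)
    (x : F) (hx : x ≠ 0) (R R' : Subalgebra W F) (hxR : x ∈ R) (hxR' : x⁻¹ ∈ R')
    (hR : ∀ y : F, y ^ m ∈ R → y ∈ R) (hR' : ∀ y : F, y ^ m ∈ R' → y ∈ R')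
    (hfin : ∃ t : Finset F, ∀ y ∈ R, y ∈ Submodule.span (Algebra.adjoin W {x}) (t : Set F))
    (hloc : ∀ r ∈ R', ∃ n : ℕ, x ^ n * r ∈ R) (hloc' : ∀ r ∈ R, ∃ n : ℕ, x⁻¹ ^ n * r ∈ R')
    {ι : Type*} (V : ι → ValuationSubring F)
    (hRV : ∀ i, ∀ r ∈ R, r ∈ V i) (hR'V : ∀ i, ∀ r ∈ R', r ∈ V i)
    (hqV : ∀ i, algebraMap W F q ∈ (V i).nonunits)
    (hsat : ∀ y ∈ R, (∀ i, y ∈ (V i).nonunits) → ∃ N : ℕ, ∃ r ∈ R, y ^ N = q • r)
    (hsat' : ∀ y ∈ R', (∀ i, y ∈ (V i).nonunits) → ∃ N : ℕ, ∃ r ∈ R', y ^ N = q • r)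
    (hsat₀ : ∀ y : F, (∀ i, y ∈ (V i).nonunits) → (∃ n : ℕ, x ^ n * y ∈ R) →
      ∃ N n : ℕ, ∃ r ∈ R, x ^ n * y ^ N = q • r)
    (f : F) (hf1 : ∀ i, f - 1 ∈ (V i).nonunits)
    (hlocal : ∀ Q : Ideal R, Q.IsMaximal → algebraMap W R q ∈ Q →
      ∃ h : R, h ∉ Q ∧ ∃ s : F, s ^ m * f ∈ R ∧ ∀ i, s - h ∈ (V i).nonunits)
    (hlocal' : ∀ Q : Ideal R', Q.IsMaximal → algebraMap W R' q ∈ Q →
      ∃ h : R', h ∉ Q ∧ ∃ s : F, s ^ m * f ∈ R' ∧ ∀ i, s - h ∈ (V i).nonunits) :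
    ∃ σ : F, (∃ r ∈ R, σ ^ m * f - 1 = q • r) ∧ (∃ r ∈ R', σ ^ m * f - 1 = q • r) := by
  let O : Subalgebra W F :=
    { carrier := {y | ∀ i, y ∈ V i}
      mul_mem' := fun ha hb i => (V i).mul_mem _ _ (ha i) (hb i)
      add_mem' := fun ha hb i => (V i).add_mem _ _ (ha i) (hb i)
      algebraMap_mem' := fun w i => hRV i _ (R.algebraMap_mem w) }
  let 𝔫 : Ideal O :=
    { carrier := {y | ∀ i, (y : F) ∈ (V i).nonunits}
      add_mem' := fun ha hb i => (V i).nonunits.add_mem (ha i) (hb i)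
      zero_mem' := fun i => (V i).nonunits.zero_mem
      smul_mem' := fun c y hy i => by
        show ((c : F) * (y : F)) ∈ (V i).nonunits
        rw [ValuationSubring.mem_nonunits_iff, map_mul]
        exact mul_lt_of_le_one_of_lt (((V i).valuation_le_one_iff _).2 (c.2 i))
          ((ValuationSubring.mem_nonunits_iff (V i)).1 (hy i)) }
  have hRO : R ≤ O := fun r hr i => hRV i r hr
  have hR'O : R' ≤ O := fun r hr i => hR'V i r hr
  have hfO : f ∈ O := fun i => by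
    have : f = 1 + (f - 1) := by ring
    rw [this]
    exact (V i).add_mem _ _ (V i).one_mem (mem_of_mem_nonunits (hf1 i))
  refine exists_global_root_of_local q m m' hmm x hx R R' hxR hxR' hR hR' hfin hloc hloc' O 𝔫
    hRO hR'O (fun i => hqV i) (fun y hy hyR => hsat _ hyR hy) (fun y hy hyR => hsat' _ hyR hy)
    (fun y hy hyR => hsat₀ _ hy hyR) ⟨f, hfO⟩ (fun i => hf1 i) ?_ ?_
  · intro Q hQ hqQ
    obtain ⟨h, hh, s, hs, hsh⟩ := hlocal Q hQ hqQ
    have hsO : s ∈ O := fun i => by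
      have : s = (h : F) + (s - h) := by ring
      rw [this]
      exact (V i).add_mem _ _ (hRV i _ h.2) (mem_of_mem_nonunits (hsh i))
    exact ⟨h, hh, ⟨s, hsO⟩, hs, fun i => hsh i⟩
  · intro Q hQ hqQ
    obtain ⟨h, hh, s, hs, hsh⟩ := hlocal' Q hQ hqQ
    have hsO : s ∈ O := fun i => by
      have : s = (h : F) + (s - h) := by ring
      rw [this]
      exact (V i).add_mem _ _ (hR'V i _ h.2) (mem_of_mem_nonunits (hsh i))
    exact ⟨h, hh, ⟨s, hsO⟩, hs, fun i => hsh i⟩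

/-- **NEWTON–ČECH from local data, points at infinity only on the second chart.**  The same as
`exists_global_root_of_local`, but on the chart `R'` the local pair is only required at the
maximal ideals containing `q` AND `x⁻¹` (the points with `x = ∞`): at the other points of `R'`
the pair is produced from the global start on the chart `R`. -/
theorem exists_global_root_of_local_inf [IsNoetherianRing W]
    (q : W) (m : ℕ) (m' : W) (hmm : (m : W) * m' = 1)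
    (x : F) (hx : x ≠ 0) (R R' : Subalgebra W F) (hxR : x ∈ R) (hxR' : x⁻¹ ∈ R')
    (hR : ∀ y : F, y ^ m ∈ R → y ∈ R) (hR' : ∀ y : F, y ^ m ∈ R' → y ∈ R')
    (hfin : ∃ t : Finset F, ∀ y ∈ R, y ∈ Submodule.span (Algebra.adjoin W {x}) (t : Set F))
    (hloc : ∀ r ∈ R', ∃ n : ℕ, x ^ n * r ∈ R) (hloc' : ∀ r ∈ R, ∃ n : ℕ, x⁻¹ ^ n * r ∈ R')
    (O : Subalgebra W F) (𝔫 : Ideal O) (hRO : R ≤ O) (hR'O : R' ≤ O)
    (hq𝔫 : algebraMap W O q ∈ 𝔫)
    (hsat : ∀ y : O, y ∈ 𝔫 → (y : F) ∈ R → ∃ N : ℕ, ∃ r ∈ R, (y : F) ^ N = q • r)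
    (hsat' : ∀ y : O, y ∈ 𝔫 → (y : F) ∈ R' → ∃ N : ℕ, ∃ r ∈ R', (y : F) ^ N = q • r)
    (hsat₀ : ∀ y : O, y ∈ 𝔫 → (∃ n : ℕ, x ^ n * (y : F) ∈ R) →
      ∃ N n : ℕ, ∃ r ∈ R, x ^ n * (y : F) ^ N = q • r)
    (f : O) (hf1 : f - 1 ∈ 𝔫)
    (hlocal : ∀ Q : Ideal R, Q.IsMaximal → algebraMap W R q ∈ Q →
      ∃ h : R, h ∉ Q ∧ ∃ s : O, (s : F) ^ m * f ∈ R ∧ s - ⟨h, hRO h.2⟩ ∈ 𝔫)
    (hlocal' : ∀ Q : Ideal R', Q.IsMaximal → algebraMap W R' q ∈ Q → (⟨x⁻¹, hxR'⟩ : R') ∈ Q →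
      ∃ h : R', h ∉ Q ∧ ∃ s : O, (s : F) ^ m * f ∈ R' ∧ s - ⟨h, hR'O h.2⟩ ∈ 𝔫) :
    ∃ σ : F, (∃ r ∈ R, σ ^ m * f - 1 = q • r) ∧ (∃ r ∈ R', σ ^ m * f - 1 = q • r) := by
  have hm : m ≠ 0 := by
    rintro rfl
    have h1 : (1 : W) = 0 := by rw [← hmm]; simp
    have h2 : (1 : F) = 0 := by rw [← map_one (algebraMap W F), h1, map_zero]
    exact one_ne_zero h2
  have hRc : RootClosed R m := hR
  have hR'c : RootClosed R' m := hR'
  obtain ⟨s, hs, hs1⟩ := exists_start hRO 𝔫 hm hRc q hq𝔫 f hlocal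
  refine exists_global_root_of_local q m m' hmm x hx R R' hxR hxR' hR hR' hfin hloc hloc' O 𝔫
    hRO hR'O hq𝔫 hsat hsat' hsat₀ f hf1 hlocal ?_
  intro Q hQ hqQ
  by_cases hxQ : (⟨x⁻¹, hxR'⟩ : R') ∈ Q
  · exact hlocal' Q hQ hqQ hxQ
  · have hsL : (s : F) ∈ latt R m hm hRc f := hs
    obtain ⟨n, hn⟩ := exists_pow_mul_mem_latt (hT := hR'c) hxR' hloc' hsL
    refine ⟨⟨x⁻¹, hxR'⟩ ^ n, fun hmem => hxQ (hQ.isPrime.mem_of_pow_mem n hmem),
      ⟨x⁻¹, hR'O hxR'⟩ ^ n * s, ?_, ?_⟩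
    · have e : (((⟨x⁻¹, hR'O hxR'⟩ : O) ^ n * s : O) : F) = x⁻¹ ^ n * (s : F) := by simp
      rw [e]
      exact hn
    · have e : (⟨x⁻¹, hR'O hxR'⟩ : O) ^ n * s
          - ⟨(((⟨x⁻¹, hxR'⟩ : R') ^ n : R') : F), hR'O ((⟨x⁻¹, hxR'⟩ : R') ^ n).2⟩
          = ⟨x⁻¹, hR'O hxR'⟩ ^ n * (s - 1) := by
        apply Subtype.ext
        simp only [Subalgebra.coe_sub, Subalgebra.coe_mul, Subalgebra.coe_pow, Subalgebra.coe_one]
        ring
      rw [e]
      exact 𝔫.mul_mem_left _ hs1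

/-- **NEWTON–ČECH from local data, valuation form, points at infinity only on the second
chart.**  The consumer-facing form: `V i` the vertical valuation rings, the local pair at every
maximal ideal `Q ∋ q` of the chart `R`, and on the chart `R'` only at the maximal ideals
containing `q` and `x⁻¹`. -/
theorem exists_global_root_of_valuations_inf [IsNoetherianRing W]
    (q : W) (m : ℕ) (m' : W) (hmm : (m : W) * m' = 1)
    (x : F) (hx : x ≠ 0) (R R' : Subalgebra W F) (hxR : x ∈ R) (hxR' : x⁻¹ ∈ R')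
    (hR : ∀ y : F, y ^ m ∈ R → y ∈ R) (hR' : ∀ y : F, y ^ m ∈ R' → y ∈ R')
    (hfin : ∃ t : Finset F, ∀ y ∈ R, y ∈ Submodule.span (Algebra.adjoin W {x}) (t : Set F))
    (hloc : ∀ r ∈ R', ∃ n : ℕ, x ^ n * r ∈ R) (hloc' : ∀ r ∈ R, ∃ n : ℕ, x⁻¹ ^ n * r ∈ R')
    {ι : Type*} (V : ι → ValuationSubring F)
    (hRV : ∀ i, ∀ r ∈ R, r ∈ V i) (hR'V : ∀ i, ∀ r ∈ R', r ∈ V i)
    (hqV : ∀ i, algebraMap W F q ∈ (V i).nonunits)
    (hsat : ∀ y ∈ R, (∀ i, y ∈ (V i).nonunits) → ∃ N : ℕ, ∃ r ∈ R, y ^ N = q • r)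
    (hsat' : ∀ y ∈ R', (∀ i, y ∈ (V i).nonunits) → ∃ N : ℕ, ∃ r ∈ R', y ^ N = q • r)
    (hsat₀ : ∀ y : F, (∀ i, y ∈ (V i).nonunits) → (∃ n : ℕ, x ^ n * y ∈ R) →
      ∃ N n : ℕ, ∃ r ∈ R, x ^ n * y ^ N = q • r)
    (f : F) (hf1 : ∀ i, f - 1 ∈ (V i).nonunits)
    (hlocal : ∀ Q : Ideal R, Q.IsMaximal → algebraMap W R q ∈ Q →
      ∃ h : R, h ∉ Q ∧ ∃ s : F, s ^ m * f ∈ R ∧ ∀ i, s - h ∈ (V i).nonunits)
    (hlocal' : ∀ Q : Ideal R', Q.IsMaximal → algebraMap W R' q ∈ Q → (⟨x⁻¹, hxR'⟩ : R') ∈ Q →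
      ∃ h : R', h ∉ Q ∧ ∃ s : F, s ^ m * f ∈ R' ∧ ∀ i, s - h ∈ (V i).nonunits) :
    ∃ σ : F, (∃ r ∈ R, σ ^ m * f - 1 = q • r) ∧ (∃ r ∈ R', σ ^ m * f - 1 = q • r) := by
  let O : Subalgebra W F :=
    { carrier := {y | ∀ i, y ∈ V i}
      mul_mem' := fun ha hb i => (V i).mul_mem _ _ (ha i) (hb i)
      add_mem' := fun ha hb i => (V i).add_mem _ _ (ha i) (hb i)
      algebraMap_mem' := fun w i => hRV i _ (R.algebraMap_mem w) }
  let 𝔫 : Ideal O :=
    { carrier := {y | ∀ i, (y : F) ∈ (V i).nonunits}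
      add_mem' := fun ha hb i => (V i).nonunits.add_mem (ha i) (hb i)
      zero_mem' := fun i => (V i).nonunits.zero_mem
      smul_mem' := fun c y hy i => by
        show ((c : F) * (y : F)) ∈ (V i).nonunits
        rw [ValuationSubring.mem_nonunits_iff, map_mul]
        exact mul_lt_of_le_one_of_lt (((V i).valuation_le_one_iff _).2 (c.2 i))
          ((ValuationSubring.mem_nonunits_iff (V i)).1 (hy i)) }
  have hRO : R ≤ O := fun r hr i => hRV i r hr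
  have hR'O : R' ≤ O := fun r hr i => hR'V i r hr
  have hfO : f ∈ O := fun i => by
    have : f = 1 + (f - 1) := by ring
    rw [this]
    exact (V i).add_mem _ _ (V i).one_mem (mem_of_mem_nonunits (hf1 i))
  refine exists_global_root_of_local_inf q m m' hmm x hx R R' hxR hxR' hR hR' hfin hloc hloc'
    O 𝔫 hRO hR'O (fun i => hqV i) (fun y hy hyR => hsat _ hyR hy)
    (fun y hy hyR => hsat' _ hyR hy) (fun y hy hyR => hsat₀ _ hy hyR) ⟨f, hfO⟩
    (fun i => hf1 i) ?_ ?_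
  · intro Q hQ hqQ
    obtain ⟨h, hh, s, hs, hsh⟩ := hlocal Q hQ hqQ
    have hsO : s ∈ O := fun i => by
      have : s = (h : F) + (s - h) := by ring
      rw [this]
      exact (V i).add_mem _ _ (hRV i _ h.2) (mem_of_mem_nonunits (hsh i))
    exact ⟨h, hh, ⟨s, hsO⟩, hs, fun i => hsh i⟩
  · intro Q hQ hqQ hxQ
    obtain ⟨h, hh, s, hs, hsh⟩ := hlocal' Q hQ hqQ hxQ
    have hsO : s ∈ O := fun i => by
      have : s = (h : F) + (s - h) := by ring
      rw [this]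
      exact (V i).add_mem _ _ (hR'V i _ h.2) (mem_of_mem_nonunits (hsh i))
    exact ⟨h, hh, ⟨s, hsO⟩, hs, fun i => hsh i⟩

end Main

end Fermat.Agent.CAR.Glob
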