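/-
CAR (helper18) — the multiplicative conclusion of the Newton–Čech endgame (Mathlib +
`CAR/Glob/NewtonCech.lean`).

* `exists_eq_const_mul_pow_of_valuations_inf` : under the hypotheses of
  `exists_global_root_of_valuations_inf` and `R ∩ R' = W` (constants), the normalised Kummer
  generator is a constant times an `m`-th power: `f = c * τ ^ m`, `c ∈ W`, `c ≠ 0`, `τ ≠ 0`.
* `pow_eq_const_mul_pow` : the bookkeeping from the normal form `f ^ E = a₀ * G ^ m * f₃`,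
  the killing of the gluing ratios `f₄ = f₃ ^ e₂ * φ ^ m` and `f₄ = c₁ * τ ^ m` to
  `f ^ (E * e₂) = (a₀ ^ e₂ * c₁) * (G ^ e₂ * τ * φ⁻¹) ^ m`.
-/
import Mathlib
import Fermat.Agent.CAR.Glob.NewtonCech

set_option autoImplicit false

namespace Fermat.Agent.CAR.Glob

variable {W F : Type*} [CommRing W] [Field F] [Algebra W F]

/-- An element congruent to `1` modulo `q • R` is nonzero as soon as `R` lies in a valuation
ring in which `q` is a non-unit. -/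
theorem ne_zero_of_sub_one_eq_smul {R : Subalgebra W F} (V : ValuationSubring F)
    (hRV : ∀ r ∈ R, r ∈ V) {q : W} (hq : algebraMap W F q ∈ V.nonunits) {y : F}
    (h : ∃ r ∈ R, y - 1 = q • r) : y ≠ 0 := by
  rintro rfl
  obtain ⟨r, hr, e⟩ := h
  have h1 : (-1 : F) ∈ V.nonunits := by
    have e' : (-1 : F) = algebraMap W F q * r := by
      rw [← Algebra.smul_def, ← e]; ring
    rw [e', ValuationSubring.mem_nonunits_iff, map_mul, mul_comm]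
    exact mul_lt_of_le_one_of_lt ((V.valuation_le_one_iff _).2 (hRV r hr))
      ((ValuationSubring.mem_nonunits_iff V).1 hq)
  rw [ValuationSubring.mem_nonunits_iff, Valuation.map_neg, map_one] at h1
  exact lt_irrefl _ h1

/-- **The multiplicative conclusion of NEWTON–ČECH.**  Hypotheses of
`exists_global_root_of_valuations_inf`, a nonempty vertical family, and `R ∩ R' ⊆ W`:
then `f = c * τ ^ m` with `c ∈ W`, `c ≠ 0` in `F`, `τ ≠ 0`. -/
theorem exists_eq_const_mul_pow_of_valuations_inf [IsNoetherianRing W]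
    (q : W) (m : ℕ) (m' : W) (hmm : (m : W) * m' = 1)
    (x : F) (hx : x ≠ 0) (R R' : Subalgebra W F) (hxR : x ∈ R) (hxR' : x⁻¹ ∈ R')
    (hR : ∀ y : F, y ^ m ∈ R → y ∈ R) (hR' : ∀ y : F, y ^ m ∈ R' → y ∈ R')
    (hfin : ∃ t : Finset F, ∀ y ∈ R, y ∈ Submodule.span (Algebra.adjoin W {x}) (t : Set F))
    (hloc : ∀ r ∈ R', ∃ n : ℕ, x ^ n * r ∈ R) (hloc' : ∀ r ∈ R, ∃ n : ℕ, x⁻¹ ^ n * r ∈ R')
    {ι : Type*} [Nonempty ι] (V : ι → ValuationSubring F)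
    (hRV : ∀ i, ∀ r ∈ R, r ∈ V i) (hR'V : ∀ i, ∀ r ∈ R', r ∈ V i)
    (hqV : ∀ i, algebraMap W F q ∈ (V i).nonunits)
    (hsat : ∀ y ∈ R, (∀ i, y ∈ (V i).nonunits) → ∃ N : ℕ, ∃ r ∈ R, y ^ N = q • r)
    (hsat' : ∀ y ∈ R', (∀ i, y ∈ (V i).nonunits) → ∃ N : ℕ, ∃ r ∈ R', y ^ N = q • r)
    (hconst : ∀ y : F, y ∈ R → y ∈ R' → ∃ w : W, algebraMap W F w = y)
    (f : F) (hf1 : ∀ i, f - 1 ∈ (V i).nonunits)
    (hlocal : ∀ Q : Ideal R, Q.IsMaximal → algebraMap W R q ∈ Q →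
      ∃ h : R, h ∉ Q ∧ ∃ s : F, s ^ m * f ∈ R ∧ ∀ i, s - h ∈ (V i).nonunits)
    (hlocal' : ∀ Q : Ideal R', Q.IsMaximal → algebraMap W R' q ∈ Q → (⟨x⁻¹, hxR'⟩ : R') ∈ Q →
      ∃ h : R', h ∉ Q ∧ ∃ s : F, s ^ m * f ∈ R' ∧ ∀ i, s - h ∈ (V i).nonunits) :
    ∃ (c : W) (τ : F), τ ≠ 0 ∧ algebraMap W F c ≠ 0 ∧ f = algebraMap W F c * τ ^ m := by
  have hsat₀ : ∀ y : F, (∀ i, y ∈ (V i).nonunits) → (∃ n : ℕ, x ^ n * y ∈ R) →
      ∃ N n : ℕ, ∃ r ∈ R, x ^ n * y ^ N = q • r := by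
    rintro y hy ⟨n, hn⟩
    have hrad : ∀ i, x ^ n * y ∈ (V i).nonunits := by
      intro i
      rw [ValuationSubring.mem_nonunits_iff, map_mul]
      exact mul_lt_of_le_one_of_lt
        (((V i).valuation_le_one_iff _).2 ((V i).pow_mem (hRV i x hxR) n))
        ((ValuationSubring.mem_nonunits_iff (V i)).1 (hy i))
    obtain ⟨N, r, hr, e⟩ := hsat _ hn hrad
    exact ⟨N, n * N, r, hr, by rw [← e, mul_pow, pow_mul]⟩
  obtain ⟨σ, h1, h2⟩ := exists_global_root_of_valuations_inf q m m' hmm x hx R R' hxR hxR' hR hR'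
    hfin hloc hloc' V hRV hR'V hqV hsat hsat' hsat₀ f hf1 hlocal hlocal'
  obtain ⟨i₀⟩ := ‹Nonempty ι›
  have hne : σ ^ m * f ≠ 0 := ne_zero_of_sub_one_eq_smul (V i₀) (hRV i₀) (hqV i₀) h1
  have hσ : σ ≠ 0 := by
    rintro rfl
    apply hne
    have hm : m ≠ 0 := by
      rintro rfl
      have e1 : (1 : W) = 0 := by rw [← hmm]; simp
      have e2 : (1 : F) = 0 := by rw [← map_one (algebraMap W F), e1, map_zero]
      exact one_ne_zero e2
    rw [zero_pow hm, zero_mul]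
  have hmemR : σ ^ m * f ∈ R := by
    obtain ⟨r, hr, e⟩ := h1
    have : σ ^ m * f = 1 + q • r := by rw [← e]; ring
    rw [this]
    exact R.add_mem R.one_mem (R.smul_mem hr q)
  have hmemR' : σ ^ m * f ∈ R' := by
    obtain ⟨r, hr, e⟩ := h2
    have : σ ^ m * f = 1 + q • r := by rw [← e]; ring
    rw [this]
    exact R'.add_mem R'.one_mem (R'.smul_mem hr q)
  obtain ⟨c, hc⟩ := hconst _ hmemR hmemR'
  refine ⟨c, σ⁻¹, inv_ne_zero hσ, by rw [hc]; exact hne, ?_⟩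
  rw [hc, inv_pow]
  field_simp

/-- Bookkeeping: normal form + killing of the gluing ratios + the root. -/
theorem pow_eq_const_mul_pow (f f₃ f₄ G φ τ a₀ c₁ : F) (E e₂ m : ℕ) (hφ : φ ≠ 0)
    (h1 : f ^ E = a₀ * G ^ m * f₃) (h2 : f₄ = f₃ ^ e₂ * φ ^ m) (h3 : f₄ = c₁ * τ ^ m) :
    f ^ (E * e₂) = (a₀ ^ e₂ * c₁) * (G ^ e₂ * τ * φ⁻¹) ^ m := by
  have h4 : f₃ ^ e₂ = c₁ * τ ^ m * (φ⁻¹) ^ m := by
    have : f₃ ^ e₂ * φ ^ m = c₁ * τ ^ m := by rw [← h2, h3]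
    rw [← this, inv_pow, mul_assoc, mul_inv_cancel₀ (pow_ne_zero m hφ), mul_one]
  rw [pow_mul, h1, mul_pow, mul_pow, h4]
  ring

end Fermat.Agent.CAR.Glob
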