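import Mathlib
import Fermat.Agent.CAR.Glob.Charts
import Fermat.Agent.CAR.Glob.NewtonCech
import Fermat.Agent.CAR.Glob.Conclude

/-!
# CAR-15 + CAR-12: Newton–Čech on the two chart rings

`exists_global_root_of_charts` : `NewtonCech.exists_global_root_of_valuations_inf` with
`R = chart W x` (the integral closure of `W[x]` in `F`) and `R' = chart W x⁻¹`, all the
chart hypotheses (`hR`, `hR'`, `hfin`, `hloc`, `hloc'`, `hsat`, `hsat'`, `hsat₀`) discharged by
`Charts.lean`, and the conclusion pushed through `R ∩ R' = W`: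
`σ ^ m * f = 1 + q w` with `w ∈ W`.
-/

set_option autoImplicit false

namespace Fermat.Agent.CAR.Glob.Charts

open Polynomial IntermediateField

variable {W K0 F : Type*} [CommRing W] [IsDomain W] [Field K0] [Algebra W K0]
  [IsFractionRing W K0] [Field F] [Algebra K0 F] [Algebra W F] [IsScalarTower W K0 F]
  [IsNoetherianRing W] [IsIntegrallyClosed W]

/-- **Newton–Čech on the two charts.**  `W` a Noetherian integrally closed domain with fraction
field `K0`, `F ⊇ K0` a field in which `K0` is algebraically closed, `x ∈ F` transcendental over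
`K0` with `F` finite separable over `K = K0(x)`; `R`, `R'` the integral closures of `W[x]`,
`W[x⁻¹]` in `F`; `V i` valuation subrings of `F` containing `R` and `R'` whose centres are the
only primes of `R` (resp. `R'`) minimal over `q`, with ramification indices `≤ e` over `q`.
If the Kummer generator `f` is `≡ 1` modulo the radical `𝔫 = ⋂ (V i).nonunits` and has local
`m`-th roots modulo `𝔫` at every closed point `Q ∋ q` of `R` and every closed point
`Q ∋ q, x⁻¹` of `R'`, then `f = (1 + q w) σ ^ (-m)` for some `σ ∈ F`, `w ∈ W`. -/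
theorem exists_global_root_of_charts
    (q : W) (hq : q ≠ 0) (m : ℕ) (m' : W) (hmm : (m : W) * m' = 1)
    (x : F) (hx : Transcendental K0 x)
    (K : IntermediateField K0 F) (hxK : x ∈ K) (hK : K ≤ K0⟮x⟯) [FiniteDimensional K F]
    [Algebra.IsSeparable K F]
    (hK0 : ∀ y : F, IsAlgebraic K0 y → y ∈ (algebraMap K0 F).range)
    {ι : Type*} (V : ι → ValuationSubring F)
    (hRV : ∀ i, ∀ r ∈ chart W x, r ∈ V i) (hR'V : ∀ i, ∀ r ∈ chart W x⁻¹, r ∈ V i)
    (hqV : ∀ i, algebraMap W F q ∈ (V i).nonunits)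
    (hmin : ∀ 𝔮 ∈ (Ideal.span {algebraMap W (chart W x) q}).minimalPrimes,
      ∃ i, 𝔮 = Local.centre (V i) (fun a : chart W x => hRV i a a.2))
    (hmin' : ∀ 𝔮 ∈ (Ideal.span {algebraMap W (chart W x⁻¹) q}).minimalPrimes,
      ∃ i, 𝔮 = Local.centre (V i) (fun a : chart W x⁻¹ => hR'V i a a.2))
    (e : ℕ) (he : ∀ i, ∀ z ∈ (V i).nonunits, z ^ e / algebraMap W F q ∈ V i)
    (f : F) (hf1 : ∀ i, f - 1 ∈ (V i).nonunits)
    (hlocal : ∀ Q : Ideal (chart W x), Q.IsMaximal → algebraMap W (chart W x) q ∈ Q →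
      ∃ h : chart W x, h ∉ Q ∧ ∃ s : F, s ^ m * f ∈ chart W x ∧ ∀ i, s - h ∈ (V i).nonunits)
    (hlocal' : ∀ Q : Ideal (chart W x⁻¹), Q.IsMaximal → algebraMap W (chart W x⁻¹) q ∈ Q →
      (⟨x⁻¹, self_mem_chart x⁻¹⟩ : chart W x⁻¹) ∈ Q →
      ∃ h : chart W x⁻¹, h ∉ Q ∧ ∃ s : F, s ^ m * f ∈ chart W x⁻¹ ∧
        ∀ i, s - h ∈ (V i).nonunits) :
    ∃ σ : F, ∃ w : W, σ ^ m * f = algebraMap W F (1 + q * w) := by
  have hx0 : x ≠ 0 := ne_zero_of_transcendental hx
  have hx' : Transcendental K0 x⁻¹ := transcendental_inv hx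
  have hm : 0 < m := by
    rcases Nat.eq_zero_or_pos m with rfl | h
    · exfalso
      rw [Nat.cast_zero, zero_mul] at hmm
      exact zero_ne_one hmm
    · exact h
  have hqF : algebraMap W F q ≠ 0 := fun h0 =>
    hq (algebraMap_base_injective W K0 F (by rw [h0, map_zero]))
  obtain ⟨σ, ⟨r, hr, h1⟩, ⟨r', hr', h2⟩⟩ :=
    exists_global_root_of_valuations_inf q m m' hmm x hx0 (chart W x) (chart W x⁻¹)
      (self_mem_chart x) (self_mem_chart x⁻¹)
      (fun _ h => mem_chart_of_pow_mem hm h) (fun _ h => mem_chart_of_pow_mem hm h)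
      (exists_finset_span_chart hx K hxK hK)
      (fun _ h => exists_pow_mul_mem_chart hx0 h)
      (fun _ h => exists_inv_pow_mul_mem_chart hx0 h)
      V hRV hR'V hqV
      (exists_pow_eq_smul_of_mem_nonunits V hx K hxK hK hRV hq hmin e he)
      (exists_pow_eq_smul_of_mem_nonunits V hx' K (inv_mem hxK) (le_adjoin_inv hK) hR'V hq
        hmin' e he)
      (exists_pow_mul_pow_eq_smul_of_mem_nonunits V hx K hxK hK hRV hq hmin e he)
      f hf1 hlocal hlocal'
  have hrr' : r = r' := by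
    have h3 : q • r = q • r' := by rw [← h1, ← h2]
    rw [Algebra.smul_def, Algebra.smul_def] at h3
    exact mul_left_cancel₀ hqF h3
  subst hrr'
  obtain ⟨w, rfl⟩ := mem_range_of_mem_chart_of_mem_chart_inv hx hK0 hr hr'
  refine ⟨σ, w, ?_⟩
  rw [map_add, map_one, map_mul, ← Algebra.smul_def, ← h1]
  ring

/-- **The multiplicative conclusion on the two charts** (`Conclude.lean` with every chart
hypothesis discharged): the normalised Kummer generator is a constant times an `m`-th power,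
`f = c * τ ^ m` with `c ∈ W`, `c ≠ 0`, `τ ≠ 0`. -/
theorem exists_eq_const_mul_pow_of_charts
    (q : W) (hq : q ≠ 0) (m : ℕ) (m' : W) (hmm : (m : W) * m' = 1)
    (x : F) (hx : Transcendental K0 x)
    (K : IntermediateField K0 F) (hxK : x ∈ K) (hK : K ≤ K0⟮x⟯) [FiniteDimensional K F]
    [Algebra.IsSeparable K F]
    (hK0 : ∀ y : F, IsAlgebraic K0 y → y ∈ (algebraMap K0 F).range)
    {ι : Type*} [Nonempty ι] (V : ι → ValuationSubring F)
    (hRV : ∀ i, ∀ r ∈ chart W x, r ∈ V i) (hR'V : ∀ i, ∀ r ∈ chart W x⁻¹, r ∈ V i)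
    (hqV : ∀ i, algebraMap W F q ∈ (V i).nonunits)
    (hmin : ∀ 𝔮 ∈ (Ideal.span {algebraMap W (chart W x) q}).minimalPrimes,
      ∃ i, 𝔮 = Local.centre (V i) (fun a : chart W x => hRV i a a.2))
    (hmin' : ∀ 𝔮 ∈ (Ideal.span {algebraMap W (chart W x⁻¹) q}).minimalPrimes,
      ∃ i, 𝔮 = Local.centre (V i) (fun a : chart W x⁻¹ => hR'V i a a.2))
    (e : ℕ) (he : ∀ i, ∀ z ∈ (V i).nonunits, z ^ e / algebraMap W F q ∈ V i)
    (f : F) (hf1 : ∀ i, f - 1 ∈ (V i).nonunits)
    (hlocal : ∀ Q : Ideal (chart W x), Q.IsMaximal → algebraMap W (chart W x) q ∈ Q →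
      ∃ h : chart W x, h ∉ Q ∧ ∃ s : F, s ^ m * f ∈ chart W x ∧ ∀ i, s - h ∈ (V i).nonunits)
    (hlocal' : ∀ Q : Ideal (chart W x⁻¹), Q.IsMaximal → algebraMap W (chart W x⁻¹) q ∈ Q →
      (⟨x⁻¹, self_mem_chart x⁻¹⟩ : chart W x⁻¹) ∈ Q →
      ∃ h : chart W x⁻¹, h ∉ Q ∧ ∃ s : F, s ^ m * f ∈ chart W x⁻¹ ∧
        ∀ i, s - h ∈ (V i).nonunits) :
    ∃ (c : W) (τ : F), τ ≠ 0 ∧ algebraMap W F c ≠ 0 ∧ f = algebraMap W F c * τ ^ m := by
  have hx0 : x ≠ 0 := ne_zero_of_transcendental hx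
  have hx' : Transcendental K0 x⁻¹ := transcendental_inv hx
  have hm : 0 < m := by
    rcases Nat.eq_zero_or_pos m with rfl | h
    · exfalso
      rw [Nat.cast_zero, zero_mul] at hmm
      exact zero_ne_one hmm
    · exact h
  exact exists_eq_const_mul_pow_of_valuations_inf q m m' hmm x hx0 (chart W x) (chart W x⁻¹)
    (self_mem_chart x) (self_mem_chart x⁻¹)
    (fun _ h => mem_chart_of_pow_mem hm h) (fun _ h => mem_chart_of_pow_mem hm h)
    (exists_finset_span_chart hx K hxK hK)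
    (fun _ h => exists_pow_mul_mem_chart hx0 h)
    (fun _ h => exists_inv_pow_mul_mem_chart hx0 h)
    V hRV hR'V hqV
    (exists_pow_eq_smul_of_mem_nonunits V hx K hxK hK hRV hq hmin e he)
    (exists_pow_eq_smul_of_mem_nonunits V hx' K (inv_mem hxK) (le_adjoin_inv hK) hR'V hq
      hmin' e he)
    (fun _ h h' => (RingHom.mem_range.mp (mem_range_of_mem_chart_of_mem_chart_inv hx hK0 h h')))
    f hf1 hlocal hlocal'

end Fermat.Agent.CAR.Glob.Charts
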