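import Mathlib
import Fermat.Agent.CAR.Glob.ChartsNC
import Fermat.Agent.CAR.Glob.ChartFieldInst

/-!
# CAR (Charts): the chart theorem on `K · F_N`

`Charts.exists_eq_const_mul_pow_of_charts` for `F = laurentBaseChange K (modularFunctionFieldFull N)`
(`K ⊇ ℚ` the fraction field of a Noetherian integrally closed domain `W`) and a chart function `x`
of nonzero `q`-order, with all the function-field hypotheses discharged by `ChartFieldInst.lean`.
-/

set_option autoImplicit false

namespace Fermat.Agent.CAR.Glob.Charts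

open ModularCurve IntermediateField

variable (K : Type) [Field K] [Algebra ℚ K] (N : ℕ) [NeZero N]
  {W : Type*} [CommRing W] [IsDomain W] [Algebra W K] [IsFractionRing W K]
  [Algebra W ↥(laurentBaseChange K (modularFunctionFieldFull N))]
  [IsScalarTower W K ↥(laurentBaseChange K (modularFunctionFieldFull N))]
  [IsNoetherianRing W] [IsIntegrallyClosed W]

/-- **The chart theorem on `K · F_N`.**  `x` any element of nonzero `q`-order; `R`, `R'` the
integral closures of `W[x]`, `W[x⁻¹]`; `V i` the vertical valuation rings.  The normalised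
Kummer generator `f` (all reductions `1`, local `m`-th roots modulo the radical at the closed
points of `R` and at the points `x = ∞` of `R'`) is a constant times an `m`-th power. -/
theorem exists_eq_const_mul_pow_of_charts_FNK
    (q : W) (hq : q ≠ 0) (m : ℕ) (m' : W) (hmm : (m : W) * m' = 1)
    (x : ↥(laurentBaseChange K (modularFunctionFieldFull N)))
    (hx : (x : LaurentSeries K).order ≠ 0)
    {ι : Type*} [Nonempty ι]
    (V : ι → ValuationSubring ↥(laurentBaseChange K (modularFunctionFieldFull N)))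
    (hRV : ∀ i, ∀ r ∈ chart W x, r ∈ V i) (hR'V : ∀ i, ∀ r ∈ chart W x⁻¹, r ∈ V i)
    (hqV : ∀ i, algebraMap W ↥(laurentBaseChange K (modularFunctionFieldFull N)) q ∈
      (V i).nonunits)
    (hmin : ∀ 𝔮 ∈ (Ideal.span {algebraMap W (chart W x) q}).minimalPrimes,
      ∃ i, 𝔮 = Local.centre (V i) (fun a : chart W x => hRV i a a.2))
    (hmin' : ∀ 𝔮 ∈ (Ideal.span {algebraMap W (chart W x⁻¹) q}).minimalPrimes,
      ∃ i, 𝔮 = Local.centre (V i) (fun a : chart W x⁻¹ => hR'V i a a.2))
    (e : ℕ) (he : ∀ i, ∀ z ∈ (V i).nonunits,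
      z ^ e / algebraMap W ↥(laurentBaseChange K (modularFunctionFieldFull N)) q ∈ V i)
    (f : ↥(laurentBaseChange K (modularFunctionFieldFull N)))
    (hf1 : ∀ i, f - 1 ∈ (V i).nonunits)
    (hlocal : ∀ Q : Ideal (chart W x), Q.IsMaximal → algebraMap W (chart W x) q ∈ Q →
      ∃ h : chart W x, h ∉ Q ∧
        ∃ s : ↥(laurentBaseChange K (modularFunctionFieldFull N)),
          s ^ m * f ∈ chart W x ∧ ∀ i, s - h ∈ (V i).nonunits)
    (hlocal' : ∀ Q : Ideal (chart W x⁻¹), Q.IsMaximal → algebraMap W (chart W x⁻¹) q ∈ Q →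
      (⟨x⁻¹, self_mem_chart x⁻¹⟩ : chart W x⁻¹) ∈ Q →
      ∃ h : chart W x⁻¹, h ∉ Q ∧
        ∃ s : ↥(laurentBaseChange K (modularFunctionFieldFull N)),
          s ^ m * f ∈ chart W x⁻¹ ∧ ∀ i, s - h ∈ (V i).nonunits) :
    ∃ (c : W) (τ : ↥(laurentBaseChange K (modularFunctionFieldFull N))), τ ≠ 0 ∧
      algebraMap W ↥(laurentBaseChange K (modularFunctionFieldFull N)) c ≠ 0 ∧
      f = algebraMap W ↥(laurentBaseChange K (modularFunctionFieldFull N)) c * τ ^ m := by
  have := ChartField.finiteDimensional_FNK K N x hx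
  have := ChartField.isSeparable_FNK K N x hx
  exact exists_eq_const_mul_pow_of_charts q hq m m' hmm x
    (ChartField.transcendental_FNK K N x hx) K⟮x⟯ (mem_adjoin_simple_self K x) le_rfl
    (ChartField.mem_range_of_isAlgebraic_FNK K N) V hRV hR'V hqV hmin hmin' e he f hf1
    hlocal hlocal'

end Fermat.Agent.CAR.Glob.Charts
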