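import Mathlib
import Fermat.Agent.CAR.Glob.ChartX
import Fermat.Agent.CAR.Formal.NormConj
import Fermat.Agent.CAR.V3.Inf
import Fermat.Agent.S28.Integrality
import Fermat.Agent.Lib.Red.Basis

/-!
# CAR (Glob): the chart function `x = J_0 J_2` at level `M' q²` — instance part

`L ⊇ ℚ` any field, `F = L · F_N` (`N` any level), `jd L N d = J(q^d) ∈ F` for `d ∣ N`.

* `isIntegral_jd_jd` : all the `J(q^d)`, `d ∣ N`, are integral over each other's `ℤ`-algebra
  (inside `F`);
* level `N = M' q²`: `J0 = J(q)`, `J1 = J(q^q)`, `J2 = J(q^{q²})`, `XM = J(q^{M'})` (the RED base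
  function), `chartX = J0 * J2`; `chartX` and every `J(q^d)` are integral over each other's
  `ℤ`-algebra (`isIntegral_chartX`, `isIntegral_jd_chartX`), the two chart rings
  (`isIntegral_chartX_iff`, `isIntegral_chartX_inv_of_J0`, `..._of_J2`, pull-back forms);
* `gauss_chartX_iff` : for a valuation subring `V` of `F` above `A`: `chartX ∈ V` with
  transcendental residue iff `J(q^d) ∈ V` with transcendental residue;
* `exists_eq_of_gauss_chartX`, `family_chartX` : exhaustion and the counted family above the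
  Gauss ring of `L(chartX)` from the exhaustion at the Gauss point of `J(q^d)`.
-/

set_option autoImplicit false
set_option linter.style.haveILetI false

namespace Fermat.Agent.CAR.Glob.ChartXInst

open Polynomial HahnSeries ModularCurve Fermat.Agent.S28 Fermat.Agent.Lib.Red
open Fermat.Agent.ESJ.Cong.LevelGen
open Fermat.Agent.CAR.Formal (IsUnif)
open Fermat.Agent.CAR.V3 Fermat.Agent.CAR.V3.CountAbs Fermat.Agent.CAR.Glob.ChartX

/-! ### Descent of integrality along a field embedding -/

section Descent

variable {R F E : Type*} [CommRing R] [Field F] [Field E] [Algebra R F] [Algebra F E]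
  [Algebra R E] [IsScalarTower R F E]

/-- Integrality over `R[S]` can be checked in a field extension. -/
theorem isIntegral_adjoin_of_algebraMap {S : Set F} {w : F}
    (h : IsIntegral (Algebra.adjoin R (algebraMap F E '' S)) (algebraMap F E w)) :
    IsIntegral (Algebra.adjoin R S) w := by
  rw [isIntegral_adjoin_iff] at h ⊢
  intro V hR hS
  obtain ⟨VE, hVE⟩ := Fermat.Agent.CAR.Formal.exists_valuationSubring_comap_eq (L := E) V
  have hmem : ∀ y : F, algebraMap F E y ∈ VE ↔ y ∈ V := fun y => by
    rw [← hVE, ValuationSubring.mem_comap]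
  rw [← hmem]
  refine h VE (fun r => ?_) ?_
  · rw [IsScalarTower.algebraMap_apply R F E, hmem]
    exact hR r
  · rintro _ ⟨s, hs, rfl⟩
    exact (hmem s).mpr (hS s hs)

omit [Algebra R E] [IsScalarTower R F E] in
/-- Integrality over the subring generated by a set, checked in a field extension. -/
theorem isIntegral_adjoin_of_closure_algebraMap {S : Set F} {w : F}
    (h : IsIntegral (Subring.closure (algebraMap F E '' S)) (algebraMap F E w)) :
    IsIntegral (Algebra.adjoin R S) w := by
  rw [isIntegral_closure_iff] at h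
  rw [isIntegral_adjoin_iff]
  intro V _ hS
  obtain ⟨VE, hVE⟩ := Fermat.Agent.CAR.Formal.exists_valuationSubring_comap_eq (L := E) V
  have hmem : ∀ y : F, algebraMap F E y ∈ VE ↔ y ∈ V := fun y => by
    rw [← hVE, ValuationSubring.mem_comap]
  rw [← hmem]
  refine h VE ?_
  rintro _ ⟨s, hs, rfl⟩
  exact (hmem s).mpr (hS s hs)

end Descent

noncomputable section

/-! ### The functions `J(q^d)` of level `N` -/

section Level

variable (L : Type*) [Field L] [Algebra ℚ L] (N : ℕ) [NeZero N]

/-- `J(q^d) ∈ L · F_N` for `d ∣ N`. -/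
def jd (d : ℕ) (hd : d ∣ N) : ↥(laurentBaseChange L (modularFunctionFieldFull N)) :=
  ⟨TD.Jd L d, by
    rw [laurentBaseChange_eq_FF]
    have := TD.Jd_mem_FF L (N := N) (m := 1) hd
    rwa [one_mul] at this⟩

theorem coe_jd (d : ℕ) (hd : d ∣ N) :
    ((jd L N d hd : ↥(laurentBaseChange L (modularFunctionFieldFull N))) : LaurentSeries L) =
      TD.Jd L d := rfl

theorem jd_one_eq_jLevel : jd L N 1 (one_dvd N) = jLevel L N := rfl

theorem jd_self_eq_xL : jd L N N dvd_rfl = xL L N := rfl

/-- All the `J(q^d)`, `d ∣ N`, are integral over each other's `ℤ`-algebra inside `L · F_N`. -/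
theorem isIntegral_jd_jd (d e : ℕ) (hd : d ∣ N) (he : e ∣ N) :
    IsIntegral (Algebra.adjoin ℤ {jd L N d hd}) (jd L N e he) := by
  have hd0 : d ≠ 0 := fun h => NeZero.ne N (by rw [h] at hd; exact Nat.eq_zero_of_zero_dvd hd)
  have he0 : e ≠ 0 := fun h => NeZero.ne N (by rw [h] at he; exact Nat.eq_zero_of_zero_dvd he)
  have h1 := (Integrality.isIntegral_Jd_of_commRing L d hd0
    (fun r hr _ => modEq_prime r hr) 1 one_ne_zero).1
  have h2 := (Integrality.isIntegral_Jd_of_commRing L e he0
    (fun r hr _ => modEq_prime r hr) 1 one_ne_zero).2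
  rw [one_mul] at h1 h2
  apply isIntegral_adjoin_of_closure_algebraMap (E := LaurentSeries L)
  rw [Set.image_singleton]
  change IsIntegral (Subring.closure {TD.Jd L d}) (TD.Jd L e)
  rw [isIntegral_closure_iff] at h1 h2 ⊢
  intro V hV
  exact h2 V (fun s hs => by
    rw [Set.mem_singleton_iff.mp hs]
    exact h1 V hV)

end Level

/-! ### Level `M' q²` and the chart function -/

section Chart

variable (L : Type*) [Field L] [Algebra ℚ L] (M' q : ℕ) [NeZero M'] [NeZero q]

/-- `J_0 = J(q)`. -/
def J0 : ↥(laurentBaseChange L (modularFunctionFieldFull (M' * q * q))) :=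
  jd L (M' * q * q) 1 (one_dvd _)

/-- `J_1 = J(q^q)`. -/
def J1 : ↥(laurentBaseChange L (modularFunctionFieldFull (M' * q * q))) :=
  jd L (M' * q * q) q ⟨M' * q, by ring⟩

/-- `J_2 = J(q^{q²})`. -/
def J2 : ↥(laurentBaseChange L (modularFunctionFieldFull (M' * q * q))) :=
  jd L (M' * q * q) (q * q) ⟨M', by ring⟩

/-- `X = J(q^{M'})`, the pull-back of the RED base function of level `M'`. -/
def XM : ↥(laurentBaseChange L (modularFunctionFieldFull (M' * q * q))) :=
  jd L (M' * q * q) M' ⟨q * q, by ring⟩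

/-- **The chart function `x = J_0 J_2`.** -/
def chartX : ↥(laurentBaseChange L (modularFunctionFieldFull (M' * q * q))) :=
  J0 L M' q * J2 L M' q

theorem J0_eq : J0 L M' q = piStar0 L M' q (jLevel L M') :=
  Subtype.ext (coe_piStar0_jLevel L M' q).symm

theorem J1_eq : J1 L M' q = piStar1 L M' q (jLevel L M') :=
  Subtype.ext (coe_piStar1_jLevel L M' q).symm

theorem J2_eq : J2 L M' q = piStar2 L M' q (jLevel L M') :=
  Subtype.ext (coe_piStar2_jLevel L M' q).symm

theorem XM_eq : XM L M' q = piStar0 L M' q (xL L M') := by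
  apply Subtype.ext
  rw [coe_piStar0]
  rfl

theorem chartX_eq :
    chartX L M' q = piStar0 L M' q (jLevel L M') * piStar2 L M' q (jLevel L M') := by
  rw [chartX, J0_eq, J2_eq]

/-- `x = J_0 J_2` is integral over `ℤ[J(q^d)]` for every `d ∣ M' q²`. -/
theorem isIntegral_chartX (d : ℕ) (hd : d ∣ M' * q * q) :
    IsIntegral (Algebra.adjoin ℤ {jd L (M' * q * q) d hd}) (chartX L M' q) := by
  have h0 := isIntegral_jd_jd L (M' * q * q) d 1 hd (one_dvd _)
  have h2 := isIntegral_jd_jd L (M' * q * q) d (q * q) hd ⟨M', by ring⟩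
  rw [isIntegral_adjoin_singleton_iff] at h0 h2 ⊢
  exact fun V hR hV => V.mul_mem _ _ (h0 V hR hV) (h2 V hR hV)

/-- `J_0` is integral over `ℤ[x]`. -/
theorem isIntegral_J0_chartX :
    IsIntegral (Algebra.adjoin ℤ {chartX L M' q}) (J0 L M' q) :=
  isIntegral_adjoin_mul_left (isIntegral_jd_jd L (M' * q * q) (q * q) 1 _ _)

/-- `J_2` is integral over `ℤ[x]`. -/
theorem isIntegral_J2_chartX :
    IsIntegral (Algebra.adjoin ℤ {chartX L M' q}) (J2 L M' q) :=
  isIntegral_adjoin_mul_right (isIntegral_jd_jd L (M' * q * q) 1 (q * q) _ _)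

/-- Every `J(q^d)`, `d ∣ M' q²`, is integral over `ℤ[x]`. -/
theorem isIntegral_jd_chartX (d : ℕ) (hd : d ∣ M' * q * q) :
    IsIntegral (Algebra.adjoin ℤ {chartX L M' q}) (jd L (M' * q * q) d hd) :=
  isIntegral_adjoin_trans (isIntegral_J0_chartX L M' q)
    (isIntegral_jd_jd L (M' * q * q) 1 d _ hd)

variable {L M' q}

/-- **Same finite chart**: `W[x]` and `W[J(q^d)]` have the same integral closure in `F`. -/
theorem isIntegral_chartX_iff {R : Type*} [CommRing R]
    [Algebra R ↥(laurentBaseChange L (modularFunctionFieldFull (M' * q * q)))]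
    (d : ℕ) (hd : d ∣ M' * q * q)
    (w : ↥(laurentBaseChange L (modularFunctionFieldFull (M' * q * q)))) :
    IsIntegral (Algebra.adjoin R {chartX L M' q}) w ↔
      IsIntegral (Algebra.adjoin R {jd L (M' * q * q) d hd}) w := by
  have h1 := isIntegral_chartX L M' q d hd
  have h2 := isIntegral_jd_chartX L M' q d hd
  rw [isIntegral_adjoin_singleton_iff] at h1 h2
  have hint : ∀ V : ValuationSubring
      ↥(laurentBaseChange L (modularFunctionFieldFull (M' * q * q))),
      (∀ n : ℤ, algebraMap ℤ _ n ∈ V) := fun V n => by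
    rw [eq_intCast]
    exact intCast_mem V n
  constructor
  · intro hw
    rw [isIntegral_adjoin_singleton_iff] at hw ⊢
    exact fun V hR hV => hw V hR (h1 V (hint V) hV)
  · intro hw
    rw [isIntegral_adjoin_singleton_iff] at hw ⊢
    exact fun V hR hV => hw V hR (h2 V (hint V) hV)

/-- `J_0 ≠ 0`. -/
theorem J0_ne_zero : J0 L M' q ≠ 0 := by
  intro h
  have h1 : TD.Jd L 1 = 0 := congrArg Subtype.val h
  have h2 := Jd_eval₂_eq_zero L one_ne_zero (Polynomial.X : Polynomial L)
    (by rw [eval₂_X]; exact h1)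
  exact Polynomial.X_ne_zero h2

/-- `J_2 ≠ 0`. -/
theorem J2_ne_zero : J2 L M' q ≠ 0 := by
  intro h
  have h1 : TD.Jd L (q * q) = 0 := congrArg Subtype.val h
  have h2 := Jd_eval₂_eq_zero L (Nat.mul_ne_zero (NeZero.ne q) (NeZero.ne q))
    (Polynomial.X : Polynomial L) (by rw [eval₂_X]; exact h1)
  exact Polynomial.X_ne_zero h2

/-- **(X-4)** The chart at infinity of `x` contains the chart at infinity of `J_0`. -/
theorem isIntegral_chartX_inv_of_J0 {R : Type*} [CommRing R]
    [Algebra R ↥(laurentBaseChange L (modularFunctionFieldFull (M' * q * q)))]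
    {w : ↥(laurentBaseChange L (modularFunctionFieldFull (M' * q * q)))}
    (hw : IsIntegral (Algebra.adjoin R {(J0 L M' q)⁻¹}) w) :
    IsIntegral (Algebra.adjoin R {(chartX L M' q)⁻¹}) w := by
  have h1 := isIntegral_adjoin_inv_mul_left (R := ℤ) (J2_ne_zero (L := L) (M' := M') (q := q))
    (isIntegral_jd_jd L (M' * q * q) 1 (q * q) (one_dvd _) ⟨M', by ring⟩)
  rw [isIntegral_adjoin_singleton_iff] at h1 hw ⊢
  exact fun V hR hV => hw V hR (h1 V (fun n => by rw [eq_intCast]; exact intCast_mem V n) hV)

/-- **(X-4)** The chart at infinity of `x` contains the chart at infinity of `J_2`. -/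
theorem isIntegral_chartX_inv_of_J2 {R : Type*} [CommRing R]
    [Algebra R ↥(laurentBaseChange L (modularFunctionFieldFull (M' * q * q)))]
    {w : ↥(laurentBaseChange L (modularFunctionFieldFull (M' * q * q)))}
    (hw : IsIntegral (Algebra.adjoin R {(J2 L M' q)⁻¹}) w) :
    IsIntegral (Algebra.adjoin R {(chartX L M' q)⁻¹}) w := by
  have h1 := isIntegral_adjoin_inv_mul_right (R := ℤ) (J0_ne_zero (L := L) (M' := M') (q := q))
    (isIntegral_jd_jd L (M' * q * q) (q * q) 1 ⟨M', by ring⟩ (one_dvd _))
  rw [isIntegral_adjoin_singleton_iff] at h1 hw ⊢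
  exact fun V hR hV => hw V hR (h1 V (fun n => by rw [eq_intCast]; exact intCast_mem V n) hV)

/-! ### Gauss points -/

variable {A : ValuationSubring L}

/-- **The Gauss condition at `x = J_0 J_2` is the Gauss condition at any `J(q^d)`.** -/
theorem gauss_chartX_iff {V : ValuationSubring
    ↥(laurentBaseChange L (modularFunctionFieldFull (M' * q * q)))} (hV : IsAbove A V)
    (d : ℕ) (hd : d ∣ M' * q * q) :
    (chartX L M' q ∈ V ∧ ResTransc A V (chartX L M' q)) ↔
      (jd L (M' * q * q) d hd ∈ V ∧ ResTransc A V (jd L (M' * q * q) d hd)) :=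
  gauss_iff_of_isIntegral (R := ℤ) hV (fun r => by rw [eq_intCast]; exact intCast_mem A r)
    (isIntegral_jd_chartX L M' q d hd) (isIntegral_chartX L M' q d hd)

/-- **(X-3), instance.**  If the `V i` exhaust the valuation subrings above `A` at which
`J(q^d)` has transcendental residue, they exhaust those at which `x = J_0 J_2` has. -/
theorem exists_eq_of_gauss_chartX {ι : Type*} {V : ι → ValuationSubring
    ↥(laurentBaseChange L (modularFunctionFieldFull (M' * q * q)))}
    (d : ℕ) (hd : d ∣ M' * q * q)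
    (hex : ∀ V' : ValuationSubring ↥(laurentBaseChange L (modularFunctionFieldFull (M' * q * q))),
      IsAbove A V' → jd L (M' * q * q) d hd ∈ V' → ResTransc A V' (jd L (M' * q * q) d hd) →
        ∃ i, V' = V i)
    (V' : ValuationSubring ↥(laurentBaseChange L (modularFunctionFieldFull (M' * q * q))))
    (hV' : IsAbove A V') (hx : chartX L M' q ∈ V') (h : ResTransc A V' (chartX L M' q)) :
    ∃ i, V' = V i := by
  obtain ⟨h1, h2⟩ := (gauss_chartX_iff hV' d hd).mp ⟨hx, h⟩
  exact hex V' hV' h1 h2

set_option synthInstance.maxHeartbeats 400000 in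
set_option maxHeartbeats 1000000 in
/-- **The counted family above the Gauss ring of `L(x)`.** -/
theorem family_chartX {ϖ : L} (hu : IsUnif A ϖ) {ι : Type*} [Fintype ι]
    {V : ι → ValuationSubring ↥(laurentBaseChange L (modularFunctionFieldFull (M' * q * q)))}
    (hinj : Function.Injective V) (d : ℕ) (hd : d ∣ M' * q * q)
    (habove : ∀ i, IsAbove A (V i)) (ht : ∀ i, jd L (M' * q * q) d hd ∈ V i)
    (htr : ∀ i, ResTransc A (V i) (jd L (M' * q * q) d hd))
    (hex : ∀ V' : ValuationSubring ↥(laurentBaseChange L (modularFunctionFieldFull (M' * q * q))),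
      IsAbove A V' → jd L (M' * q * q) d hd ∈ V' → ResTransc A V' (jd L (M' * q * q) d hd) →
        ∃ i, V' = V i)
    (i₀ : ι) [FiniteDimensional (IntermediateField.adjoin L {chartX L M' q})
      ↥(laurentBaseChange L (modularFunctionFieldFull (M' * q * q)))]
    [Algebra.IsSeparable (IntermediateField.adjoin L {chartX L M' q})
      ↥(laurentBaseChange L (modularFunctionFieldFull (M' * q * q)))] :
    ∃ e f : ι → ℕ, Family ((V i₀).comap (algebraMap (IntermediateField.adjoin L {chartX L M' q})
        ↥(laurentBaseChange L (modularFunctionFieldFull (M' * q * q)))))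
      (algebraMap L (IntermediateField.adjoin L {chartX L M' q}) ϖ) V e f :=
  family_adjoin_of_gauss (R := ℤ) hu hinj
    (fun r => by rw [eq_intCast]; exact intCast_mem A r)
    (isIntegral_jd_chartX L M' q d hd) (isIntegral_chartX L M' q d hd) habove ht htr hex i₀

end Chart

end

end Fermat.Agent.CAR.Glob.ChartXInst
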