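import Mathlib
import Fermat.Agent.CAR.Glob.ChartXInst
import Fermat.Agent.CAR.Glob.CuspQuotInst

/-!
# CAR (Glob): Gauss transfers for the chart function `x = π_0^* X · π_2^* X` (trunk convention)

`X = xL L M' = J(q^{M'})` is the trunk base function of level `M'`; the chart function of the CAR
instance is `xB = CuspQuot.J0 * CuspQuot.J2 = J(q^{M'}) · J(q^{M' q²})` of level `M' q²`.

* general: `ResTransc.inv`, `gauss_inv_iff` (the Gauss condition at `t` and at `t⁻¹` agree);
* any level `N`, `d, e, c ∣ N`: the product `J(q^d) J(q^e)` and `J(q^c)` are integral over each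
  other's `ℤ`-algebra; Gauss condition at the product, at its inverse, and at `J(q^c)` agree;
* the instance `xB`, in the three shapes used by the consumers (`jd`, `π_0^* jLevel`,
  `π_0^* xL`), for `xB` and for `xB⁻¹`, with the exhaustion statements.
-/

set_option autoImplicit false
set_option linter.style.haveILetI false

namespace Fermat.Agent.CAR.Glob.ChartXB

open Polynomial HahnSeries ModularCurve Fermat.Agent.S28 Fermat.Agent.Lib.Red
open Fermat.Agent.ESJ.Cong.LevelGen
open Fermat.Agent.CAR.Formal (IsUnif)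
open Fermat.Agent.CAR.V3 Fermat.Agent.CAR.V3.CountAbs Fermat.Agent.CAR.Glob.ChartX
open Fermat.Agent.CAR.Glob.ChartXInst

/-! ### The Gauss condition at `t⁻¹` -/

section Inv

variable {K F : Type*} [Field K] [Field F] [Algebra K F]
variable {O : ValuationSubring K} {V : ValuationSubring F} {t : F}

/-- An element with transcendental residue is not in the maximal ideal. -/
theorem ResTransc.notMem_nonunits (h : ResTransc O V t) : t ∉ V.nonunits := by
  intro hnu
  have h1 := h (X : K[X]) (fun n => by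
    rw [coeff_X]
    split_ifs
    · exact O.one_mem
    · exact O.zero_mem) (by rwa [aeval_X]) 1
  rw [coeff_X_one, ValuationSubring.mem_nonunits_iff, map_one] at h1
  exact lt_irrefl _ h1

theorem ResTransc.ne_zero (h : ResTransc O V t) : t ≠ 0 := fun h0 =>
  ResTransc.notMem_nonunits h ((ValuationSubring.mem_nonunits_iff_or _).mpr (Or.inl h0))

/-- An element with transcendental residue is a unit of `V` (given `t ∈ V` is not needed). -/
theorem ResTransc.inv_mem (h : ResTransc O V t) : t⁻¹ ∈ V := by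
  by_contra hinv
  exact ResTransc.notMem_nonunits h ((ValuationSubring.mem_nonunits_iff_or _).mpr (Or.inr hinv))

theorem mul_mem_nonunits_of_mem {x y : F} (hx : x ∈ V.nonunits) (hy : y ∈ V) :
    x * y ∈ V.nonunits := by
  rw [ValuationSubring.mem_nonunits_iff, map_mul]
  exact mul_lt_one_of_nonneg_of_lt_one_left zero_le ((ValuationSubring.mem_nonunits_iff V).mp hx)
    ((V.valuation_le_one_iff _).mpr hy)

/-- **The residue of `t⁻¹` is transcendental if that of `t ∈ V` is.** -/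
theorem ResTransc.inv (h : ResTransc O V t) (ht : t ∈ V) : ResTransc O V t⁻¹ := by
  intro p hp hnu n
  have ht0 := ResTransc.ne_zero h
  have key : aeval t p.reverse = aeval t⁻¹ p * t ^ p.natDegree := by
    haveI : Invertible t⁻¹ := invertibleOfNonzero (inv_ne_zero ht0)
    have h1 := eval₂_reverse_mul_pow (algebraMap K F) t⁻¹ p
    rw [invOf_eq_inv, inv_inv] at h1
    rw [aeval_def, aeval_def, ← h1, mul_assoc, ← mul_pow, inv_mul_cancel₀ ht0, one_pow, mul_one]
  have hnu' : aeval t p.reverse ∈ V.nonunits := by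
    rw [key]
    exact mul_mem_nonunits_of_mem hnu (pow_mem ht _)
  have h1 := h p.reverse (fun m => by rw [coeff_reverse]; exact hp _) hnu'
  by_cases hn : n ≤ p.natDegree
  · have h2 := h1 (revAt p.natDegree n)
    rw [coeff_reverse, revAt_invol] at h2
    exact h2
  · rw [coeff_eq_zero_of_natDegree_lt (not_le.mp hn)]
    exact (ValuationSubring.mem_nonunits_iff_or _).mpr (Or.inl rfl)

/-- **The Gauss conditions at `t` and at `t⁻¹` agree.** -/
theorem gauss_inv_iff :
    (t⁻¹ ∈ V ∧ ResTransc O V t⁻¹) ↔ (t ∈ V ∧ ResTransc O V t) := by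
  constructor
  · rintro ⟨h1, h2⟩
    have h3 := ResTransc.inv_mem h2
    rw [inv_inv] at h3
    have h4 := ResTransc.inv h2 h1
    rw [inv_inv] at h4
    exact ⟨h3, h4⟩
  · rintro ⟨h1, h2⟩
    exact ⟨ResTransc.inv_mem h2, ResTransc.inv h2 h1⟩

end Inv

noncomputable section

/-! ### Products of two `J(q^d)` at a general level -/

section Level

variable (L : Type*) [Field L] [Algebra ℚ L] (N : ℕ) [NeZero N]

theorem jd_ne_zero (d : ℕ) (hd : d ∣ N) : jd L N d hd ≠ 0 := by
  have hd0 : d ≠ 0 := fun h => NeZero.ne N (by rw [h] at hd; exact Nat.eq_zero_of_zero_dvd hd)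
  intro h
  have h1 : TD.Jd L d = 0 := congrArg Subtype.val h
  have h2 := Jd_eval₂_eq_zero L hd0 (Polynomial.X : Polynomial L) (by rw [eval₂_X]; exact h1)
  exact Polynomial.X_ne_zero h2

/-- `J(q^d) J(q^e)` is integral over `ℤ[J(q^c)]`. -/
theorem isIntegral_jd_mul (d e c : ℕ) (hd : d ∣ N) (he : e ∣ N) (hc : c ∣ N) :
    IsIntegral (Algebra.adjoin ℤ {jd L N c hc}) (jd L N d hd * jd L N e he) := by
  have h0 := isIntegral_jd_jd L N c d hc hd
  have h2 := isIntegral_jd_jd L N c e hc he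
  rw [isIntegral_adjoin_singleton_iff] at h0 h2 ⊢
  exact fun V hR hV => V.mul_mem _ _ (h0 V hR hV) (h2 V hR hV)

/-- `J(q^c)` is integral over `ℤ[J(q^d) J(q^e)]`. -/
theorem isIntegral_jd_of_mul (d e c : ℕ) (hd : d ∣ N) (he : e ∣ N) (hc : c ∣ N) :
    IsIntegral (Algebra.adjoin ℤ {jd L N d hd * jd L N e he}) (jd L N c hc) :=
  isIntegral_adjoin_trans (isIntegral_adjoin_mul_left (isIntegral_jd_jd L N e d he hd))
    (isIntegral_jd_jd L N d c hd hc)

variable {L N}

/-- **Same finite chart**: `R[J(q^d) J(q^e)]` and `R[J(q^c)]` have the same integral closure. -/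
theorem isIntegral_jd_mul_iff {R : Type*} [CommRing R]
    [Algebra R ↥(laurentBaseChange L (modularFunctionFieldFull N))]
    (d e c : ℕ) (hd : d ∣ N) (he : e ∣ N) (hc : c ∣ N)
    (w : ↥(laurentBaseChange L (modularFunctionFieldFull N))) :
    IsIntegral (Algebra.adjoin R {jd L N d hd * jd L N e he}) w ↔
      IsIntegral (Algebra.adjoin R {jd L N c hc}) w := by
  have h1 := isIntegral_jd_mul L N d e c hd he hc
  have h2 := isIntegral_jd_of_mul L N d e c hd he hc
  rw [isIntegral_adjoin_singleton_iff] at h1 h2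
  have hint : ∀ V : ValuationSubring ↥(laurentBaseChange L (modularFunctionFieldFull N)),
      (∀ n : ℤ, algebraMap ℤ _ n ∈ V) := fun V n => by
    rw [eq_intCast]
    exact intCast_mem V n
  constructor
  · intro hw
    rw [isIntegral_adjoin_singleton_iff] at hw ⊢
    exact fun V hR hV => hw V hR (h1 V (hint V) hV)
  · intro hw
    rw [isIntegral_adjoin_singleton_iff] at hw ⊢
    exact fun V hR hV => hw V hR (h2 V (hint V) hV)

/-- **(X-4)** the chart at infinity of `J(q^d) J(q^e)` contains the chart at infinity of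
`J(q^d)`. -/
theorem isIntegral_jd_mul_inv_of_left {R : Type*} [CommRing R]
    [Algebra R ↥(laurentBaseChange L (modularFunctionFieldFull N))]
    (d e : ℕ) (hd : d ∣ N) (he : e ∣ N)
    {w : ↥(laurentBaseChange L (modularFunctionFieldFull N))}
    (hw : IsIntegral (Algebra.adjoin R {(jd L N d hd)⁻¹}) w) :
    IsIntegral (Algebra.adjoin R {(jd L N d hd * jd L N e he)⁻¹}) w := by
  have h1 := isIntegral_adjoin_inv_mul_left (R := ℤ) (jd_ne_zero L N e he)
    (isIntegral_jd_jd L N d e hd he)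
  rw [isIntegral_adjoin_singleton_iff] at h1 hw ⊢
  exact fun V hR hV => hw V hR (h1 V (fun n => by rw [eq_intCast]; exact intCast_mem V n) hV)

/-- **(X-4)** the chart at infinity of `J(q^d) J(q^e)` contains the chart at infinity of
`J(q^e)`. -/
theorem isIntegral_jd_mul_inv_of_right {R : Type*} [CommRing R]
    [Algebra R ↥(laurentBaseChange L (modularFunctionFieldFull N))]
    (d e : ℕ) (hd : d ∣ N) (he : e ∣ N)
    {w : ↥(laurentBaseChange L (modularFunctionFieldFull N))}
    (hw : IsIntegral (Algebra.adjoin R {(jd L N e he)⁻¹}) w) :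
    IsIntegral (Algebra.adjoin R {(jd L N d hd * jd L N e he)⁻¹}) w := by
  have h1 := isIntegral_adjoin_inv_mul_right (R := ℤ) (jd_ne_zero L N d hd)
    (isIntegral_jd_jd L N e d he hd)
  rw [isIntegral_adjoin_singleton_iff] at h1 hw ⊢
  exact fun V hR hV => hw V hR (h1 V (fun n => by rw [eq_intCast]; exact intCast_mem V n) hV)

variable {A : ValuationSubring L}

/-- The Gauss condition at `J(q^d)` is the Gauss condition at `J(q^c)`. -/
theorem gauss_jd_iff {V : ValuationSubring ↥(laurentBaseChange L (modularFunctionFieldFull N))}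
    (hV : IsAbove A V) (d c : ℕ) (hd : d ∣ N) (hc : c ∣ N) :
    (jd L N d hd ∈ V ∧ ResTransc A V (jd L N d hd)) ↔
      (jd L N c hc ∈ V ∧ ResTransc A V (jd L N c hc)) :=
  gauss_iff_of_isIntegral (R := ℤ) hV (fun r => by rw [eq_intCast]; exact intCast_mem A r)
    (isIntegral_jd_jd L N d c hd hc) (isIntegral_jd_jd L N c d hc hd)

/-- **The Gauss condition at `J(q^d) J(q^e)` is the Gauss condition at `J(q^c)`.** -/
theorem gauss_jd_mul_iff {V : ValuationSubring ↥(laurentBaseChange L (modularFunctionFieldFull N))}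
    (hV : IsAbove A V) (d e c : ℕ) (hd : d ∣ N) (he : e ∣ N) (hc : c ∣ N) :
    (jd L N d hd * jd L N e he ∈ V ∧ ResTransc A V (jd L N d hd * jd L N e he)) ↔
      (jd L N c hc ∈ V ∧ ResTransc A V (jd L N c hc)) :=
  gauss_iff_of_isIntegral (R := ℤ) hV (fun r => by rw [eq_intCast]; exact intCast_mem A r)
    (isIntegral_jd_of_mul L N d e c hd he hc) (isIntegral_jd_mul L N d e c hd he hc)

/-- **The Gauss condition at `(J(q^d) J(q^e))⁻¹` is the Gauss condition at `J(q^c)`.** -/
theorem gauss_jd_mul_inv_iff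
    {V : ValuationSubring ↥(laurentBaseChange L (modularFunctionFieldFull N))}
    (hV : IsAbove A V) (d e c : ℕ) (hd : d ∣ N) (he : e ∣ N) (hc : c ∣ N) :
    ((jd L N d hd * jd L N e he)⁻¹ ∈ V ∧ ResTransc A V (jd L N d hd * jd L N e he)⁻¹) ↔
      (jd L N c hc ∈ V ∧ ResTransc A V (jd L N c hc)) :=
  gauss_inv_iff.trans (gauss_jd_mul_iff hV d e c hd he hc)

end Level

/-! ### The chart function of the CAR instance -/

section Chart

variable (L : Type) [Field L] [Algebra ℚ L] (M' q : ℕ) [NeZero M'] [NeZero q]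

/-- **The chart function** `x = π_0^* X · π_2^* X`, `X = xL L M'` (ruling #6, R1). -/
def xB : ↥(laurentBaseChange L (modularFunctionFieldFull (M' * q * q))) :=
  CuspQuot.J0 (q := q) L M' * CuspQuot.J2 (q := q) L M'

theorem cuspJ0_eq : CuspQuot.J0 (q := q) L M' = jd L (M' * q * q) M' ⟨q * q, by ring⟩ :=
  Subtype.ext (CuspQuot.coe_J0 L M')

theorem cuspJ1_eq : CuspQuot.J1 (q := q) L M' = jd L (M' * q * q) (M' * q) ⟨q, by ring⟩ :=
  Subtype.ext (CuspQuot.coe_J1 L M')

theorem cuspJ2_eq : CuspQuot.J2 (q := q) L M' = jd L (M' * q * q) (M' * q * q) dvd_rfl :=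
  Subtype.ext (CuspQuot.coe_J2 L M')

theorem xB_eq : xB L M' q =
    jd L (M' * q * q) M' ⟨q * q, by ring⟩ * jd L (M' * q * q) (M' * q * q) dvd_rfl := by
  rw [xB, cuspJ0_eq, cuspJ2_eq]

theorem xB_eq_piStar : xB L M' q = piStar0 L M' q (xL L M') * piStar2 L M' q (xL L M') := rfl

theorem piStar0_jLevel_eq :
    piStar0 L M' q (jLevel L M') = jd L (M' * q * q) 1 (one_dvd _) :=
  (J0_eq L M' q).symm

theorem piStar0_xL_eq :
    piStar0 L M' q (xL L M') = jd L (M' * q * q) M' ⟨q * q, by ring⟩ :=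
  (XM_eq L M' q).symm

theorem xB_ne_zero : xB L M' q ≠ 0 := by
  rw [xB_eq]
  exact mul_ne_zero (jd_ne_zero L _ _ _) (jd_ne_zero L _ _ _)

/-- `xB` is integral over `ℤ[J(q^c)]` for every `c ∣ M' q²`. -/
theorem isIntegral_xB (c : ℕ) (hc : c ∣ M' * q * q) :
    IsIntegral (Algebra.adjoin ℤ {jd L (M' * q * q) c hc}) (xB L M' q) := by
  rw [xB_eq]
  exact isIntegral_jd_mul L _ _ _ c _ _ hc

/-- Every `J(q^c)`, `c ∣ M' q²`, is integral over `ℤ[xB]`. -/
theorem isIntegral_jd_xB (c : ℕ) (hc : c ∣ M' * q * q) :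
    IsIntegral (Algebra.adjoin ℤ {xB L M' q}) (jd L (M' * q * q) c hc) := by
  rw [xB_eq]
  exact isIntegral_jd_of_mul L _ _ _ c _ _ hc

variable {L M' q}

/-- **Same finite chart** for `xB` and any `J(q^c)`. -/
theorem isIntegral_xB_iff {R : Type*} [CommRing R]
    [Algebra R ↥(laurentBaseChange L (modularFunctionFieldFull (M' * q * q)))]
    (c : ℕ) (hc : c ∣ M' * q * q)
    (w : ↥(laurentBaseChange L (modularFunctionFieldFull (M' * q * q)))) :
    IsIntegral (Algebra.adjoin R {xB L M' q}) w ↔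
      IsIntegral (Algebra.adjoin R {jd L (M' * q * q) c hc}) w := by
  rw [xB_eq]
  exact isIntegral_jd_mul_iff _ _ c _ _ hc w

variable {A : ValuationSubring L}
  {V : ValuationSubring ↥(laurentBaseChange L (modularFunctionFieldFull (M' * q * q)))}

/-- Gauss at `xB` ⟺ Gauss at `J(q^c)`. -/
theorem gauss_xB_iff (hV : IsAbove A V) (c : ℕ) (hc : c ∣ M' * q * q) :
    (xB L M' q ∈ V ∧ ResTransc A V (xB L M' q)) ↔
      (jd L (M' * q * q) c hc ∈ V ∧ ResTransc A V (jd L (M' * q * q) c hc)) := by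
  rw [xB_eq]
  exact gauss_jd_mul_iff hV _ _ c _ _ hc

/-- Gauss at `xB⁻¹` ⟺ Gauss at `J(q^c)`. -/
theorem gauss_xB_inv_iff (hV : IsAbove A V) (c : ℕ) (hc : c ∣ M' * q * q) :
    ((xB L M' q)⁻¹ ∈ V ∧ ResTransc A V (xB L M' q)⁻¹) ↔
      (jd L (M' * q * q) c hc ∈ V ∧ ResTransc A V (jd L (M' * q * q) c hc)) := by
  rw [xB_eq]
  exact gauss_jd_mul_inv_iff hV _ _ c _ _ hc

/-- Gauss at `xB` ⟺ Gauss at `π_0^* J`, `J = jLevel L M'`. -/
theorem gauss_xB_iff_jLevel (hV : IsAbove A V) :
    (xB L M' q ∈ V ∧ ResTransc A V (xB L M' q)) ↔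
      (piStar0 L M' q (jLevel L M') ∈ V ∧ ResTransc A V (piStar0 L M' q (jLevel L M'))) := by
  rw [piStar0_jLevel_eq]
  exact gauss_xB_iff hV 1 (one_dvd _)

/-- Gauss at `xB⁻¹` ⟺ Gauss at `π_0^* J`, `J = jLevel L M'`. -/
theorem gauss_xB_inv_iff_jLevel (hV : IsAbove A V) :
    ((xB L M' q)⁻¹ ∈ V ∧ ResTransc A V (xB L M' q)⁻¹) ↔
      (piStar0 L M' q (jLevel L M') ∈ V ∧ ResTransc A V (piStar0 L M' q (jLevel L M'))) := by
  rw [piStar0_jLevel_eq]
  exact gauss_xB_inv_iff hV 1 (one_dvd _)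

/-- Gauss at `xB` ⟺ Gauss at `π_0^* X`, `X = xL L M'`. -/
theorem gauss_xB_iff_xL (hV : IsAbove A V) :
    (xB L M' q ∈ V ∧ ResTransc A V (xB L M' q)) ↔
      (piStar0 L M' q (xL L M') ∈ V ∧ ResTransc A V (piStar0 L M' q (xL L M'))) := by
  rw [piStar0_xL_eq]
  exact gauss_xB_iff hV M' _

/-- Gauss at `xB⁻¹` ⟺ Gauss at `π_0^* X`, `X = xL L M'`. -/
theorem gauss_xB_inv_iff_xL (hV : IsAbove A V) :
    ((xB L M' q)⁻¹ ∈ V ∧ ResTransc A V (xB L M' q)⁻¹) ↔
      (piStar0 L M' q (xL L M') ∈ V ∧ ResTransc A V (piStar0 L M' q (xL L M'))) := by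
  rw [piStar0_xL_eq]
  exact gauss_xB_inv_iff hV M' _

/-- Gauss at `xB⁻¹` ⟺ Gauss at `xB`. -/
theorem gauss_xB_inv_iff_xB :
    ((xB L M' q)⁻¹ ∈ V ∧ ResTransc A V (xB L M' q)⁻¹) ↔
      (xB L M' q ∈ V ∧ ResTransc A V (xB L M' q)) :=
  gauss_inv_iff

/-! #### Exhaustion: the literal `hex` binders at `t = xB` and `t = xB⁻¹` -/

variable {ι : Type*}
  {W : ι → ValuationSubring ↥(laurentBaseChange L (modularFunctionFieldFull (M' * q * q)))}

/-- Exhaustion at `xB` from the exhaustion at `π_0^* J` (the shape of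
`CountGauss.eq_of_resTransc`). -/
theorem exists_eq_of_gauss_xB
    (hex : ∀ V' : ValuationSubring ↥(laurentBaseChange L (modularFunctionFieldFull (M' * q * q))),
      IsAbove A V' → piStar0 L M' q (jLevel L M') ∈ V' →
        ResTransc A V' (piStar0 L M' q (jLevel L M')) → ∃ i, V' = W i)
    (V' : ValuationSubring ↥(laurentBaseChange L (modularFunctionFieldFull (M' * q * q))))
    (hV' : IsAbove A V') (hx : xB L M' q ∈ V') (h : ResTransc A V' (xB L M' q)) :
    ∃ i, V' = W i := by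
  obtain ⟨h1, h2⟩ := (gauss_xB_iff_jLevel hV').mp ⟨hx, h⟩
  exact hex V' hV' h1 h2

/-- Exhaustion at `xB⁻¹` from the exhaustion at `π_0^* J`. -/
theorem exists_eq_of_gauss_xB_inv
    (hex : ∀ V' : ValuationSubring ↥(laurentBaseChange L (modularFunctionFieldFull (M' * q * q))),
      IsAbove A V' → piStar0 L M' q (jLevel L M') ∈ V' →
        ResTransc A V' (piStar0 L M' q (jLevel L M')) → ∃ i, V' = W i)
    (V' : ValuationSubring ↥(laurentBaseChange L (modularFunctionFieldFull (M' * q * q))))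
    (hV' : IsAbove A V') (hx : (xB L M' q)⁻¹ ∈ V') (h : ResTransc A V' (xB L M' q)⁻¹) :
    ∃ i, V' = W i := by
  obtain ⟨h1, h2⟩ := (gauss_xB_inv_iff_jLevel hV').mp ⟨hx, h⟩
  exact hex V' hV' h1 h2

/-- Exhaustion at `xB` from the exhaustion at `π_0^* X` (the shape of `Count.eq_of_gauss`). -/
theorem exists_eq_of_gauss_xB_of_xL
    (hex : ∀ V' : ValuationSubring ↥(laurentBaseChange L (modularFunctionFieldFull (M' * q * q))),
      IsAbove A V' → piStar0 L M' q (xL L M') ∈ V' →
        ResTransc A V' (piStar0 L M' q (xL L M')) → ∃ i, V' = W i)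
    (V' : ValuationSubring ↥(laurentBaseChange L (modularFunctionFieldFull (M' * q * q))))
    (hV' : IsAbove A V') (hx : xB L M' q ∈ V') (h : ResTransc A V' (xB L M' q)) :
    ∃ i, V' = W i := by
  obtain ⟨h1, h2⟩ := (gauss_xB_iff_xL hV').mp ⟨hx, h⟩
  exact hex V' hV' h1 h2

/-- Exhaustion at `xB⁻¹` from the exhaustion at `π_0^* X`. -/
theorem exists_eq_of_gauss_xB_inv_of_xL
    (hex : ∀ V' : ValuationSubring ↥(laurentBaseChange L (modularFunctionFieldFull (M' * q * q))),
      IsAbove A V' → piStar0 L M' q (xL L M') ∈ V' →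
        ResTransc A V' (piStar0 L M' q (xL L M')) → ∃ i, V' = W i)
    (V' : ValuationSubring ↥(laurentBaseChange L (modularFunctionFieldFull (M' * q * q))))
    (hV' : IsAbove A V') (hx : (xB L M' q)⁻¹ ∈ V') (h : ResTransc A V' (xB L M' q)⁻¹) :
    ∃ i, V' = W i := by
  obtain ⟨h1, h2⟩ := (gauss_xB_inv_iff_xL hV').mp ⟨hx, h⟩
  exact hex V' hV' h1 h2

/-- The members of a family at which `π_0^* J` is Gauss are Gauss at `xB` and at `xB⁻¹`. -/
theorem gauss_xB_of_jLevel (hV : IsAbove A V) (h1 : piStar0 L M' q (jLevel L M') ∈ V)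
    (h2 : ResTransc A V (piStar0 L M' q (jLevel L M'))) :
    (xB L M' q ∈ V ∧ ResTransc A V (xB L M' q)) ∧
      ((xB L M' q)⁻¹ ∈ V ∧ ResTransc A V (xB L M' q)⁻¹) :=
  ⟨(gauss_xB_iff_jLevel hV).mpr ⟨h1, h2⟩, (gauss_xB_inv_iff_jLevel hV).mpr ⟨h1, h2⟩⟩

end Chart

end

end Fermat.Agent.CAR.Glob.ChartXB
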