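import Mathlib
import Fermat.Agent.CAR.Glob.ChartX
import Fermat.Agent.CAR.Glob.Charts
import Fermat.Agent.CAR.Local.VerticalPrimes
import Fermat.Agent.CAR.Local.Inst.ChartFields

/-!
# CAR (row 394): `hmin` and `not_max` for a chart ring, abstract form

`O` a discrete valuation subring of `K` with uniformiser `ϖ`, `F ⊇ K` a field, `t : F` a chart
coordinate (transcendental over `K`, `F` finite over `K(t)`), `chart O t` the integral closure of
`O[t]` in `F` (`Glob/Charts.lean`).  A valuation subring `V` of `F` is a *Gauss point of `t`* if it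
is above `O`, contains `t` and the residue of `t` is transcendental (`ChartX.ResTransc`).

* `inv_mem_of_resTransc`, `resTransc_inv` : a Gauss point of `t` is a Gauss point of `t⁻¹`.
* `centre_not_isMaximal_of_resTransc` : **(`not_max`)** the centre on `chart O t` of a Gauss point
  of `t` is not a maximal ideal.
* `hmin_of_exhaust` : **(`hmin`)** if the family `V i` exhausts the Gauss points of `t`, every
  prime of `chart O t` minimal over `ϖ` is the centre of some `V i` — the literal shape of the
  binders `hmin` (`t = x`) and `hmin'` (`t = x⁻¹`) of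
  `Charts.exists_eq_const_mul_pow_of_charts_FNK`.

The proof of `hmin_of_exhaust` is `VerticalPrimes.minimalPrimes_eq_centre_of_forall_comap` for
`A₀ = O[t]`, `K₀ = K(t)`, `V₀` = the Gauss ring of `K(t)` (restriction of a reference Gauss
point).
-/

set_option autoImplicit false
set_option linter.style.haveILetI false

namespace Fermat.Agent.CAR.Glob.HMinAbs

open Polynomial IntermediateField IsLocalRing
open Fermat.Agent.CAR.Formal (IsUnif)
open Fermat.Agent.CAR.V3.CountAbs (IsAbove)
open Fermat.Agent.CAR.Glob.ChartX Fermat.Agent.CAR.Glob.Charts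

/-! ### Gauss points of `t` and of `t⁻¹` -/

section Inv

variable {K F : Type*} [Field K] [Field F] [Algebra K F]
  {O : ValuationSubring K} {V : ValuationSubring F} {t : F}

/-- A Gauss point is a unit of the valuation ring. -/
theorem inv_mem_of_resTransc (h : ResTransc O V t) : t⁻¹ ∈ V := by
  by_contra hinv
  have hnu : t ∈ V.nonunits := by
    rw [ValuationSubring.mem_nonunits_iff_or]
    exact Or.inr hinv
  have h1 := h (X : K[X]) (fun n => by
    rw [coeff_X]
    split_ifs
    · exact O.one_mem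
    · exact O.zero_mem) (by rwa [aeval_X]) 1
  rw [coeff_X_one, ValuationSubring.mem_nonunits_iff, map_one] at h1
  exact lt_irrefl _ h1

/-- A Gauss point of `t` is a Gauss point of `t⁻¹`. -/
theorem resTransc_inv (h : ResTransc O V t) (ht : t ∈ V) : ResTransc O V t⁻¹ := by
  intro p hp hnu j
  by_cases ht0 : t = 0
  · exfalso
    have h1 := h (X : K[X]) (fun n => by
      rw [coeff_X]
      split_ifs
      · exact O.one_mem
      · exact O.zero_mem) (by
        rw [aeval_X, ht0, ValuationSubring.mem_nonunits_iff_or]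
        exact Or.inl rfl) 1
    rw [coeff_X_one, ValuationSubring.mem_nonunits_iff, map_one] at h1
    exact lt_irrefl _ h1
  -- the reversed polynomial
  have hrev : aeval t p.reverse = aeval t⁻¹ p * t ^ p.natDegree := by
    letI : Invertible t⁻¹ := invertibleOfNonzero (inv_ne_zero ht0)
    have h2 := Polynomial.eval₂_reverse_mul_pow (algebraMap K F) t⁻¹ p
    have h3 : (⅟(t⁻¹) : F) = t := by
      rw [invOf_eq_inv, inv_inv]
    rw [h3] at h2
    rw [aeval_def, aeval_def, ← h2, mul_assoc, ← mul_pow, inv_mul_cancel₀ ht0, one_pow, mul_one]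
  have hnu' : aeval t p.reverse ∈ V.nonunits := by
    rw [hrev, mul_comm]
    exact Fermat.Agent.CAR.V3.CountAbs.mul_mem_nonunits (V.pow_mem ht _) hnu
  have hcoef : ∀ n, p.reverse.coeff n ∈ O := fun n => by
    rw [coeff_reverse]
    exact hp _
  have h4 := h p.reverse hcoef hnu'
  by_cases hj : j ≤ p.natDegree
  · have h5 := h4 (p.natDegree - j)
    rw [coeff_reverse, revAt_le (Nat.sub_le _ _), Nat.sub_sub_self hj] at h5
    exact h5
  · rw [coeff_eq_zero_of_natDegree_lt (not_le.mp hj), ValuationSubring.mem_nonunits_iff_or]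
    exact Or.inl rfl

/-- Gauss points of `t⁻¹` are Gauss points of `t`. -/
theorem gauss_of_inv (h : ResTransc O V t⁻¹) (ht : t⁻¹ ∈ V) : t ∈ V ∧ ResTransc O V t := by
  have h1 := inv_mem_of_resTransc h
  have h2 := resTransc_inv h ht
  rw [inv_inv] at h1 h2
  exact ⟨h1, h2⟩

end Inv

/-! ### `not_max` -/

section NotMax

variable {K F : Type*} [Field K] [Field F] [Algebra K F]
  (O : ValuationSubring K) [Algebra O F] [IsScalarTower O K F]

/-- **(`not_max`)** The centre on the chart ring `chart O t` of a Gauss point of `t` is not a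
maximal ideal (the component is not a closed point). -/
theorem centre_not_isMaximal_of_resTransc {V : ValuationSubring F} {t : F} (hV : IsAbove O V)
    (ht : t ∈ V) (h : ResTransc O V t) (hBV : ∀ r ∈ chart O t, r ∈ V) :
    ¬ (Local.centre V (fun a : chart O t => hBV a a.2)).IsMaximal := by
  letI := (resHom hV).toAlgebra
  have hW : ∀ w : O, algebraMap O F w ∈ V := fun w => by
    rw [IsScalarTower.algebraMap_apply O K F]
    exact (hV _).mpr w.2
  refine Local.Inst.ChartFields.centre_not_isMaximal (W := O) (B := chart O t)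
    (k := ResidueField O) V (residue V) (fun x => residue_eq_zero_iff x)
    (fun a : chart O t => hBV a a.2) (x := t) (fun b => b.2) ⟨t, self_mem_chart t⟩ rfl hW
    (fun w => ⟨residue O w, ?_⟩) ?_
  · show residue V ⟨algebraMap O F w, hW w⟩ = resHom hV (residue O w)
    rw [resHom_residue]
    exact congrArg (residue V) (Subtype.ext (IsScalarTower.algebraMap_apply O K F w))
  · exact h.transcendental_residue hV ht

end NotMax

/-! ### `hmin` -/

section HMin

variable {K F : Type*} [Field K] [Field F] [Algebra K F]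
  (O : ValuationSubring K) [Algebra O F] [IsScalarTower O K F]

/-- Elements of `O[t]` are values at `t` of polynomials with coefficients in `O`. -/
theorem exists_aeval_eq_of_mem_adjoin {t : F} {a : F} (ha : a ∈ Algebra.adjoin O {t}) :
    ∃ P : O[X], a = aeval t (P.map O.subtype) := by
  rw [Algebra.adjoin_singleton_eq_range_aeval] at ha
  obtain ⟨P, hP⟩ := ha
  refine ⟨P, ?_⟩
  have h1 : aeval t (P.map O.subtype) = aeval t P := by
    have := aeval_map_algebraMap (A := K) (B := F) t P
    exact this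
  rw [h1]
  exact hP.symm

/-- **(`hmin`)**  Let `O` be a discrete valuation subring of `K` with uniformiser `ϖ = q`,
`t : F` transcendental over `K` with `F` finite over `K(t)`, `V₀` a Gauss point of `t`, and
assume that the family `V i` exhausts the Gauss points of `t`.  Then every prime of the chart ring
`chart O t` minimal over `q` is the centre of some `V i`. -/
theorem hmin_of_exhaust {ϖ : K} (hu : IsUnif O ϖ) (q : O) (hq : (q : K) = ϖ) {t : F}
    (htr : Transcendental K t) [FiniteDimensional K⟮t⟯ F]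
    {V₀ : ValuationSubring F} (hV₀ : IsAbove O V₀) (ht₀ : t ∈ V₀) (h₀ : ResTransc O V₀ t)
    {ι : Type*} (V : ι → ValuationSubring F) (hBV : ∀ i, ∀ r ∈ chart O t, r ∈ V i)
    (hex : ∀ V' : ValuationSubring F, IsAbove O V' → t ∈ V' → ResTransc O V' t → ∃ i, V' = V i) :
    ∀ 𝔮 ∈ (Ideal.span {algebraMap O (chart O t) q}).minimalPrimes,
      ∃ i, 𝔮 = Local.centre (V i) (fun a : chart O t => hBV i a a.2) := by
  have hdvr : IsDiscreteValuationRing O := Fermat.Agent.CAR.V3.CountAbs.unif_isDiscreteValuationRing hu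
  have htK : t ∈ K⟮t⟯ := mem_adjoin_simple_self K t
  letI := adjoinAlgebra (W := O) t K⟮t⟯ htK
  haveI := adjoinAlgebra_isScalarTower (W := O) t K⟮t⟯ htK
  haveI := adjoinAlgebra_isFractionRing (W := O) t K⟮t⟯ htK le_rfl
  haveI : IsIntegrallyClosed (Algebra.adjoin O {t}) := adjoin_isIntegrallyClosed (W := O) htr
  haveI : IsFractionRing (chart O t) F := chart_isFractionRing (W := O) K⟮t⟯ htK le_rfl
  letI : Algebra (Algebra.adjoin O {t}) (chart O t) :=
    inferInstanceAs (Algebra (Algebra.adjoin O {t}) (integralClosure (Algebra.adjoin O {t}) F))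
  haveI : IsScalarTower (Algebra.adjoin O {t}) (chart O t) F :=
    IsScalarTower.of_algebraMap_eq (fun _ => rfl)
  haveI : Algebra.IsIntegral (Algebra.adjoin O {t}) (chart O t) :=
    inferInstanceAs (Algebra.IsIntegral (Algebra.adjoin O {t})
      (integralClosure (Algebra.adjoin O {t}) F))
  -- the Gauss ring of `K(t)`
  set G : ValuationSubring K⟮t⟯ := V₀.comap (algebraMap K⟮t⟯ F) with hG
  have hGunif : IsUnif G (algebraMap K K⟮t⟯ ϖ) := isUnif_comap_adjoin hu hV₀ ht₀ h₀
  have hOV₀ : ∀ w : O, algebraMap O F w ∈ V₀ := fun w => by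
    rw [IsScalarTower.algebraMap_apply O K F]
    exact (hV₀ _).mpr w.2
  have hA₀ : ∀ a : Algebra.adjoin O {t}, algebraMap (Algebra.adjoin O {t}) K⟮t⟯ a ∈ G := fun a =>
    Local.Inst.ChartFields.adjoin_le V₀ hOV₀ ht₀ a.2
  -- the element `q` of `O[t]`
  set q' : Algebra.adjoin O {t} := algebraMap O (Algebra.adjoin O {t}) q with hq'
  have hq'F : ((q' : Algebra.adjoin O {t}) : F) = algebraMap K F ϖ := by
    rw [← hq]
    exact IsScalarTower.algebraMap_apply O K F q
  have hq'0 : q' ≠ 0 := by
    intro h0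
    have h1 : algebraMap K F ϖ = 0 := by rw [← hq'F, h0]; rfl
    exact hu.ne_zero ((map_eq_zero _).mp h1)
  have hq'K : algebraMap (Algebra.adjoin O {t}) K⟮t⟯ q' = algebraMap K K⟮t⟯ ϖ :=
    Subtype.ext hq'F
  -- the centre of the Gauss ring on `O[t]` is `(q)`
  have hcentre : Local.centre G hA₀ = Ideal.span {q'} := by
    apply le_antisymm
    · intro a ha
      rw [Local.mem_centre_iff] at ha
      have ha' : (a : F) ∈ V₀.nonunits := by
        have := (Local.mem_nonunits_comap_algebraMap_iff (K₀ := K⟮t⟯) V₀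
          (algebraMap (Algebra.adjoin O {t}) K⟮t⟯ a)).mp ha
        exact this
      obtain ⟨P, hP⟩ := exists_aeval_eq_of_mem_adjoin O a.2
      rw [hP] at ha'
      have hcoef := h₀ (P.map O.subtype) (fun n => by rw [coeff_map]; exact (P.coeff n).2) ha'
      -- every coefficient is divisible by `q`
      have hdiv : ∀ n, ∃ c : O, P.coeff n = q * c := by
        intro n
        have h1 := hcoef n
        rw [coeff_map] at h1
        obtain ⟨c, hc, hc'⟩ := Fermat.Agent.CAR.V3.CountAbs.unif_exists_eq_mul hu h1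
        refine ⟨⟨c, hc⟩, Subtype.ext ?_⟩
        rw [Subring.coe_mul, hq]
        exact hc'
      choose c hc using hdiv
      rw [Ideal.mem_span_singleton]
      have hP' : P = C q * ∑ n ∈ Finset.range (P.natDegree + 1), C (c n) * X ^ n := by
        conv_lhs => rw [P.as_sum_range_C_mul_X_pow]
        rw [Finset.mul_sum]
        refine Finset.sum_congr rfl fun n _ => ?_
        rw [hc n, C_mul, mul_assoc]
      refine ⟨⟨aeval t (∑ n ∈ Finset.range (P.natDegree + 1), C (c n) * X ^ n),
        aeval_mem_adjoin_singleton O t⟩, Subtype.ext ?_⟩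
      have h2 : aeval t (P.map O.subtype) = aeval t P :=
        aeval_map_algebraMap (A := K) (B := F) t P
      rw [hP, h2]
      conv_lhs => rw [hP']
      rw [map_mul, aeval_C]
      rfl
    · rw [Ideal.span_singleton_le_iff_mem, Local.mem_centre_iff, hq'K]
      exact hGunif.mem_nonunits
  have hmin₀ : ∀ 𝔮₀ ∈ (Ideal.span {q'}).minimalPrimes, 𝔮₀ = Local.centre G hA₀ := by
    intro 𝔮₀ h𝔮₀
    rw [← hcentre, Ideal.minimalPrimes_eq_subsingleton_self] at h𝔮₀
    exact h𝔮₀
  -- the Gauss ring is the localisation of `O[t]` at `(q)`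
  have hloc₀ : ∀ z ∈ G, ∃ a b : Algebra.adjoin O {t},
      algebraMap (Algebra.adjoin O {t}) K⟮t⟯ b ∉ G.nonunits ∧
      z = algebraMap (Algebra.adjoin O {t}) K⟮t⟯ a / algebraMap (Algebra.adjoin O {t}) K⟮t⟯ b := by
    intro z hz
    by_cases hz0 : z = 0
    · refine ⟨0, 1, ?_, by rw [hz0, map_zero, zero_div]⟩
      rw [map_one]
      intro h1
      rw [ValuationSubring.mem_nonunits_iff, map_one] at h1
      exact lt_irrefl _ h1
    obtain ⟨r, s, hrs⟩ := (mem_adjoin_simple_iff K (z : F)).mp z.2
    have hzF : (z : F) ≠ 0 := fun h0 => hz0 (Subtype.ext h0)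
    have hr0 : r ≠ 0 := by
      rintro rfl
      exact hzF (by rw [hrs]; simp)
    have hs0 : s ≠ 0 := by
      rintro rfl
      exact hzF (by rw [hrs]; simp)
    obtain ⟨cr, r₀, hcr, hr, hr₀, hr₁⟩ := exists_primitive O hr0
    obtain ⟨cs, s₀, hcs, hs, hs₀, hs₁⟩ := exists_primitive O hs0
    obtain ⟨h1, h1'⟩ := h₀.aeval_primitive hV₀ ht₀ hr₀ hr₁
    obtain ⟨h2, h2'⟩ := h₀.aeval_primitive hV₀ ht₀ hs₀ hs₁
    have hs₀0 : aeval t s₀ ≠ 0 := by
      intro h0
      apply hzF
      rw [hrs, hs, map_mul, h0, mul_zero, div_zero]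
    have hr₀0 : aeval t r₀ ≠ 0 := by
      intro h0
      apply hzF
      rw [hrs, hr, map_mul, h0, mul_zero, zero_div]
    have hcsF : algebraMap K F cs ≠ 0 := (_root_.map_ne_zero _).mpr hcs
    have hzeq : (z : F) = algebraMap K F (cr / cs) * aeval t r₀ / aeval t s₀ := by
      rw [hrs, hr, hs, map_mul, map_mul, aeval_C, aeval_C, map_div₀]
      field_simp
    -- the constant lies in `O`
    have hc : cr / cs ∈ O := by
      rw [← hV₀]
      have h3 : algebraMap K F (cr / cs) = (z : F) * aeval t s₀ * (aeval t r₀)⁻¹ := by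
        rw [hzeq]
        field_simp
      rw [h3]
      exact V₀.mul_mem _ _ (V₀.mul_mem _ _ hz h2) h1'
    -- lift the polynomials to `O[X]`
    obtain ⟨rO, hrO, -⟩ := exists_map_subtype_eq O hr₀
    obtain ⟨sO, hsO, -⟩ := exists_map_subtype_eq O hs₀
    have e1 : ∀ P : O[X], aeval t (P.map O.subtype) = aeval t P := fun P =>
      aeval_map_algebraMap (A := K) (B := F) t P
    refine ⟨⟨algebraMap O F ⟨cr / cs, hc⟩ * aeval t rO,
        mul_mem (Subalgebra.algebraMap_mem _ _) (aeval_mem_adjoin_singleton O t)⟩,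
      ⟨aeval t sO, aeval_mem_adjoin_singleton O t⟩, ?_, Subtype.ext ?_⟩
    · intro hnu
      have hnu' : aeval t sO ∈ V₀.nonunits :=
        (Local.mem_nonunits_comap_algebraMap_iff (K₀ := K⟮t⟯) V₀ _).mp hnu
      rw [← e1, hsO] at hnu'
      rw [ValuationSubring.mem_nonunits_iff_or] at hnu'
      rcases hnu' with h0 | h0
      · exact hs₀0 h0
      · exact h0 h2'
    · show (z : F) = (algebraMap O F ⟨cr / cs, hc⟩ * aeval t rO) / aeval t sO
      rw [← e1 rO, ← e1 sO, hrO, hsO, hzeq, IsScalarTower.algebraMap_apply O K F]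
      rfl
  -- `q` is a uniformiser of the Gauss ring
  have hq₀ : ∀ z ∈ G.nonunits, z / algebraMap (Algebra.adjoin O {t}) K⟮t⟯ q' ∈ G := by
    intro z hz
    obtain ⟨c, hc, rfl⟩ := Fermat.Agent.CAR.V3.CountAbs.unif_exists_eq_mul hGunif hz
    rw [hq'K, mul_div_cancel_left₀ _ hGunif.ne_zero]
    exact hc
  -- exhaustion
  have hall : ∀ V' : ValuationSubring F, V'.comap (algebraMap K⟮t⟯ F) = G → ∃ i, V' = V i := by
    intro V' hV'
    have habove : IsAbove G V' := fun x => by
      rw [← hV', ValuationSubring.mem_comap]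
    obtain ⟨h1, h2, h3⟩ := (isAbove_comap_adjoin_iff hV₀ ht₀ h₀ V').mp habove
    exact hex V' h1 h2 h3
  have key := Local.minimalPrimes_eq_centre_of_forall_comap (A₀ := Algebra.adjoin O {t})
    (B := chart O t) (K₀ := K⟮t⟯) (F := F) q' hq'0 G hA₀ hmin₀ hloc₀ hq₀ V
    (fun i (b : chart O t) => hBV i b b.2) hall
  intro 𝔮 h𝔮
  have e2 : algebraMap (Algebra.adjoin O {t}) (chart O t) q' = algebraMap O (chart O t) q :=
    Subtype.ext rfl
  rw [← e2] at h𝔮
  exact key 𝔮 h𝔮

end HMin

end Fermat.Agent.CAR.Glob.HMinAbs
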